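import Mathlib
import Fermat.Agent.CFT.Defs

/-!
# T-CFT, module AN (analytic): interface (helper17, AN lead)

Target: `H14CFT.SecondInequality` and `H14CFT.NonSplitPrimeExists`.

All series are REAL series in a real variable `s ∈ (1, 2]`, indexed by the nonzero ideals
`(Ideal (𝓞 E))⁰` of the ring of integers (`ClassGroup.mk0 : (Ideal (𝓞 E))⁰ →* ClassGroup (𝓞 E)`).

Slices (each owner proves `theorem … : <Prop below>`; the assembly files take them as hypotheses):

* `ZetaSummable`, `ZetaBounds`   (AN0)  summability, `c/(s-1) ≤ ζ_E(s) ≤ C/(s-1)` on `(1,2]`;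
* `EulerProd`                    (AN-A) Euler product over the nonzero primes for a monoid
                                        homomorphism `f : (Ideal (𝓞 E))⁰ →* ℂ` with summable norm;
* `PrimeLower`, `PrimeUpper`     (AN-A) `exp (Σ_{P ∈ T} N P ^ (-s)) ≤ ζ_E(s)` and
                                        `ζ_E(s) ≤ C · exp (Σ_{N P prime, ∤ D} N P ^ (-s))`;
* `PartialZetaBounded`           (AN-C) `|ζ(s, C) - ζ(s, 1)| ≤ B` on `(1,2]` (the crux);
* `SplitNorm`, `SplitGood`       (SP)   algebra of complete splitting in a Galois extension;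
* `ClassProduct`                 (AN-D) `exp (h · Σ_{P ∈ S} N P ^ (-s)) ≤ B' · ζ_E(s)` when the classes
                                        of the primes in `S` lie in a subgroup `𝒩` of index `h`;
* assembly AN-B (`NonSplitPrimeExists`) and AN-E (`SecondInequality`).
-/

set_option autoImplicit false

namespace H17AN

open NumberField
open scoped nonZeroDivisors

section defs

variable (E : Type) [Field E] [NumberField E]

/-- The nonzero prime ideals of `𝓞 E` lying in the set `T`. -/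
abbrev PrimesIn (T : Set (Ideal (𝓞 E))) : Type :=
  {P : Ideal (𝓞 E) // P.IsPrime ∧ P ≠ ⊥ ∧ P ∈ T}

/-- `ζ_E(s) = Σ_{I ≠ 0} N(I)^{-s}` (real `s`), as a sum over the nonzero ideals. -/
noncomputable def zetaI (s : ℝ) : ℝ :=
  ∑' I : (Ideal (𝓞 E))⁰, (Ideal.absNorm (I : Ideal (𝓞 E)) : ℝ) ^ (-s)

/-- The partial zeta function of the ideal class `C`. -/
noncomputable def zetaC (C : ClassGroup (𝓞 E)) (s : ℝ) : ℝ :=
  ∑' I : {I : (Ideal (𝓞 E))⁰ // ClassGroup.mk0 I = C},
    (Ideal.absNorm (I.1 : Ideal (𝓞 E)) : ℝ) ^ (-s)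

/-- The prime sum `Σ_{P ∈ T} N(P)^{-s}` over the nonzero primes in `T`. -/
noncomputable def primeSum (T : Set (Ideal (𝓞 E))) (s : ℝ) : ℝ :=
  ∑' P : PrimesIn E T, (Ideal.absNorm P.1 : ℝ) ^ (-s)

/-- The primes of prime absolute norm not dividing `D` ("degree one, outside `D`"). -/
def degOne (D : ℕ) : Set (Ideal (𝓞 E)) :=
  {P | (Ideal.absNorm P).Prime ∧ ¬ (Ideal.absNorm P ∣ D)}

/-- **AN0.** Summability of `Σ N(I)^{-s}` for `s > 1`. -/
def ZetaSummable : Prop :=
  ∀ s : ℝ, 1 < s →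
    Summable fun I : (Ideal (𝓞 E))⁰ => (Ideal.absNorm (I : Ideal (𝓞 E)) : ℝ) ^ (-s)

/-- **AN0.** `c/(s-1) ≤ ζ_E(s) ≤ C/(s-1)` on `(1, 2]`. -/
def ZetaBounds : Prop :=
  ∃ c C : ℝ, 0 < c ∧ ∀ s ∈ Set.Ioc (1 : ℝ) 2,
    c / (s - 1) ≤ zetaI E s ∧ zetaI E s ≤ C / (s - 1)

/-- **AN-A.** Euler product over the nonzero primes, for a completely multiplicative function on
the nonzero ideals with summable norm. -/
def EulerProd : Prop :=
  ∀ f : (Ideal (𝓞 E))⁰ →* ℂ, Summable (fun I : (Ideal (𝓞 E))⁰ => ‖f I‖) →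
    HasProd (fun P : {P : (Ideal (𝓞 E))⁰ // (P : Ideal (𝓞 E)).IsPrime} => (1 - f P.1)⁻¹)
      (∑' I : (Ideal (𝓞 E))⁰, f I)

/-- **AN-A (L).** Lower bound of `ζ_E` by any prime sum. -/
def PrimeLower : Prop :=
  ∀ (T : Set (Ideal (𝓞 E))) (s : ℝ), 1 < s →
    Summable (fun P : PrimesIn E T => (Ideal.absNorm P.1 : ℝ) ^ (-s)) ∧
      Real.exp (primeSum E T s) ≤ zetaI E s

/-- **AN-A (U).** Upper bound of `ζ_E` by the sum over the primes of degree one outside `D`. -/
def PrimeUpper : Prop :=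
  ∀ D : ℕ, D ≠ 0 → ∃ C : ℝ, ∀ s ∈ Set.Ioc (1 : ℝ) 2,
    zetaI E s ≤ C * Real.exp (primeSum E (degOne E D) s)

/-- **AN-C (crux).** The partial zeta functions of two ideal classes differ by a bounded
function on `(1, 2]`. -/
def PartialZetaBounded : Prop :=
  ∃ B : ℝ, ∀ C : ClassGroup (𝓞 E), ∀ s ∈ Set.Ioc (1 : ℝ) 2,
    |zetaC E C s - zetaC E 1 s| ≤ B

/-- **AN-D.** If the classes of the primes in `S` lie in the subgroup `𝒩`, of index `h`, then
`exp (h · Σ_{P ∈ S} N(P)^{-s}) ≤ B' · ζ_E(s)` on `(1, 2]`. -/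
def ClassProduct : Prop :=
  ∀ 𝒩 : Subgroup (ClassGroup (𝓞 E)), ∃ B' : ℝ, ∀ S : Set (Ideal (𝓞 E)),
    (∀ P : (Ideal (𝓞 E))⁰, (P : Ideal (𝓞 E)).IsPrime → (P : Ideal (𝓞 E)) ∈ S →
      ClassGroup.mk0 P ∈ 𝒩) →
    ∀ s ∈ Set.Ioc (1 : ℝ) 2,
      Real.exp (𝒩.index * primeSum E S s) ≤ B' * zetaI E s

end defs

section splitting

variable (E M : Type) [Field E] [NumberField E] [Field M] [NumberField M] [Algebra E M]

/-- **SP-a.** In a Galois extension, a prime over a completely split prime has the same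
absolute norm. -/
def SplitNorm : Prop :=
  ∀ (P : Ideal (𝓞 E)) (Q : Ideal (𝓞 M)), P.IsPrime → P ≠ ⊥ → Q.IsPrime →
    Q.under (𝓞 E) = P → H14CFT.SplitsCompletely E M P → Ideal.absNorm Q = Ideal.absNorm P

/-- **SP-b.** In a Galois extension, outside a finite set, a prime `Q` of `M` of prime absolute
norm lies over a completely split prime of `E` of the same norm. -/
def SplitGood : Prop :=
  ∃ D₀ : ℕ, D₀ ≠ 0 ∧ ∀ Q : Ideal (𝓞 M), Q.IsPrime → (Ideal.absNorm Q).Prime →
    ¬ (Ideal.absNorm Q ∣ D₀) →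
    H14CFT.SplitsCompletely E M (Q.under (𝓞 E)) ∧
      Ideal.absNorm (Q.under (𝓞 E)) = Ideal.absNorm Q

/-- **PS-a.** If all primes in `T` split completely in `M`, the sum over the primes of `M` above
them is at least `[M:E]` times the sum over `T`. -/
def PrimeSumSplit : Prop :=
  ∀ (T : Set (Ideal (𝓞 E))) (s : ℝ), 1 < s →
    (∀ P : Ideal (𝓞 E), P.IsPrime → P ≠ ⊥ → P ∈ T → H14CFT.SplitsCompletely E M P) →
    (Module.finrank E M : ℝ) * primeSum E T s ≤
      primeSum M {Q | Q.under (𝓞 E) ∈ T} s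

/-- **PS-b.** The sum over the primes of `M` of degree one outside `D * D₀` is at most `[M:E]`
times the sum over the primes of `E` outside `D` which split completely in `M`. -/
def PrimeSumGood : Prop :=
  ∃ D₀ : ℕ, D₀ ≠ 0 ∧ ∀ (D : ℕ) (s : ℝ), D ≠ 0 → 1 < s →
    primeSum M (degOne M (D * D₀)) s ≤
      (Module.finrank E M : ℝ) *
        primeSum E {P | ¬ (Ideal.absNorm P ∣ D) ∧ H14CFT.SplitsCompletely E M P} s

end splitting

end H17AN
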