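import Mathlib

/-!
# helper12: T-CFT AN-A — Euler products over the prime ideals of a Dedekind domain

For a Dedekind domain `R`, a complete normed field `F` and a completely multiplicative
`g : Ideal R → F` (`g 1 = 1`, `g (I * J) = g I * g J`) with `‖g P‖ < 1` at the nonzero primes:

* `H12AN.hasSum_smoothIdeals`: for a finite set `s` of primes,
  `∑ g I` over the nonzero ideals with all prime factors in `s` is `∏_{P ∈ s} (1 - g P)⁻¹`;
* `H12AN.eulerProduct_hasProd`: if `‖g ·‖` is summable and `g ⊥ = 0`, then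
  `HasProd (fun P => (1 - g P)⁻¹) (∑' I, g I)`.
-/

set_option autoImplicit false

noncomputable section

namespace H12AN

open IsDedekindDomain Ideal Finset

open scoped Classical

set_option linter.unusedSectionVars false

variable {R : Type*} [CommRing R] [IsDedekindDomain R]

/-- The nonzero ideals all of whose prime factors lie in `s`. -/
def smoothIdeals (s : Finset (HeightOneSpectrum R)) : Set (Ideal R) :=
  {I | I ≠ ⊥ ∧ ∀ v : HeightOneSpectrum R, v.asIdeal ∣ I → v ∈ s}

theorem mem_smoothIdeals {s : Finset (HeightOneSpectrum R)} {I : Ideal R} :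
    I ∈ smoothIdeals s ↔ I ≠ ⊥ ∧ ∀ v : HeightOneSpectrum R, v.asIdeal ∣ I → v ∈ s := Iff.rfl

theorem smoothIdeals_empty : smoothIdeals (∅ : Finset (HeightOneSpectrum R)) = {⊤} := by
  ext I
  simp only [mem_smoothIdeals, Finset.notMem_empty, imp_false, Set.mem_singleton_iff]
  constructor
  · rintro ⟨h0, h⟩
    by_contra hI
    obtain ⟨M, hM, hIM⟩ := Ideal.exists_le_maximal I hI
    have hM0 : M ≠ ⊥ := fun hb => h0 (le_bot_iff.mp (hb ▸ hIM))
    exact h ⟨M, hM.isPrime, hM0⟩ (Ideal.dvd_iff_le.mpr hIM)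
  · rintro rfl
    refine ⟨top_ne_bot, fun v hv => ?_⟩
    have := Ideal.dvd_iff_le.mp hv
    exact v.isPrime.ne_top (top_le_iff.mp this)

theorem smoothIdeals_mono {s t : Finset (HeightOneSpectrum R)} (h : s ⊆ t) :
    smoothIdeals s ⊆ smoothIdeals t :=
  fun _ hI => ⟨hI.1, fun v hv => h (hI.2 v hv)⟩

theorem heightOneSpectrum_eq_of_dvd {v w : HeightOneSpectrum R} (h : w.asIdeal ∣ v.asIdeal) :
    w = v := by
  have hle : v.asIdeal ≤ w.asIdeal := Ideal.dvd_iff_le.mp h
  have hmax : v.asIdeal.IsMaximal := v.isMaximal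
  exact HeightOneSpectrum.ext (hmax.eq_of_le w.isPrime.ne_top hle).symm

theorem pow_mul_mem_smoothIdeals {s : Finset (HeightOneSpectrum R)} (v : HeightOneSpectrum R)
    (e : ℕ) {J : Ideal R} (hJ : J ∈ smoothIdeals s) :
    v.asIdeal ^ e * J ∈ smoothIdeals (insert v s) := by
  refine ⟨mul_ne_zero (pow_ne_zero _ v.ne_bot) hJ.1, fun w hw => ?_⟩
  rcases w.prime.dvd_mul.mp hw with h | h
  · have := w.prime.dvd_of_dvd_pow h
    rw [heightOneSpectrum_eq_of_dvd this]
    exact Finset.mem_insert_self _ _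
  · exact Finset.mem_insert_of_mem (hJ.2 w h)

/-- The map `(e, J) ↦ v ^ e * J`. -/
def smoothMap (s : Finset (HeightOneSpectrum R)) (v : HeightOneSpectrum R) :
    ℕ × smoothIdeals s → smoothIdeals (insert v s) :=
  fun x => ⟨v.asIdeal ^ x.1 * x.2.1, pow_mul_mem_smoothIdeals v x.1 x.2.2⟩

theorem smoothMap_bijective {s : Finset (HeightOneSpectrum R)} {v : HeightOneSpectrum R}
    (hv : v ∉ s) : Function.Bijective (smoothMap s v) := by
  constructor
  · -- injective
    have key : ∀ (e e' : ℕ) (J J' : smoothIdeals s), e ≤ e' →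
        v.asIdeal ^ e * J.1 = v.asIdeal ^ e' * J'.1 → e = e' ∧ J = J' := by
      intro e e' J J' hee h
      obtain ⟨k, rfl⟩ := Nat.exists_eq_add_of_le hee
      rw [pow_add, mul_assoc] at h
      have h2 := mul_left_cancel₀ (pow_ne_zero e v.ne_bot) h
      rcases Nat.eq_zero_or_pos k with rfl | hk
      · refine ⟨rfl, Subtype.ext ?_⟩
        simpa using h2
      · exfalso
        apply hv
        apply J.2.2 v
        rw [h2]
        exact Dvd.dvd.mul_right (dvd_pow_self _ hk.ne') _
    rintro ⟨e, J⟩ ⟨e', J'⟩ h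
    have h' : v.asIdeal ^ e * J.1 = v.asIdeal ^ e' * J'.1 := congrArg Subtype.val h
    rcases le_total e e' with hee | hee
    · obtain ⟨h1, h2⟩ := key e e' J J' hee h'
      exact Prod.ext h1 h2
    · obtain ⟨h1, h2⟩ := key e' e J' J hee h'.symm
      exact Prod.ext h1.symm h2.symm
  · -- surjective
    rintro ⟨I, hI0, hI⟩
    obtain ⟨e, J, hJ, rfl⟩ := WfDvdMonoid.max_power_factor hI0 v.irreducible
    have hJ0 : J ≠ ⊥ := fun h => hI0 (by rw [h]; simp)
    refine ⟨⟨e, ⟨J, hJ0, fun w hw => ?_⟩⟩, rfl⟩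
    have := hI w (Dvd.dvd.mul_left hw _)
    rcases Finset.mem_insert.mp this with rfl | h
    · exact absurd hw hJ
    · exact h

/-- The equivalence `ℕ × smoothIdeals s ≃ smoothIdeals (insert v s)`. -/
def smoothEquiv {s : Finset (HeightOneSpectrum R)} {v : HeightOneSpectrum R} (hv : v ∉ s) :
    ℕ × smoothIdeals s ≃ smoothIdeals (insert v s) :=
  Equiv.ofBijective (smoothMap s v) (smoothMap_bijective hv)

@[simp] theorem smoothEquiv_apply {s : Finset (HeightOneSpectrum R)} {v : HeightOneSpectrum R}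
    (hv : v ∉ s) (x : ℕ × smoothIdeals s) :
    ((smoothEquiv hv x : smoothIdeals (insert v s)) : Ideal R) = v.asIdeal ^ x.1 * x.2.1 := rfl

section sums

variable {F : Type*} [NormedField F] [CompleteSpace F] {g : Ideal R → F}

/-- Finite Euler product: sum over the `s`-smooth ideals. -/
theorem summable_and_hasSum_smoothIdeals (hg1 : g ⊤ = 1) (hmul : ∀ I J, g (I * J) = g I * g J)
    (hlt : ∀ v : HeightOneSpectrum R, ‖g v.asIdeal‖ < 1) (s : Finset (HeightOneSpectrum R)) :
    Summable (fun I : smoothIdeals s => ‖g I‖) ∧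
      HasSum (fun I : smoothIdeals s => g I) (∏ v ∈ s, (1 - g v.asIdeal)⁻¹) := by
  induction s using Finset.induction with
  | empty =>
    rw [smoothIdeals_empty]
    simp only [Finset.prod_empty]
    exact ⟨(Set.finite_singleton ⊤).summable (‖g ·‖), hg1 ▸ hasSum_singleton ⊤ g⟩
  | insert v s hv ih =>
    have hgeo : HasSum (fun n : ℕ => g v.asIdeal ^ n) (1 - g v.asIdeal)⁻¹ :=
      hasSum_geometric_of_norm_lt_one (hlt v)
    have hgeon : Summable (fun n : ℕ => ‖g v.asIdeal ^ n‖) := by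
      simp only [norm_pow]
      exact summable_geometric_of_lt_one (norm_nonneg _) (hlt v)
    have hval : ∀ x : ℕ × smoothIdeals s,
        g (smoothEquiv hv x : smoothIdeals (insert v s)) = g v.asIdeal ^ x.1 * g x.2 := by
      intro x
      rw [smoothEquiv_apply, hmul]
      congr 1
      induction x.1 with
      | zero => simpa using hg1
      | succ n ihn => rw [pow_succ, hmul, ihn, pow_succ]
    constructor
    · rw [← (smoothEquiv hv).summable_iff]
      simp only [Function.comp_def, hval]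
      refine Summable.of_nonneg_of_le (fun _ => norm_nonneg _) (fun _ => norm_mul_le ..) ?_
      apply Summable.mul_of_nonneg hgeon ih.1 <;> exact fun n => norm_nonneg _
    · rw [Finset.prod_insert hv, ← (smoothEquiv hv).hasSum_iff]
      simp only [Function.comp_def, hval]
      apply hgeo.mul ih.2
      apply summable_mul_of_summable_norm hgeon ih.1

theorem tsum_smoothIdeals (hg1 : g ⊤ = 1) (hmul : ∀ I J, g (I * J) = g I * g J)
    (hlt : ∀ v : HeightOneSpectrum R, ‖g v.asIdeal‖ < 1) (s : Finset (HeightOneSpectrum R)) :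
    ∑' I : smoothIdeals s, g I = ∏ v ∈ s, (1 - g v.asIdeal)⁻¹ :=
  (summable_and_hasSum_smoothIdeals hg1 hmul hlt s).2.tsum_eq

theorem norm_lt_one_of_summable (hg1 : g ⊤ = 1) (hmul : ∀ I J, g (I * J) = g I * g J)
    (hsum : Summable (fun I : Ideal R => ‖g I‖)) (v : HeightOneSpectrum R) :
    ‖g v.asIdeal‖ < 1 := by
  have hinj : Function.Injective (fun n : ℕ => v.asIdeal ^ n) :=
    pow_injective_of_not_isUnit (fun h => v.isPrime.ne_top (Ideal.isUnit_iff.mp h)) v.ne_bot
  have h1 := hsum.comp_injective hinj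
  have hpow : ∀ n : ℕ, g (v.asIdeal ^ n) = g v.asIdeal ^ n := by
    intro n
    induction n with
    | zero => simpa using hg1
    | succ n ihn => rw [pow_succ, hmul, ihn, pow_succ]
  simp only [Function.comp_def, hpow, norm_pow] at h1
  simpa using summable_geometric_iff_norm_lt_one.mp h1

theorem norm_tsum_smoothIdeals_sub_tsum_lt (hsum : Summable g) (hg0 : g ⊥ = 0) {ε : ℝ}
    (εpos : 0 < ε) :
    ∃ S₀ : Finset (HeightOneSpectrum R), ∀ s : Finset (HeightOneSpectrum R), S₀ ⊆ s →
      ‖(∑' I : Ideal R, g I) - ∑' I : smoothIdeals s, g I‖ < ε := by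
  obtain ⟨s₀, hs₀⟩ :=
    summable_iff_tsum_vanishing.mp hsum (Metric.ball 0 ε) (Metric.ball_mem_nhds 0 εpos)
  simp_rw [mem_ball_zero_iff] at hs₀
  have hfin : ∀ I : Ideal R, I ≠ ⊥ → {v : HeightOneSpectrum R | v.asIdeal ∣ I}.Finite :=
    fun I hI => Ideal.finite_factors hI
  let S₀ : Finset (HeightOneSpectrum R) :=
    s₀.biUnion fun I => if hI : I ≠ ⊥ then (hfin I hI).toFinset else ∅
  refine ⟨S₀, fun s hs => ?_⟩
  have hdisj : Disjoint ((smoothIdeals s)ᶜ \ {⊥}) (s₀ : Set (Ideal R)) := by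
    rw [Set.disjoint_left]
    rintro I ⟨hI, hI0⟩ hIs
    apply hI
    have hI0' : I ≠ ⊥ := by simpa using hI0
    refine ⟨hI0', fun v hv => hs ?_⟩
    simp only [S₀, Finset.mem_biUnion]
    refine ⟨I, hIs, ?_⟩
    rw [dif_pos hI0']
    simpa using hv
  have := hs₀ _ hdisj
  rwa [← hsum.tsum_subtype_add_tsum_subtype_compl (smoothIdeals s),
    add_sub_cancel_left, tsum_eq_tsum_sdiff_singleton (smoothIdeals s)ᶜ hg0]

/-- **Euler product** over the nonzero prime ideals of a Dedekind domain, for a completely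
multiplicative function `g` on ideals with `∑ ‖g I‖ < ∞`. -/
theorem eulerProduct_hasProd (hg1 : g ⊤ = 1) (hmul : ∀ I J, g (I * J) = g I * g J)
    (hsum : Summable (fun I : Ideal R => ‖g I‖)) (hg0 : g ⊥ = 0) :
    HasProd (fun v : HeightOneSpectrum R => (1 - g v.asIdeal)⁻¹) (∑' I : Ideal R, g I) := by
  have hlt := norm_lt_one_of_summable hg1 hmul hsum
  rw [HasProd, SummationFilter.unconditional, Metric.tendsto_atTop]
  intro ε hε
  obtain ⟨S₀, hS₀⟩ := norm_tsum_smoothIdeals_sub_tsum_lt hsum.of_norm hg0 hε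
  refine ⟨S₀, fun s hs => ?_⟩
  rw [dist_eq_norm, ← tsum_smoothIdeals hg1 hmul hlt, norm_sub_rev]
  exact hS₀ s hs

end sums

end H12AN
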