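import Mathlib
import Fermat.Agent.CFT.AN.Defs
import Fermat.Agent.CFT.AN.H12Euler

/-!
# helper12: T-CFT AN-A — `H17AN.EulerProd E`
-/

set_option autoImplicit false

noncomputable section

namespace H12AN

open NumberField IsDedekindDomain
open scoped nonZeroDivisors Classical

set_option linter.unusedSectionVars false

section general

variable {R : Type*} [CommRing R] [IsDedekindDomain R] {F : Type*} [NormedField F]

/-- Extension by zero of a function on the nonzero ideals. -/
def ext0 (f : (Ideal R)⁰ →* F) (I : Ideal R) : F :=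
  if h : I ∈ (Ideal R)⁰ then f ⟨I, h⟩ else 0

theorem ext0_coe (f : (Ideal R)⁰ →* F) (I : (Ideal R)⁰) : ext0 f (I : Ideal R) = f I := by
  rw [ext0, dif_pos I.2]

theorem ext0_bot (f : (Ideal R)⁰ →* F) : ext0 f (⊥ : Ideal R) = 0 := by
  rw [ext0, dif_neg]
  intro h
  exact (mem_nonZeroDivisors_iff_ne_zero.mp h) rfl

theorem ext0_top (f : (Ideal R)⁰ →* F) : ext0 f (⊤ : Ideal R) = 1 := by
  have h : ((1 : (Ideal R)⁰) : Ideal R) = ⊤ := by simp
  rw [← h, ext0_coe, map_one]

theorem ext0_mul (f : (Ideal R)⁰ →* F) (I J : Ideal R) :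
    ext0 f (I * J) = ext0 f I * ext0 f J := by
  by_cases hI : I ∈ (Ideal R)⁰
  · by_cases hJ : J ∈ (Ideal R)⁰
    · have h : I * J = ((⟨I, hI⟩ * ⟨J, hJ⟩ : (Ideal R)⁰) : Ideal R) := rfl
      rw [h, ext0_coe, map_mul, ← ext0_coe, ← ext0_coe]
    · have hJ0 : J = ⊥ := by
        by_contra h
        exact hJ (mem_nonZeroDivisors_iff_ne_zero.mpr h)
      subst hJ0
      simp [ext0_bot]
  · have hI0 : I = ⊥ := by
      by_contra h
      exact hI (mem_nonZeroDivisors_iff_ne_zero.mpr h)
    subst hI0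
    simp [ext0_bot]

theorem ext0_eq_zero_of_not_mem_range (f : (Ideal R)⁰ →* F) (I : Ideal R)
    (hI : I ∉ Set.range (Subtype.val : (Ideal R)⁰ → Ideal R)) : ext0 f I = 0 := by
  rw [ext0, dif_neg]
  intro h
  exact hI ⟨⟨I, h⟩, rfl⟩

theorem summable_norm_ext0 (f : (Ideal R)⁰ →* F) (hf : Summable (fun I : (Ideal R)⁰ => ‖f I‖)) :
    Summable (fun I : Ideal R => ‖ext0 f I‖) := by
  have hinj : Function.Injective (Subtype.val : (Ideal R)⁰ → Ideal R) := Subtype.val_injective
  rw [← hinj.summable_iff]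
  · simpa [Function.comp_def, ext0_coe] using hf
  · intro I hI
    rw [ext0_eq_zero_of_not_mem_range f I hI, norm_zero]

theorem tsum_ext0 [CompleteSpace F] (f : (Ideal R)⁰ →* F) :
    ∑' I : Ideal R, ext0 f I = ∑' I : (Ideal R)⁰, f I := by
  have hinj : Function.Injective (Subtype.val : (Ideal R)⁰ → Ideal R) := Subtype.val_injective
  rw [← hinj.tsum_eq]
  · simp [ext0_coe]
  · intro I hI
    by_contra h
    exact hI (ext0_eq_zero_of_not_mem_range f I h)

/-- The nonzero primes, as a subtype of the nonzero ideals, are the height one spectrum. -/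
def primeEquiv : {P : (Ideal R)⁰ // (P : Ideal R).IsPrime} ≃ HeightOneSpectrum R where
  toFun P := ⟨P.1.1, P.2, mem_nonZeroDivisors_iff_ne_zero.mp P.1.2⟩
  invFun v := ⟨⟨v.asIdeal, mem_nonZeroDivisors_iff_ne_zero.mpr v.ne_bot⟩, v.isPrime⟩
  left_inv _ := rfl
  right_inv _ := rfl

/-- Euler product for a monoid homomorphism on the nonzero ideals. -/
theorem eulerProd_monoidHom [CompleteSpace F] (f : (Ideal R)⁰ →* F)
    (hf : Summable (fun I : (Ideal R)⁰ => ‖f I‖)) :
    HasProd (fun P : {P : (Ideal R)⁰ // (P : Ideal R).IsPrime} => (1 - f P.1)⁻¹)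
      (∑' I : (Ideal R)⁰, f I) := by
  have h := eulerProduct_hasProd (g := ext0 f) (ext0_top f) (ext0_mul f) (summable_norm_ext0 f hf)
    (ext0_bot f)
  rw [tsum_ext0] at h
  have h2 := (primeEquiv (R := R)).hasProd_iff.mpr h
  have hfun : ((fun v : HeightOneSpectrum R => (1 - ext0 f v.asIdeal)⁻¹) ∘ primeEquiv)
      = fun P : {P : (Ideal R)⁰ // (P : Ideal R).IsPrime} => (1 - f P.1)⁻¹ := by
    funext P
    simp only [Function.comp_def]
    have : ((primeEquiv P : HeightOneSpectrum R).asIdeal) = (P.1 : Ideal R) := rfl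
    rw [this, ext0_coe]
  rw [hfun] at h2
  exact h2

end general

/-- **AN-A**: the Euler product over the nonzero primes of `𝓞 E`. -/
theorem h12_eulerProd (E : Type) [Field E] [NumberField E] : H17AN.EulerProd E :=
  fun f hf => eulerProd_monoidHom f hf

end H12AN
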