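import Mathlib
import Fermat.Agent.CFT.AN.Defs
import Fermat.Agent.CFT.AN.H12Euler

/-!
# helper12: T-CFT AN-A — prime sums: `H17AN.PrimeLower`, `H17AN.PrimeUpper`, `H17AN.ZetaSummable`
-/

set_option autoImplicit false

noncomputable section

namespace H12AN

open NumberField IsDedekindDomain Ideal
open scoped nonZeroDivisors Classical

set_option linter.unusedSectionVars false

variable (E : Type) [Field E] [NumberField E]

/-- `N(I)^{-s}`. -/
def nrm (s : ℝ) (I : Ideal (𝓞 E)) : ℝ := (absNorm I : ℝ) ^ (-s)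

variable {E}

theorem nrm_nonneg (s : ℝ) (I : Ideal (𝓞 E)) : 0 ≤ nrm E s I :=
  Real.rpow_nonneg (Nat.cast_nonneg _) _

theorem nrm_top (s : ℝ) : nrm E s ⊤ = 1 := by
  simp [nrm]

theorem nrm_bot {s : ℝ} (hs : s ≠ 0) : nrm E s ⊥ = 0 := by
  simp [nrm, Real.zero_rpow (neg_ne_zero.mpr hs)]

theorem nrm_mul (s : ℝ) (I J : Ideal (𝓞 E)) : nrm E s (I * J) = nrm E s I * nrm E s J := by
  simp only [nrm, map_mul, Nat.cast_mul]
  exact Real.mul_rpow (Nat.cast_nonneg _) (Nat.cast_nonneg _)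

theorem two_le_absNorm (v : HeightOneSpectrum (𝓞 E)) : 2 ≤ absNorm v.asIdeal := by
  have h0 : absNorm v.asIdeal ≠ 0 := by
    rw [Ne, Ideal.absNorm_eq_zero_iff]
    exact v.ne_bot
  have h1 : absNorm v.asIdeal ≠ 1 := by
    rw [Ne, Ideal.absNorm_eq_one_iff]
    exact v.isPrime.ne_top
  omega

theorem nrm_le_of_le {s t : ℝ} (hst : s ≤ t) (v : HeightOneSpectrum (𝓞 E)) :
    nrm E t v.asIdeal ≤ nrm E s v.asIdeal := by
  apply Real.rpow_le_rpow_of_exponent_le
  · exact_mod_cast (by have := two_le_absNorm v; omega : 1 ≤ absNorm v.asIdeal)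
  · linarith

theorem nrm_prime_le_half {s : ℝ} (hs : 1 ≤ s) (v : HeightOneSpectrum (𝓞 E)) :
    nrm E s v.asIdeal ≤ 1 / 2 := by
  refine (nrm_le_of_le hs v).trans ?_
  rw [nrm, Real.rpow_neg_one, one_div]
  apply inv_anti₀ (by norm_num)
  exact_mod_cast two_le_absNorm v

theorem nrm_prime_lt_one {s : ℝ} (hs : 1 ≤ s) (v : HeightOneSpectrum (𝓞 E)) :
    ‖nrm E s v.asIdeal‖ < 1 := by
  rw [Real.norm_of_nonneg (nrm_nonneg _ _)]
  exact (nrm_prime_le_half hs v).trans_lt (by norm_num)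

/-- The rational prime below a nonzero prime of `𝓞 E`. -/
def ratPrime (v : HeightOneSpectrum (𝓞 E)) : ℕ := (absNorm v.asIdeal).minFac

theorem ratPrime_prime (v : HeightOneSpectrum (𝓞 E)) : (ratPrime v).Prime :=
  Nat.minFac_prime (by have := two_le_absNorm v; omega)

theorem absNorm_natCast (p : ℕ) :
    absNorm (Ideal.span {(p : 𝓞 E)}) = p ^ Module.finrank ℚ E := by
  rw [Ideal.absNorm_span_singleton]
  have : (p : 𝓞 E) = algebraMap ℤ (𝓞 E) (p : ℤ) := by simp
  rw [this, Algebra.norm_algebraMap, RingOfIntegers.rank]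
  simp [Int.natAbs_pow]

/-- Some prime factor of the norm lies in the prime ideal. -/
theorem exists_prime_mem (v : HeightOneSpectrum (𝓞 E)) :
    ∃ q : ℕ, q.Prime ∧ (q : 𝓞 E) ∈ v.asIdeal := by
  have hmem : ((absNorm v.asIdeal : ℕ) : 𝓞 E) ∈ v.asIdeal := by
    have := Ideal.absNorm_mem v.asIdeal
    simpa using this
  have key : ∀ m : ℕ, m ≠ 0 → ((m : ℕ) : 𝓞 E) ∈ v.asIdeal → ∃ q : ℕ, q.Prime ∧ (q : 𝓞 E) ∈ v.asIdeal := by
    intro m
    induction m using Nat.strong_induction_on with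
    | _ m ih =>
      intro hm0 hm
      by_cases hm1 : m = 1
      · subst hm1
        exfalso
        apply v.isPrime.ne_top
        rw [Ideal.eq_top_iff_one]
        simpa using hm
      · obtain ⟨q, hq, k, rfl⟩ : ∃ q : ℕ, q.Prime ∧ ∃ k, m = q * k :=
          ⟨m.minFac, Nat.minFac_prime hm1, Nat.minFac_dvd m⟩
        rw [Nat.cast_mul] at hm
        rcases v.isPrime.mem_or_mem hm with h | h
        · exact ⟨q, hq, h⟩
        · have hk0 : k ≠ 0 := fun h0 => hm0 (by rw [h0, mul_zero])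
          have hklt : k < q * k := by
            have := hq.two_le
            nlinarith [Nat.pos_of_ne_zero hk0]
          exact ih k hklt hk0 h
  exact key _ (by have := two_le_absNorm v; omega) hmem

theorem absNorm_dvd_pow_of_mem {v : HeightOneSpectrum (𝓞 E)} {q : ℕ} (hq : (q : 𝓞 E) ∈ v.asIdeal) :
    absNorm v.asIdeal ∣ q ^ Module.finrank ℚ E := by
  rw [← absNorm_natCast (E := E) q]
  apply Ideal.absNorm_dvd_absNorm_of_le
  rw [Ideal.span_le]
  simpa using hq

/-- `N(v) = p_v ^ f` with `1 ≤ f ≤ [E:ℚ]`. -/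
theorem absNorm_eq_ratPrime_pow (v : HeightOneSpectrum (𝓞 E)) :
    ∃ f : ℕ, 1 ≤ f ∧ f ≤ Module.finrank ℚ E ∧ absNorm v.asIdeal = ratPrime v ^ f ∧
      ((ratPrime v : ℕ) : 𝓞 E) ∈ v.asIdeal := by
  obtain ⟨q, hq, hqv⟩ := exists_prime_mem v
  have hdvd := absNorm_dvd_pow_of_mem hqv
  obtain ⟨f, hf, hNf⟩ := (Nat.dvd_prime_pow hq).mp hdvd
  have hf1 : 1 ≤ f := by
    rcases Nat.eq_zero_or_pos f with rfl | h
    · have := two_le_absNorm v
      rw [hNf] at this
      simp at this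
    · exact h
  have hrp : ratPrime v = q := by
    rw [ratPrime, hNf]
    exact hq.pow_minFac (by omega)
  exact ⟨f, hf1, hf, by rw [hrp, hNf], by rw [hrp]; exact hqv⟩

theorem asIdeal_injective :
    Function.Injective (fun v : HeightOneSpectrum (𝓞 E) => v.asIdeal) :=
  fun _ _ h => HeightOneSpectrum.ext h

/-- At most `[E:ℚ]` primes lie over a given rational prime. -/
theorem card_le_of_ratPrime_eq (u : Finset (HeightOneSpectrum (𝓞 E))) (p : ℕ)
    (hu : ∀ v ∈ u, ratPrime v = p) : u.card ≤ Module.finrank ℚ E := by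
  rcases u.eq_empty_or_nonempty with rfl | ⟨v₀, hv₀⟩
  · simp
  have hp : p.Prime := hu v₀ hv₀ ▸ ratPrime_prime v₀
  have hdvd : ∏ I ∈ u.image (fun v => v.asIdeal), I ∣ Ideal.span {(p : 𝓞 E)} := by
    apply Finset.prod_primes_dvd
    · intro I hI
      obtain ⟨v, -, rfl⟩ := Finset.mem_image.mp hI
      exact v.prime
    · intro I hI
      obtain ⟨v, hv, rfl⟩ := Finset.mem_image.mp hI
      rw [Ideal.dvd_iff_le, Ideal.span_le]
      obtain ⟨f, -, -, -, hmem⟩ := absNorm_eq_ratPrime_pow v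
      rw [hu v hv] at hmem
      simpa using hmem
  rw [Finset.prod_image (fun a _ b _ h => asIdeal_injective h)] at hdvd
  have h2 := Ideal.absNorm_dvd_absNorm_of_le (Ideal.dvd_iff_le.mp hdvd)
  rw [absNorm_natCast, map_prod] at h2
  have h3 : ∀ v ∈ u, p ∣ absNorm v.asIdeal := by
    intro v hv
    obtain ⟨f, hf1, -, hN, -⟩ := absNorm_eq_ratPrime_pow v
    rw [hN, hu v hv]
    exact dvd_pow_self _ (by omega)
  have h4 : p ^ u.card ∣ ∏ v ∈ u, absNorm v.asIdeal := by
    rw [← Finset.prod_const]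
    exact Finset.prod_dvd_prod_of_dvd _ _ h3
  exact (Nat.pow_dvd_pow_iff_le_right hp.one_lt).mp (h4.trans h2)

/-- Fibre bound: a sum of `φ (p_v)` over finitely many primes is at most `[E:ℚ] · ∑ φ`. -/
theorem sum_ratPrime_le (φ : ℕ → ℝ) (hφ : ∀ k, 0 ≤ φ k) (hs : Summable φ)
    (u : Finset (HeightOneSpectrum (𝓞 E))) :
    ∑ v ∈ u, φ (ratPrime v) ≤ (Module.finrank ℚ E : ℝ) * ∑' k, φ k := by
  rw [Finset.sum_comp φ ratPrime]
  calc ∑ b ∈ u.image ratPrime, (u.filter (fun a => ratPrime a = b)).card • φ b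
      ≤ ∑ b ∈ u.image ratPrime, (Module.finrank ℚ E : ℝ) * φ b := by
        apply Finset.sum_le_sum
        intro b _
        rw [nsmul_eq_mul]
        apply mul_le_mul_of_nonneg_right _ (hφ b)
        exact_mod_cast card_le_of_ratPrime_eq _ b (fun v hv => (Finset.mem_filter.mp hv).2)
    _ = (Module.finrank ℚ E : ℝ) * ∑ b ∈ u.image ratPrime, φ b := by rw [Finset.mul_sum]
    _ ≤ (Module.finrank ℚ E : ℝ) * ∑' k, φ k := by
        apply mul_le_mul_of_nonneg_left _ (Nat.cast_nonneg _)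
        exact hs.sum_le_tsum _ (fun k _ => hφ k)

theorem ratPrime_le_absNorm (v : HeightOneSpectrum (𝓞 E)) : ratPrime v ≤ absNorm v.asIdeal :=
  Nat.minFac_le (by have := two_le_absNorm v; omega)

theorem ratPrime_sq_le_absNorm {v : HeightOneSpectrum (𝓞 E)} (hv : ¬ (absNorm v.asIdeal).Prime) :
    ratPrime v ^ 2 ≤ absNorm v.asIdeal := by
  obtain ⟨f, hf1, -, hN, -⟩ := absNorm_eq_ratPrime_pow v
  have hf2 : 2 ≤ f := by
    by_contra h
    have : f = 1 := by omega
    subst this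
    apply hv
    rw [hN, pow_one]
    exact ratPrime_prime v
  rw [hN]
  exact Nat.pow_le_pow_right (ratPrime_prime v).pos hf2

/-- `N(v)^{-s} ≤ p_v^{-s}`. -/
theorem nrm_le_ratPrime {s : ℝ} (hs : 0 ≤ s) (v : HeightOneSpectrum (𝓞 E)) :
    nrm E s v.asIdeal ≤ (ratPrime v : ℝ) ^ (-s) := by
  rw [nrm]
  apply Real.rpow_le_rpow_of_nonpos
  · exact_mod_cast (ratPrime_prime v).pos
  · exact_mod_cast ratPrime_le_absNorm v
  · linarith

/-- `N(v)^{-1} ≤ p_v^{-2}` if `N(v)` is not prime. -/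
theorem nrm_one_le_ratPrime_sq {v : HeightOneSpectrum (𝓞 E)} (hv : ¬ (absNorm v.asIdeal).Prime) :
    nrm E 1 v.asIdeal ≤ (ratPrime v : ℝ) ^ (-2 : ℝ) := by
  rw [nrm]
  have h1 : ((ratPrime v : ℝ) ^ (-2 : ℝ)) = (((ratPrime v ^ 2 : ℕ) : ℝ)) ^ (-1 : ℝ) := by
    rw [Real.rpow_neg (Nat.cast_nonneg _), Real.rpow_neg_one]
    congr 1
    push_cast
    exact Real.rpow_two _
  rw [h1]
  apply Real.rpow_le_rpow_of_nonpos
  · exact_mod_cast pow_pos (ratPrime_prime v).pos 2
  · exact_mod_cast ratPrime_sq_le_absNorm hv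
  · norm_num

theorem summable_rpow_neg {s : ℝ} (hs : 1 < s) : Summable (fun k : ℕ => (k : ℝ) ^ (-s)) :=
  Real.summable_nat_rpow.mpr (by linarith)

/-- the constant `ζ(s) = ∑ k^{-s}` -/
def zetaN (s : ℝ) : ℝ := ∑' k : ℕ, (k : ℝ) ^ (-s)

theorem sum_nrm_le {s : ℝ} (hs : 1 < s) (u : Finset (HeightOneSpectrum (𝓞 E))) :
    ∑ v ∈ u, nrm E s v.asIdeal ≤ (Module.finrank ℚ E : ℝ) * zetaN s :=
  (Finset.sum_le_sum fun v _ => nrm_le_ratPrime (by linarith) v).trans
    (sum_ratPrime_le _ (fun k => Real.rpow_nonneg (Nat.cast_nonneg _) _) (summable_rpow_neg hs) u)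

theorem sum_nrm_one_le (u : Finset (HeightOneSpectrum (𝓞 E)))
    (hu : ∀ v ∈ u, ¬ (absNorm v.asIdeal).Prime) :
    ∑ v ∈ u, nrm E 1 v.asIdeal ≤ (Module.finrank ℚ E : ℝ) * zetaN 2 :=
  (Finset.sum_le_sum fun v hv => nrm_one_le_ratPrime_sq (hu v hv)).trans
    (sum_ratPrime_le _ (fun k => Real.rpow_nonneg (Nat.cast_nonneg _) _)
      (summable_rpow_neg (by norm_num)) u)

theorem inv_one_sub_le_exp {x : ℝ} (h0 : 0 ≤ x) (h1 : x ≤ 1 / 2) :
    (1 - x)⁻¹ ≤ Real.exp (x + x ^ 2) := by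
  have hy : 0 ≤ x + x ^ 2 := by positivity
  have h := Real.quadratic_le_exp_of_nonneg hy
  have hpos : 0 < 1 - x := by linarith
  rw [inv_le_iff_one_le_mul₀' hpos]
  have h2 : 1 ≤ (1 - x) * (1 + (x + x ^ 2) + (x + x ^ 2) ^ 2 / 2) := by
    have : (1 - x) * (1 + (x + x ^ 2) + (x + x ^ 2) ^ 2 / 2) - 1
        = x ^ 2 / 2 * (1 - x - x ^ 2 - x ^ 3) := by ring
    have h3 : 0 ≤ 1 - x - x ^ 2 - x ^ 3 := by
      have hx2 : x ^ 2 ≤ 1 / 4 := by nlinarith
      have hx3 : x ^ 3 ≤ 1 / 8 := by nlinarith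
      linarith
    nlinarith [mul_nonneg (by positivity : (0:ℝ) ≤ x ^ 2 / 2) h3]
  calc (1 : ℝ) ≤ (1 - x) * (1 + (x + x ^ 2) + (x + x ^ 2) ^ 2 / 2) := h2
    _ ≤ (1 - x) * Real.exp (x + x ^ 2) := mul_le_mul_of_nonneg_left h hpos.le

theorem exp_le_inv_one_sub {x : ℝ} (h1 : x < 1) : Real.exp x ≤ (1 - x)⁻¹ := by
  have hpos : 0 < 1 - x := by linarith
  have h := Real.one_sub_le_exp_neg x
  rw [Real.exp_neg] at h
  rw [le_inv_comm₀ (Real.exp_pos x) hpos]
  exact h

/-- Finite Euler factor bound. -/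
theorem prod_inv_one_sub_le {s : ℝ} (hs : 1 ≤ s) (S : Finset (HeightOneSpectrum (𝓞 E))) :
    ∏ v ∈ S, (1 - nrm E s v.asIdeal)⁻¹
      ≤ Real.exp (∑ v ∈ S, (nrm E s v.asIdeal + nrm E s v.asIdeal ^ 2)) := by
  rw [Real.exp_sum]
  apply Finset.prod_le_prod
  · intro v _
    have := nrm_prime_le_half hs v
    exact inv_nonneg.mpr (by linarith)
  · intro v _
    exact inv_one_sub_le_exp (nrm_nonneg _ _) (nrm_prime_le_half hs v)

theorem exp_sum_le_prod {s : ℝ} (hs : 1 ≤ s) (S : Finset (HeightOneSpectrum (𝓞 E))) :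
    Real.exp (∑ v ∈ S, nrm E s v.asIdeal) ≤ ∏ v ∈ S, (1 - nrm E s v.asIdeal)⁻¹ := by
  rw [Real.exp_sum]
  apply Finset.prod_le_prod
  · intro v _
    exact (Real.exp_pos _).le
  · intro v _
    exact exp_le_inv_one_sub ((nrm_prime_le_half hs v).trans_lt (by norm_num))

/-- The sum over the `S`-smooth ideals. -/
theorem hasSum_smooth_nrm {s : ℝ} (hs : 1 ≤ s) (S : Finset (HeightOneSpectrum (𝓞 E))) :
    HasSum (fun I : smoothIdeals S => nrm E s I) (∏ v ∈ S, (1 - nrm E s v.asIdeal)⁻¹) :=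
  (summable_and_hasSum_smoothIdeals (g := nrm E s) (nrm_top s) (nrm_mul s)
    (nrm_prime_lt_one hs) S).2

/-- Every finite set of nonzero ideals consists of `S`-smooth ideals for a finite `S`. -/
theorem exists_smooth (u : Finset (Ideal (𝓞 E))) (hu : ∀ I ∈ u, I ≠ ⊥) :
    ∃ S : Finset (HeightOneSpectrum (𝓞 E)), ∀ I ∈ u, I ∈ smoothIdeals S := by
  have hfin : ∀ I : Ideal (𝓞 E), I ≠ ⊥ → {v : HeightOneSpectrum (𝓞 E) | v.asIdeal ∣ I}.Finite :=
    fun I hI => Ideal.finite_factors hI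
  refine ⟨u.biUnion fun I => if hI : I ≠ ⊥ then (hfin I hI).toFinset else ∅, fun I hI => ?_⟩
  refine ⟨hu I hI, fun v hv => ?_⟩
  simp only [Finset.mem_biUnion]
  refine ⟨I, hI, ?_⟩
  rw [dif_pos (hu I hI)]
  simpa using hv

theorem sum_le_prod_smooth {s : ℝ} (hs : 1 ≤ s) (S : Finset (HeightOneSpectrum (𝓞 E)))
    (u : Finset (Ideal (𝓞 E))) (hu : ∀ I ∈ u, I ∈ smoothIdeals S) :
    ∑ I ∈ u, nrm E s I ≤ ∏ v ∈ S, (1 - nrm E s v.asIdeal)⁻¹ := by
  have h := hasSum_smooth_nrm hs S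
  rw [← Finset.sum_subtype_of_mem (fun I => nrm E s I) hu, ← h.tsum_eq]
  exact h.summable.sum_le_tsum _ (fun I _ => nrm_nonneg _ _)

/-- **Summability of the zeta series** over all ideals, `s > 1`. -/
theorem summable_nrm {s : ℝ} (hs : 1 < s) : Summable (fun I : Ideal (𝓞 E) => nrm E s I) := by
  refine summable_of_sum_le (c := Real.exp (2 * ((Module.finrank ℚ E : ℝ) * zetaN s)))
    (fun I => nrm_nonneg _ _) (fun u => ?_)
  have hsplit : ∑ I ∈ u, nrm E s I = ∑ I ∈ u.filter (· ≠ ⊥), nrm E s I := by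
    rw [Finset.sum_filter]
    apply Finset.sum_congr rfl
    intro I _
    by_cases hI : I = ⊥
    · simp [hI, nrm_bot (by linarith : s ≠ 0)]
    · simp [hI]
  rw [hsplit]
  obtain ⟨S, hS⟩ := exists_smooth (u.filter (· ≠ ⊥)) (fun I hI => (Finset.mem_filter.mp hI).2)
  refine (sum_le_prod_smooth hs.le S _ hS).trans ((prod_inv_one_sub_le hs.le S).trans ?_)
  apply Real.exp_le_exp.mpr
  have h1 : ∑ v ∈ S, (nrm E s v.asIdeal + nrm E s v.asIdeal ^ 2)
      ≤ ∑ v ∈ S, 2 * nrm E s v.asIdeal := by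
    apply Finset.sum_le_sum
    intro v _
    have h0 := nrm_nonneg s v.asIdeal
    have h2 := nrm_prime_le_half hs.le v
    nlinarith
  rw [← Finset.mul_sum] at h1
  exact h1.trans (mul_le_mul_of_nonneg_left (sum_nrm_le hs S) (by norm_num))

variable (E)

/-- **AN0 (part)**: summability of the zeta series over the nonzero ideals. -/
theorem h12_zetaSummable : H17AN.ZetaSummable E := by
  intro s hs
  exact (summable_nrm (E := E) hs).comp_injective
    (Subtype.val_injective : Function.Injective (Subtype.val : (Ideal (𝓞 E))⁰ → Ideal (𝓞 E)))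

theorem zetaI_eq_tsum {s : ℝ} (hs : s ≠ 0) :
    H17AN.zetaI E s = ∑' I : Ideal (𝓞 E), nrm E s I := by
  have hinj : Function.Injective (Subtype.val : (Ideal (𝓞 E))⁰ → Ideal (𝓞 E)) :=
    Subtype.val_injective
  rw [H17AN.zetaI, ← hinj.tsum_eq]
  · rfl
  · intro I hI
    rw [Function.mem_support] at hI
    have hI0 : I ≠ ⊥ := fun h0 => hI (by rw [h0, nrm_bot hs])
    exact ⟨⟨I, mem_nonZeroDivisors_iff_ne_zero.mpr hI0⟩, rfl⟩

/-- The primes in `T` as elements of the height one spectrum. -/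
def toH (T : Set (Ideal (𝓞 E))) (P : H17AN.PrimesIn E T) : HeightOneSpectrum (𝓞 E) :=
  ⟨P.1, P.2.1, P.2.2.1⟩

theorem toH_injective (T : Set (Ideal (𝓞 E))) : Function.Injective (toH E T) := by
  intro P Q h
  apply Subtype.ext
  exact congrArg HeightOneSpectrum.asIdeal h

theorem summable_nrm_prime {s : ℝ} (hs : 1 < s) :
    Summable (fun v : HeightOneSpectrum (𝓞 E) => nrm E s v.asIdeal) :=
  (summable_nrm (E := E) hs).comp_injective asIdeal_injective

/-- The prime sum as an indicator sum over the height one spectrum. -/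
theorem primeSum_eq_tsum (T : Set (Ideal (𝓞 E))) (s : ℝ) :
    H17AN.primeSum E T s
      = ∑' v : HeightOneSpectrum (𝓞 E), if v.asIdeal ∈ T then nrm E s v.asIdeal else 0 := by
  rw [H17AN.primeSum, ← (toH_injective E T).tsum_eq]
  · apply tsum_congr
    intro P
    have : (toH E T P).asIdeal = P.1 := rfl
    rw [this, if_pos P.2.2.2]
    rfl
  · intro v hv
    rw [Function.mem_support] at hv
    by_cases hT : v.asIdeal ∈ T
    · exact ⟨⟨v.asIdeal, v.isPrime, v.ne_bot, hT⟩, rfl⟩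
    · rw [if_neg hT] at hv
      exact absurd rfl hv

theorem summable_indicator_prime (T : Set (Ideal (𝓞 E))) {s : ℝ} (hs : 1 < s) :
    Summable (fun v : HeightOneSpectrum (𝓞 E) =>
      if v.asIdeal ∈ T then nrm E s v.asIdeal else 0) := by
  refine Summable.of_nonneg_of_le (fun v => ?_) (fun v => ?_) (summable_nrm_prime E hs)
  · split_ifs
    · exact nrm_nonneg _ _
    · exact le_rfl
  · split_ifs
    · exact le_rfl
    · exact nrm_nonneg _ _

/-- **AN-A (L)**: `exp (Σ_{P ∈ T} N P ^ (-s)) ≤ ζ_E(s)`. -/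
theorem h12_primeLower : H17AN.PrimeLower E := by
  intro T s hs
  have hsum : Summable (fun P : H17AN.PrimesIn E T => nrm E s (toH E T P).asIdeal) :=
    (summable_nrm_prime E hs).comp_injective (toH_injective E T)
  refine ⟨hsum, ?_⟩
  have hps : H17AN.primeSum E T s = ∑' P : H17AN.PrimesIn E T, nrm E s (toH E T P).asIdeal := rfl
  rw [hps]
  have htend : Filter.Tendsto
      (fun F : Finset (H17AN.PrimesIn E T) => Real.exp (∑ P ∈ F, nrm E s (toH E T P).asIdeal))
      Filter.atTop (nhds (Real.exp (∑' P : H17AN.PrimesIn E T, nrm E s (toH E T P).asIdeal))) :=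
    (Real.continuous_exp.tendsto _).comp hsum.hasSum
  refine le_of_tendsto' htend (fun F => ?_)
  have h1 : ∑ P ∈ F, nrm E s (toH E T P).asIdeal
      = ∑ v ∈ F.image (toH E T), nrm E s v.asIdeal :=
    (Finset.sum_image (f := fun v : HeightOneSpectrum (𝓞 E) => nrm E s v.asIdeal)
      (fun a _ b _ h => toH_injective E T h)).symm
  rw [h1]
  refine (exp_sum_le_prod hs.le _).trans ?_
  rw [zetaI_eq_tsum E (by linarith : s ≠ 0), ← (hasSum_smooth_nrm hs.le _).tsum_eq]
  exact (summable_nrm (E := E) hs).tsum_subtype_le _ _ (fun I => nrm_nonneg _ _)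

theorem finite_absNorm_le (D : ℕ) :
    {v : HeightOneSpectrum (𝓞 E) | absNorm v.asIdeal ≤ D}.Finite := by
  have h := Ideal.finite_setOfPred_absNorm_le (S := 𝓞 E) D
  exact Set.Finite.preimage (asIdeal_injective.injOn) h

theorem nrm_sq_le {s : ℝ} (hs : 1 ≤ s) (v : HeightOneSpectrum (𝓞 E)) :
    nrm E s v.asIdeal ^ 2 ≤ nrm E 2 v.asIdeal := by
  have h1 : nrm E s v.asIdeal ^ 2 = nrm E (2 * s) v.asIdeal := by
    rw [nrm, nrm, ← Real.rpow_natCast, ← Real.rpow_mul (Nat.cast_nonneg _)]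
    congr 1
    push_cast
    ring
  rw [h1]
  exact nrm_le_of_le (by linarith) v

/-- **AN-A (U)**: `ζ_E(s) ≤ C · exp (Σ_{N P prime, ∤ D} N P ^ (-s))` on `(1, 2]`. -/
theorem h12_primeUpper : H17AN.PrimeUpper E := by
  intro D hD
  set n : ℝ := (Module.finrank ℚ E : ℝ) with hn
  set mD : ℝ := ((finite_absNorm_le E D).toFinset.card : ℝ) with hmD
  refine ⟨Real.exp (2 * (n * zetaN 2) + mD), fun s hs => ?_⟩
  obtain ⟨hs1, hs2⟩ := hs
  rw [← Real.exp_add, zetaI_eq_tsum E (by linarith : s ≠ 0)]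
  have hprod : HasProd (fun v : HeightOneSpectrum (𝓞 E) => (1 - nrm E s v.asIdeal)⁻¹)
      (∑' I : Ideal (𝓞 E), nrm E s I) := by
    apply eulerProduct_hasProd (g := nrm E s) (nrm_top s) (nrm_mul s) _ (nrm_bot (by linarith))
    simpa [Real.norm_of_nonneg (nrm_nonneg _ _)] using summable_nrm (E := E) hs1
  refine hasProd_le_of_prod_le hprod (fun S => ?_)
  refine (prod_inv_one_sub_le hs1.le S).trans (Real.exp_le_exp.mpr ?_)
  rw [Finset.sum_add_distrib]
  -- the square part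
  have hsq : ∑ v ∈ S, nrm E s v.asIdeal ^ 2 ≤ n * zetaN 2 :=
    (Finset.sum_le_sum fun v _ => nrm_sq_le E hs1.le v).trans (sum_nrm_le (by norm_num) S)
  -- the linear part: split into good and bad primes
  have hlin : ∑ v ∈ S, nrm E s v.asIdeal
      ≤ H17AN.primeSum E (H17AN.degOne E D) s + (n * zetaN 2 + mD) := by
    rw [← Finset.sum_filter_add_sum_filter_not S (fun v => v.asIdeal ∈ H17AN.degOne E D)]
    apply add_le_add
    · -- good primes
      rw [primeSum_eq_tsum, Finset.sum_filter]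
      exact (summable_indicator_prime E _ hs1).sum_le_tsum S (fun v _ => by
        split_ifs
        · exact nrm_nonneg _ _
        · exact le_rfl)
    · -- bad primes
      have hbad : ∀ v ∈ S.filter (fun v => ¬ v.asIdeal ∈ H17AN.degOne E D),
          nrm E s v.asIdeal ≤ (if ¬ (absNorm v.asIdeal).Prime then nrm E 1 v.asIdeal else 0)
            + (if absNorm v.asIdeal ≤ D then 1 else 0) := by
        intro v hv
        have hv2 := (Finset.mem_filter.mp hv).2
        have hle1 : nrm E s v.asIdeal ≤ nrm E 1 v.asIdeal := nrm_le_of_le hs1.le v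
        have hle2 : nrm E s v.asIdeal ≤ 1 := (nrm_prime_le_half hs1.le v).trans (by norm_num)
        by_cases hp : (absNorm v.asIdeal).Prime
        · have hdvd : absNorm v.asIdeal ∣ D := by
            by_contra h
            exact hv2 ⟨hp, h⟩
          have hle : absNorm v.asIdeal ≤ D := Nat.le_of_dvd (Nat.pos_of_ne_zero hD) hdvd
          rw [if_neg (not_not.mpr hp), if_pos hle, zero_add]
          exact hle2
        · rw [if_pos hp]
          have : (0 : ℝ) ≤ if absNorm v.asIdeal ≤ D then 1 else 0 := by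
            split_ifs <;> norm_num
          linarith
      refine (Finset.sum_le_sum hbad).trans ?_
      rw [Finset.sum_add_distrib]
      apply add_le_add
      · rw [← Finset.sum_filter]
        exact sum_nrm_one_le _ (fun v hv => (Finset.mem_filter.mp hv).2)
      · rw [← Finset.sum_filter, Finset.sum_const, nsmul_eq_mul, mul_one, hmD]
        exact_mod_cast Finset.card_le_card (fun v hv => by
          simpa using (Finset.mem_filter.mp hv).2)
  linarith

end H12AN
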