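import Mathlib
import Fermat.Agent.CFT.AN.Defs

/-!
# T-CFT module AN, slice AN-C (helper4): definitions and sub-slice statements

Smoothing weight on the mixed space used to compare partial zeta functions of ideal classes.
`h4an_W x = ∏ᵢ tent (cᵢ (logMap x))` where `cᵢ` are the coordinates with respect to the basis of
the log space given by the fundamental system of units; summing `W` over a unit orbit gives
`torsionOrder K` (`h4an_UnitSum`).  With `F_s = W · N^{-s}`:

* `h4an_OrbitSum`  : `Σ_{x ∈ J} F_s(x) = w · N(J)^{-s} · ζ(s, [J]⁻¹)`;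
* `h4an_ShiftBound`: `Σ_{x ∈ 𝓞} |F_s(x + a) - F_s(x)| ≤ B_a` uniformly for `s ∈ [1, 2]`;
* together with `H17AN.ZetaBounds` these give `H17AN.PartialZetaBounded`.
-/

set_option autoImplicit false

namespace H4AN

open NumberField NumberField.InfinitePlace NumberField.mixedEmbedding NumberField.Units
  NumberField.Units.dirichletUnitTheorem
open scoped nonZeroDivisors

/-- the tent function `max 0 (1 - |t|)` -/
noncomputable def h4an_tent (t : ℝ) : ℝ := max 0 (1 - |t|)

variable (K : Type) [Field K] [NumberField K]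

/-- the real basis of the log space given by the log embedding of the fundamental system of
units -/
noncomputable def h4an_basis : Module.Basis (Fin (rank K)) ℝ (logSpace K) :=
  basisOfIsMaxRank (isMaxRank_fundSystem K)

/-- coordinates of `logMap x` in the unit lattice basis -/
noncomputable def h4an_coord (x : mixedSpace K) (i : Fin (rank K)) : ℝ :=
  (h4an_basis K).repr (logMap x) i

/-- the smoothing weight -/
noncomputable def h4an_W (x : mixedSpace K) : ℝ :=
  if mixedEmbedding.norm x = 0 then 0 else ∏ i, h4an_tent (h4an_coord K x i)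

/-- the smoothed summand `W(x) N(x)^{-s}` -/
noncomputable def h4an_F (s : ℝ) (x : mixedSpace K) : ℝ :=
  h4an_W K x * (mixedEmbedding.norm x) ^ (-s)

/-- **P1** the sum of the weight over a unit orbit is the number of roots of unity. -/
def h4an_UnitSum : Prop :=
  ∀ x : mixedSpace K, mixedEmbedding.norm x ≠ 0 →
    HasSum (fun u : (𝓞 K)ˣ => h4an_W K (u • x)) (torsionOrder K : ℝ)

/-- **P7** orbit decomposition: the smoothed sum over the elements of a nonzero ideal `J` is
`w · N(J)^{-s}` times the partial zeta function of the inverse class. -/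
def h4an_OrbitSum : Prop :=
  ∀ (J : (Ideal (𝓞 K))⁰) (s : ℝ), 1 < s →
    HasSum (fun x : 𝓞 K => Set.indicator ((J : Ideal (𝓞 K)) : Set (𝓞 K))
        (fun x => h4an_F K s (mixedEmbedding K (x : K))) x)
      ((torsionOrder K : ℝ) * (Ideal.absNorm (J : Ideal (𝓞 K)) : ℝ) ^ (-s) *
        H17AN.zetaC K (ClassGroup.mk0 J)⁻¹ s)

/-- **P5/P6** shift estimate, uniform in `s ∈ [1,2]`. -/
def h4an_ShiftBound : Prop :=
  ∀ a : 𝓞 K, ∃ B : ℝ, ∀ s ∈ Set.Icc (1 : ℝ) 2, ∀ T : Finset (𝓞 K),
    ∑ x ∈ T, |h4an_F K s (mixedEmbedding K ((x + a : 𝓞 K) : K)) -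
      h4an_F K s (mixedEmbedding K (x : K))| ≤ B

end H4AN
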