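import Mathlib
import Fermat.Agent.CFT.AN.Defs
import Fermat.Agent.CFT.AN.H4CDefs
import Fermat.Agent.CFT.AN.H12Prime

/-!
# T-CFT AN-C, sub-slice P7 (helper12): orbit decomposition

For a weight `W ≥ 0` on the mixed space whose sum over every unit orbit of a point of nonzero
norm is `c`, the smoothed sum `Σ_{x ∈ J} W(x) N(x)^{-s}` equals
`c · N(J)^{-s} · ζ(s, [J]⁻¹)` (`h12_orbit_generic`).  The instance for helper4's weight is
`h12_orbitSum : h4an_UnitSum K → h4an_OrbitSum K`.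
-/

set_option autoImplicit false

namespace H12AN

open NumberField NumberField.InfinitePlace NumberField.mixedEmbedding NumberField.Units
open scoped nonZeroDivisors

variable (K : Type) [Field K] [NumberField K]

/-- the norm of the image of an algebraic integer in the mixed space is the absolute norm of the
principal ideal it generates -/
theorem h12_norm_mixed_eq_absNorm (x : 𝓞 K) :
    mixedEmbedding.norm (mixedEmbedding K (x : K)) =
      (Ideal.absNorm (Ideal.span ({x} : Set (𝓞 K))) : ℝ) := by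
  rw [mixedEmbedding.norm_eq_norm, Ideal.absNorm_span_singleton, ← Algebra.coe_norm_int]
  rw [Nat.cast_natAbs]
  push_cast
  rfl

/-- same with `|Algebra.norm ℤ x|` -/
theorem h12_norm_mixed_eq_abs_norm (x : 𝓞 K) :
    mixedEmbedding.norm (mixedEmbedding K (x : K)) = (|Algebra.norm ℤ x| : ℝ) := by
  rw [mixedEmbedding.norm_eq_norm, ← Algebra.coe_norm_int]
  push_cast
  rfl

omit [NumberField K] in
theorem h12_mixed_unit_mul (u : (𝓞 K)ˣ) (x : 𝓞 K) :
    mixedEmbedding K (((u : 𝓞 K) * x : 𝓞 K) : K) = u • mixedEmbedding K (x : K) := by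
  rw [mixedEmbedding.unitSMul_smul, ← map_mul]
  rfl

variable {K}

/-- the smoothed summand `W(x) N(x)^{-s}` on `𝓞 K`, for a general weight `W` -/
noncomputable def h12_G (W : mixedSpace K → ℝ) (s : ℝ) (x : 𝓞 K) : ℝ :=
  W (mixedEmbedding K (x : K)) * (mixedEmbedding.norm (mixedEmbedding K (x : K))) ^ (-s)

theorem h12_G_nonneg (W : mixedSpace K → ℝ) (hW : ∀ x, 0 ≤ W x) (s : ℝ) (x : 𝓞 K) :
    0 ≤ h12_G W s x :=
  mul_nonneg (hW _) (Real.rpow_nonneg (mixedEmbedding.norm_nonneg _) _)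

theorem h12_G_zero (W : mixedSpace K → ℝ) (s : ℝ) (hs : s ≠ 0) : h12_G W s (0 : 𝓞 K) = 0 := by
  unfold h12_G
  have : mixedEmbedding.norm (mixedEmbedding K (((0 : 𝓞 K)) : K)) = 0 := by
    rw [h12_norm_mixed_eq_absNorm]
    simp
  rw [this, Real.zero_rpow (neg_ne_zero.mpr hs), mul_zero]

/-- sum over the generators of a nonzero principal ideal -/
theorem h12_hasSum_gen (W : mixedSpace K → ℝ) (c : ℝ)
    (hU : ∀ x : mixedSpace K, mixedEmbedding.norm x ≠ 0 →
      HasSum (fun u : (𝓞 K)ˣ => W (u • x)) c)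
    (s : ℝ) (A : Ideal (𝓞 K)) (hA : A ≠ ⊥) (hP : A.IsPrincipal) :
    HasSum (fun x : {x : 𝓞 K // Ideal.span ({x} : Set (𝓞 K)) = A} => h12_G W s x.1)
      (c * (Ideal.absNorm A : ℝ) ^ (-s)) := by
  obtain ⟨x₀, hx₀⟩ := hP.principal
  have hx₀' : Ideal.span ({x₀} : Set (𝓞 K)) = A := hx₀.symm
  have hx₀ne : x₀ ≠ 0 := by
    rintro rfl
    apply hA
    rw [← hx₀']
    simp
  have hnorm : mixedEmbedding.norm (mixedEmbedding K (x₀ : K)) = (Ideal.absNorm A : ℝ) := by
    rw [h12_norm_mixed_eq_absNorm, hx₀']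
  have hnorm0 : mixedEmbedding.norm (mixedEmbedding K (x₀ : K)) ≠ 0 := by
    rw [hnorm]
    exact_mod_cast (fun h => hA (Ideal.absNorm_eq_zero_iff.mp h))
  -- the bijection with the units
  let φ : (𝓞 K)ˣ → {x : 𝓞 K // Ideal.span ({x} : Set (𝓞 K)) = A} := fun u =>
    ⟨(u : 𝓞 K) * x₀, by
      rw [← hx₀', Ideal.span_singleton_eq_span_singleton]
      exact (associated_unit_mul_left x₀ (u : 𝓞 K) u.isUnit)⟩
  have hφ : Function.Bijective φ := by
    constructor
    · intro u v huv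
      have h1 : (u : 𝓞 K) * x₀ = (v : 𝓞 K) * x₀ := congrArg Subtype.val huv
      exact Units.ext (mul_right_cancel₀ hx₀ne h1)
    · rintro ⟨x, hx⟩
      have h1 : Associated x₀ x := by
        rw [← Ideal.span_singleton_eq_span_singleton, hx, hx₀']
      obtain ⟨u, hu⟩ := h1
      refine ⟨u, Subtype.ext ?_⟩
      show (u : 𝓞 K) * x₀ = x
      rw [mul_comm]; exact hu
  have key : HasSum (fun u : (𝓞 K)ˣ => h12_G W s (φ u).1) (c * (Ideal.absNorm A : ℝ) ^ (-s)) := by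
    have h2 : ∀ u : (𝓞 K)ˣ, h12_G W s (φ u).1 =
        W (u • mixedEmbedding K (x₀ : K)) * (Ideal.absNorm A : ℝ) ^ (-s) := by
      intro u
      show h12_G W s ((u : 𝓞 K) * x₀) = _
      unfold h12_G
      rw [h12_mixed_unit_mul, mixedEmbedding.norm_unit_smul, hnorm]
    simp_rw [h2]
    exact (hU _ hnorm0).mul_right _
  exact ((Equiv.ofBijective φ hφ).hasSum_iff).mp key

/-- the ideals in the inverse class of `J` -/
abbrev h12_CI (J : (Ideal (𝓞 K))⁰) : Type :=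
  {I : (Ideal (𝓞 K))⁰ // ClassGroup.mk0 I = (ClassGroup.mk0 J)⁻¹}

theorem h12_principal_mul (J : (Ideal (𝓞 K))⁰) (I : h12_CI J) :
    ((J : Ideal (𝓞 K)) * (I.1 : Ideal (𝓞 K))).IsPrincipal := by
  have h1 : ClassGroup.mk0 (J * I.1) = 1 := by
    rw [map_mul, I.2, mul_inv_cancel]
  exact (ClassGroup.mk0_eq_one_iff (J * I.1).2).mp h1

omit [NumberField K] in
theorem h12_mul_ne_bot (J : (Ideal (𝓞 K))⁰) (I : (Ideal (𝓞 K))⁰) :
    ((J : Ideal (𝓞 K)) * (I : Ideal (𝓞 K))) ≠ ⊥ :=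
  nonZeroDivisors.coe_ne_zero (J * I)

/-- **P7, generic in the weight**: orbit decomposition. -/
theorem h12_orbit_generic (W : mixedSpace K → ℝ) (hW : ∀ x, 0 ≤ W x) (c : ℝ)
    (hU : ∀ x : mixedSpace K, mixedEmbedding.norm x ≠ 0 →
      HasSum (fun u : (𝓞 K)ˣ => W (u • x)) c)
    (hZ : H17AN.ZetaSummable K) (J : (Ideal (𝓞 K))⁰) (s : ℝ) (hs : 1 < s) :
    HasSum (fun x : 𝓞 K => Set.indicator ((J : Ideal (𝓞 K)) : Set (𝓞 K)) (h12_G W s) x)
      (c * (Ideal.absNorm (J : Ideal (𝓞 K)) : ℝ) ^ (-s) *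
        H17AN.zetaC K (ClassGroup.mk0 J)⁻¹ s) := by
  -- the parametrisation
  let Φ : (Σ I : h12_CI J, {x : 𝓞 K // Ideal.span ({x} : Set (𝓞 K)) =
      (J : Ideal (𝓞 K)) * (I.1 : Ideal (𝓞 K))}) → 𝓞 K := fun p => p.2.1
  have hΦinj : Function.Injective Φ := by
    rintro ⟨I, x, hx⟩ ⟨I', x', hx'⟩ h
    have hxx : x = x' := h
    subst hxx
    have h1 : (J : Ideal (𝓞 K)) * (I.1 : Ideal (𝓞 K)) = (J : Ideal (𝓞 K)) * (I'.1 : Ideal (𝓞 K)) :=
      hx.symm.trans hx'
    have h2 : (I.1 : Ideal (𝓞 K)) = (I'.1 : Ideal (𝓞 K)) :=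
      mul_left_cancel₀ (nonZeroDivisors.coe_ne_zero J) h1
    have h3 : I = I' := Subtype.ext (Subtype.ext h2)
    subst h3
    rfl
  have hΦmem : ∀ p, Φ p ∈ (J : Ideal (𝓞 K)) := by
    rintro ⟨I, x, hx⟩
    show x ∈ (J : Ideal (𝓞 K))
    rw [← Ideal.dvd_span_singleton, hx]
    exact Dvd.intro _ rfl
  have hΦrange : ∀ x : 𝓞 K, x ∉ Set.range Φ →
      Set.indicator ((J : Ideal (𝓞 K)) : Set (𝓞 K)) (h12_G W s) x = 0 := by
    intro x hx
    by_cases hxJ : x ∈ (J : Ideal (𝓞 K))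
    · by_cases hx0 : x = 0
      · rw [Set.indicator_of_mem (by exact hxJ), hx0]
        exact h12_G_zero W s (by linarith)
      · exfalso
        apply hx
        obtain ⟨I, hI⟩ := Ideal.dvd_span_singleton.mpr hxJ
        have hI0 : I ≠ ⊥ := by
          rintro rfl
          rw [Ideal.mul_bot, Ideal.span_singleton_eq_bot] at hI
          exact hx0 hI
        let I' : (Ideal (𝓞 K))⁰ := ⟨I, mem_nonZeroDivisors_of_ne_zero hI0⟩
        have hmk : ClassGroup.mk0 I' = (ClassGroup.mk0 J)⁻¹ := by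
          have h1 : ClassGroup.mk0 (J * I') = 1 := by
            rw [ClassGroup.mk0_eq_one_iff (J * I').2]
            refine ⟨⟨x, ?_⟩⟩
            show (J : Ideal (𝓞 K)) * I = _
            rw [← hI]
          rw [map_mul] at h1
          exact eq_inv_of_mul_eq_one_right h1
        exact ⟨⟨⟨I', hmk⟩, ⟨x, hI⟩⟩, rfl⟩
    · exact Set.indicator_of_notMem (by exact hxJ) _
  rw [← hΦinj.hasSum_iff hΦrange]
  -- now a sum over the sigma type
  have hcomp : ∀ p, (fun x : 𝓞 K => Set.indicator ((J : Ideal (𝓞 K)) : Set (𝓞 K))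
      (h12_G W s) x) (Φ p) = h12_G W s p.2.1 := by
    intro p
    exact Set.indicator_of_mem (by exact hΦmem p) _
  have hfun : ((fun x : 𝓞 K => Set.indicator ((J : Ideal (𝓞 K)) : Set (𝓞 K))
      (h12_G W s) x) ∘ Φ) = fun p => h12_G W s p.2.1 := funext hcomp
  rw [hfun]
  -- fibre sums
  have hfib : ∀ I : h12_CI J, HasSum (fun x : {x : 𝓞 K // Ideal.span ({x} : Set (𝓞 K)) =
      (J : Ideal (𝓞 K)) * (I.1 : Ideal (𝓞 K))} => h12_G W s x.1)
      (c * (Ideal.absNorm (J : Ideal (𝓞 K)) : ℝ) ^ (-s) *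
        (Ideal.absNorm (I.1 : Ideal (𝓞 K)) : ℝ) ^ (-s)) := by
    intro I
    have h := h12_hasSum_gen W c hU s _ (h12_mul_ne_bot J I.1) (h12_principal_mul J I)
    rw [map_mul, Nat.cast_mul, Real.mul_rpow (Nat.cast_nonneg _) (Nat.cast_nonneg _),
      ← mul_assoc] at h
    exact h
  -- outer sum
  have hsumCI : Summable (fun I : h12_CI J => (Ideal.absNorm (I.1 : Ideal (𝓞 K)) : ℝ) ^ (-s)) :=
    (hZ s hs).subtype _
  have houter : HasSum (fun I : h12_CI J => c * (Ideal.absNorm (J : Ideal (𝓞 K)) : ℝ) ^ (-s) *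
        (Ideal.absNorm (I.1 : Ideal (𝓞 K)) : ℝ) ^ (-s))
      (c * (Ideal.absNorm (J : Ideal (𝓞 K)) : ℝ) ^ (-s) *
        H17AN.zetaC K (ClassGroup.mk0 J)⁻¹ s) :=
    hsumCI.hasSum.mul_left _
  refine HasSum.sigma_of_hasSum houter hfib ?_
  rw [summable_sigma_of_nonneg (fun p => h12_G_nonneg W hW s _)]
  refine ⟨fun I => (hfib I).summable, ?_⟩
  have : (fun I : h12_CI J => ∑' x : {x : 𝓞 K // Ideal.span ({x} : Set (𝓞 K)) =
      (J : Ideal (𝓞 K)) * (I.1 : Ideal (𝓞 K))}, h12_G W s x.1) =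
      fun I : h12_CI J => c * (Ideal.absNorm (J : Ideal (𝓞 K)) : ℝ) ^ (-s) *
        (Ideal.absNorm (I.1 : Ideal (𝓞 K)) : ℝ) ^ (-s) :=
    funext fun I => (hfib I).tsum_eq
  rw [this]
  exact houter.summable


/-! ### The instance for helper4's weight -/

theorem h12_h4an_tent_nonneg (t : ℝ) : 0 ≤ H4AN.h4an_tent t := le_max_left _ _

theorem h12_h4an_W_nonneg (x : mixedSpace K) : 0 ≤ H4AN.h4an_W K x := by
  unfold H4AN.h4an_W
  split_ifs
  · exact le_rfl
  · exact Finset.prod_nonneg fun i _ => h12_h4an_tent_nonneg _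

variable (K)

/-- **P7** (helper4's form): the orbit decomposition from the unit sum (and summability of
the Dedekind zeta series). -/
theorem h12_orbitSum' (h1 : H4AN.h4an_UnitSum K) (h2 : H17AN.ZetaSummable K) :
    H4AN.h4an_OrbitSum K := by
  intro J s hs
  exact h12_orbit_generic (H4AN.h4an_W K) h12_h4an_W_nonneg _ h1 h2 J s hs

/-- **P7** with the summability supplied by `h12_zetaSummable`. -/
theorem h12_orbitSum (h1 : H4AN.h4an_UnitSum K) : H4AN.h4an_OrbitSum K :=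
  h12_orbitSum' K h1 (h12_zetaSummable K)

end H12AN
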