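import Fermat.Agent.CFT.AN.Defs

/-!
# T-CFT, module AN: final assembly (helper17)

`H14CFT.NonSplitPrimeExists` and `H14CFT.SecondInequality` from the slice statements of
`Fermat/Agent/CFT/AN/Defs.lean`.
-/

set_option autoImplicit false

namespace H17AN

open NumberField
open scoped nonZeroDivisors

/-- real-analysis core: `a ^ n ≤ K · b` with `c/(s-1) ≤ a`, `b ≤ C/(s-1)` near `1⁺` forces
`n ≤ 1`. Stated as: for `m < n` the inequality `(c/(s-1))^n ≤ K · (C/(s-1))^m` on `(1,2]` is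
impossible. -/
theorem h17an_pole_contra {c K C : ℝ} (hc : 0 < c) {m n : ℕ} (hmn : m < n)
    (h : ∀ s ∈ Set.Ioc (1 : ℝ) 2, (c / (s - 1)) ^ n ≤ K * (C / (s - 1)) ^ m) : False := by
  -- put `A = |K| * |C| ^ m + 1`
  set A : ℝ := |K| * |C| ^ m + 1 with hA
  have hApos : 0 < A := by positivity
  have hcn : 0 < c ^ n := pow_pos hc n
  -- choose `ε ≤ 1` with `A * ε < c ^ n`
  set ε : ℝ := min 1 (c ^ n / (2 * A)) with hε
  have hεpos : 0 < ε := lt_min one_pos (by positivity)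
  have hε1 : ε ≤ 1 := min_le_left _ _
  have hε2 : ε ≤ c ^ n / (2 * A) := min_le_right _ _
  have hs : (1 + ε) ∈ Set.Ioc (1 : ℝ) 2 := ⟨by linarith, by linarith⟩
  have h1 := h (1 + ε) hs
  have hsub : (1 + ε) - 1 = ε := by ring
  rw [hsub, div_pow, div_pow] at h1
  -- multiply by `ε ^ n`
  have hεn : 0 < ε ^ n := pow_pos hεpos n
  have hεm : 0 < ε ^ m := pow_pos hεpos m
  have h2 : c ^ n ≤ K * C ^ m * ε ^ (n - m) := by
    have h3 : c ^ n / ε ^ n * ε ^ n ≤ K * (C ^ m / ε ^ m) * ε ^ n :=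
      mul_le_mul_of_nonneg_right h1 hεn.le
    have h4 : c ^ n / ε ^ n * ε ^ n = c ^ n := by field_simp
    have h5 : K * (C ^ m / ε ^ m) * ε ^ n = K * C ^ m * ε ^ (n - m) := by
      have : ε ^ n = ε ^ m * ε ^ (n - m) := by
        rw [← pow_add]; congr 1; omega
      rw [this]; field_simp
    rw [h4, h5] at h3
    exact h3
  have h6 : ε ^ (n - m) ≤ ε := by
    have hnm : 1 ≤ n - m := by omega
    calc ε ^ (n - m) ≤ ε ^ 1 := pow_le_pow_of_le_one hεpos.le hε1 hnm
      _ = ε := pow_one ε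
  have h7 : K * C ^ m * ε ^ (n - m) ≤ |K| * |C| ^ m * ε := by
    have hpos : 0 ≤ ε ^ (n - m) := by positivity
    calc K * C ^ m * ε ^ (n - m) ≤ |K * C ^ m| * ε ^ (n - m) :=
          mul_le_mul_of_nonneg_right (le_abs_self _) hpos
      _ = |K| * |C| ^ m * ε ^ (n - m) := by rw [abs_mul, abs_pow]
      _ ≤ |K| * |C| ^ m * ε := mul_le_mul_of_nonneg_left h6 (by positivity)
  have h8 : |K| * |C| ^ m * ε ≤ A * ε := by
    apply mul_le_mul_of_nonneg_right _ hεpos.le
    rw [hA]; linarith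
  have h9 : A * ε ≤ c ^ n / 2 := by
    calc A * ε ≤ A * (c ^ n / (2 * A)) := mul_le_mul_of_nonneg_left hε2 hApos.le
      _ = c ^ n / 2 := by field_simp
  linarith

/-- **AN-B**: `NonSplitPrimeExists` from the slices. -/
theorem h17an_nonSplit
    (hZB : ∀ (E : Type) [Field E] [NumberField E], ZetaBounds E)
    (hPL : ∀ (E : Type) [Field E] [NumberField E], PrimeLower E)
    (hPU : ∀ (E : Type) [Field E] [NumberField E], PrimeUpper E)
    (hPS : ∀ (E M : Type) [Field E] [NumberField E] [Field M] [NumberField M] [Algebra E M]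
      [IsGalois E M], PrimeSumSplit E M) :
    H14CFT.NonSplitPrimeExists := by
  intro E M _ _ _ _ _ _ D hD hn
  by_contra hcon
  push Not at hcon
  have hsplit : ∀ P : Ideal (𝓞 E), P.IsPrime → P ≠ ⊥ → P ∈ degOne E D →
      H14CFT.SplitsCompletely E M P := fun P hP h0 hT => hcon P hP h0 hT.1 hT.2
  obtain ⟨cE, CE, hcE, hE⟩ := hZB E
  obtain ⟨cM, CM, hcM, hM⟩ := hZB M
  obtain ⟨C, hC⟩ := hPU E D hD
  refine h17an_pole_contra (c := cE) (K := C ^ (Module.finrank E M)) (C := CM) hcE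
    (m := 1) (n := Module.finrank E M) hn ?_
  intro s hs
  have hs1 : 1 < s := hs.1
  have hspos : 0 < s - 1 := by linarith
  have h1 := hPS E M (degOne E D) s hs1 hsplit
  have h2 := (hPL M {Q | Q.under (𝓞 E) ∈ degOne E D} s hs1).2
  have h3 := hC s hs
  have hzE : cE / (s - 1) ≤ zetaI E s := (hE s hs).1
  have hzM : zetaI M s ≤ CM / (s - 1) := (hM s hs).2
  have hzEpos : 0 < zetaI E s := lt_of_lt_of_le (div_pos hcE hspos) hzE
  have hCpos : 0 < C := by
    by_contra hneg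
    rw [not_lt] at hneg
    have : C * Real.exp (primeSum E (degOne E D) s) ≤ 0 :=
      mul_nonpos_of_nonpos_of_nonneg hneg (Real.exp_pos _).le
    linarith
  calc (cE / (s - 1)) ^ (Module.finrank E M)
      ≤ (zetaI E s) ^ (Module.finrank E M) :=
        pow_le_pow_left₀ (div_pos hcE hspos).le hzE _
    _ ≤ (C * Real.exp (primeSum E (degOne E D) s)) ^ (Module.finrank E M) :=
        pow_le_pow_left₀ hzEpos.le h3 _
    _ = C ^ (Module.finrank E M) *
          Real.exp ((Module.finrank E M : ℝ) * primeSum E (degOne E D) s) := by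
        rw [mul_pow, ← Real.exp_nat_mul]
    _ ≤ C ^ (Module.finrank E M) *
          Real.exp (primeSum M {Q | Q.under (𝓞 E) ∈ degOne E D} s) := by
        apply mul_le_mul_of_nonneg_left _ (pow_pos hCpos _).le
        exact Real.exp_le_exp.mpr h1
    _ ≤ C ^ (Module.finrank E M) * zetaI M s :=
        mul_le_mul_of_nonneg_left h2 (pow_pos hCpos _).le
    _ ≤ C ^ (Module.finrank E M) * (CM / (s - 1)) :=
        mul_le_mul_of_nonneg_left hzM (pow_pos hCpos _).le
    _ = C ^ (Module.finrank E M) * (CM / (s - 1)) ^ 1 := by rw [pow_one]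

/-- **AN-E**: `SecondInequality` from the slices. -/
theorem h17an_secondIneq
    (hZB : ∀ (E : Type) [Field E] [NumberField E], ZetaBounds E)
    (hPU : ∀ (E : Type) [Field E] [NumberField E], PrimeUpper E)
    (hCP : ∀ (E : Type) [Field E] [NumberField E], ClassProduct E)
    (hPG : ∀ (E M : Type) [Field E] [NumberField E] [Field M] [NumberField M] [Algebra E M]
      [IsGalois E M], PrimeSumGood E M) :
    H14CFT.SecondInequality := by
  intro E M _ _ _ _ _ _ D 𝒩 hD hsp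
  by_contra hcon
  rw [not_le] at hcon
  obtain ⟨cE, CE, hcE, hE⟩ := hZB E
  obtain ⟨cM, CM, hcM, hM⟩ := hZB M
  obtain ⟨D₀, hD₀, hG⟩ := hPG E M
  obtain ⟨C, hC⟩ := hPU M (D * D₀) (mul_ne_zero hD hD₀)
  obtain ⟨B', hB'⟩ := hCP E 𝒩
  set S : Set (Ideal (𝓞 E)) := {P | ¬ (Ideal.absNorm P ∣ D) ∧ H14CFT.SplitsCompletely E M P}
    with hS
  have hSN : ∀ P : (Ideal (𝓞 E))⁰, (P : Ideal (𝓞 E)).IsPrime → (P : Ideal (𝓞 E)) ∈ S →
      ClassGroup.mk0 P ∈ 𝒩 := fun P hP hPS => hsp P hP hPS.1 hPS.2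
  set n := Module.finrank E M with hn
  set h := 𝒩.index with hh
  refine h17an_pole_contra (c := cM) (K := C ^ h * B' ^ n) (C := CE) hcM (m := n) (n := h)
    hcon ?_
  intro s hs
  have hs1 : 1 < s := hs.1
  have hspos : 0 < s - 1 := by linarith
  have h1 := hG D s hD hs1
  have h2 := hB' S hSN s hs
  have h3 := hC s hs
  have hzM : cM / (s - 1) ≤ zetaI M s := (hM s hs).1
  have hzE : zetaI E s ≤ CE / (s - 1) := (hE s hs).2
  have hzEpos : 0 < zetaI E s := lt_of_lt_of_le (div_pos hcE hspos) (hE s hs).1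
  have hzMpos : 0 < zetaI M s := lt_of_lt_of_le (div_pos hcM hspos) hzM
  have hCpos : 0 < C := by
    by_contra hneg
    rw [not_lt] at hneg
    have : C * Real.exp (primeSum M (degOne M (D * D₀)) s) ≤ 0 :=
      mul_nonpos_of_nonpos_of_nonneg hneg (Real.exp_pos _).le
    linarith
  have hBpos : 0 < B' := by
    by_contra hneg
    rw [not_lt] at hneg
    have : B' * zetaI E s ≤ 0 := mul_nonpos_of_nonpos_of_nonneg hneg hzEpos.le
    have := Real.exp_pos ((h : ℝ) * primeSum E S s)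
    linarith
  -- `exp (n h Σ_S) ≤ (B' ζ_E) ^ n`
  have h4 : Real.exp ((n : ℝ) * ((h : ℝ) * primeSum E S s)) ≤ (B' * zetaI E s) ^ n := by
    rw [Real.exp_nat_mul]
    exact pow_le_pow_left₀ (Real.exp_pos _).le h2 _
  -- `ζ_M ^ h ≤ C ^ h exp (h n Σ_S)`
  have h5 : (zetaI M s) ^ h ≤ C ^ h * Real.exp ((h : ℝ) * ((n : ℝ) * primeSum E S s)) := by
    calc (zetaI M s) ^ h ≤ (C * Real.exp (primeSum M (degOne M (D * D₀)) s)) ^ h :=
          pow_le_pow_left₀ hzMpos.le h3 _
      _ = C ^ h * Real.exp ((h : ℝ) * primeSum M (degOne M (D * D₀)) s) := by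
          rw [mul_pow, ← Real.exp_nat_mul]
      _ ≤ C ^ h * Real.exp ((h : ℝ) * ((n : ℝ) * primeSum E S s)) := by
          apply mul_le_mul_of_nonneg_left _ (pow_pos hCpos _).le
          apply Real.exp_le_exp.mpr
          exact mul_le_mul_of_nonneg_left h1 (Nat.cast_nonneg _)
  have h6 : (h : ℝ) * ((n : ℝ) * primeSum E S s) = (n : ℝ) * ((h : ℝ) * primeSum E S s) := by
    ring
  calc (cM / (s - 1)) ^ h ≤ (zetaI M s) ^ h :=
        pow_le_pow_left₀ (div_pos hcM hspos).le hzM _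
    _ ≤ C ^ h * Real.exp ((h : ℝ) * ((n : ℝ) * primeSum E S s)) := h5
    _ = C ^ h * Real.exp ((n : ℝ) * ((h : ℝ) * primeSum E S s)) := by rw [h6]
    _ ≤ C ^ h * (B' * zetaI E s) ^ n :=
        mul_le_mul_of_nonneg_left h4 (pow_pos hCpos _).le
    _ ≤ C ^ h * (B' * (CE / (s - 1))) ^ n := by
        apply mul_le_mul_of_nonneg_left _ (pow_pos hCpos _).le
        apply pow_le_pow_left₀ (mul_pos hBpos hzEpos).le
        exact mul_le_mul_of_nonneg_left hzE hBpos.le
    _ = C ^ h * B' ^ n * (CE / (s - 1)) ^ n := by rw [mul_pow]; ring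

end H17AN
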