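import Mathlib

/-!
# T-CFT, module AN-D (helper17): characters of a finite abelian group, elementary inequality
-/

set_option autoImplicit false

namespace H17AN

section chars

variable (G : Type*) [CommGroup G] [Finite G]

theorem h17an_hasEnough : HasEnoughRootsOfUnity ℂ (Monoid.exponent G) := by
  have : NeZero (Monoid.exponent G) := ⟨Monoid.exponent_ne_zero_of_finite⟩
  infer_instance

theorem h17an_finite_char : Finite (G →* ℂˣ) := by
  have := h17an_hasEnough G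
  apply Nat.finite_of_card_ne_zero
  rw [CommGroup.card_monoidHom_of_hasEnoughRootsOfUnity G ℂ]
  exact Nat.card_pos.ne'

theorem h17an_card_char : Nat.card (G →* ℂˣ) = Nat.card G := by
  have := h17an_hasEnough G
  exact CommGroup.card_monoidHom_of_hasEnoughRootsOfUnity G ℂ

variable {G}

/-- values of characters have norm one -/
theorem h17an_norm_char (χ : G →* ℂˣ) (g : G) : ‖((χ g : ℂˣ) : ℂ)‖ = 1 := by
  have hcard : 0 < Nat.card G := Nat.card_pos
  have h1 : (χ g) ^ Nat.card G = 1 := by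
    rw [← map_pow, pow_card_eq_one', map_one]
  have h2 : ((χ g : ℂˣ) : ℂ) ^ Nat.card G = 1 := by
    rw [← Units.val_pow_eq_pow_val, h1, Units.val_one]
  exact Complex.norm_eq_one_of_pow_eq_one h2 hcard.ne'

/-- orthogonality, first form: sum over characters at `g ≠ 1`. -/
theorem h17an_sum_char_apply [Fintype (G →* ℂˣ)] {g : G} (hg : g ≠ 1) :
    ∑ χ : G →* ℂˣ, ((χ g : ℂˣ) : ℂ) = 0 := by
  have := h17an_hasEnough G
  obtain ⟨ψ, hψ⟩ := CommGroup.exists_apply_ne_one_of_hasEnoughRootsOfUnity G ℂ hg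
  have h1 : ∑ χ : G →* ℂˣ, ((χ g : ℂˣ) : ℂ) =
      ((ψ g : ℂˣ) : ℂ) * ∑ χ : G →* ℂˣ, ((χ g : ℂˣ) : ℂ) := by
    rw [Finset.mul_sum]
    refine (Fintype.sum_equiv (Equiv.mulLeft ψ) _ _ (fun χ => ?_)).symm
    simp [MonoidHom.mul_apply]
  have h2 : (1 - ((ψ g : ℂˣ) : ℂ)) * ∑ χ : G →* ℂˣ, ((χ g : ℂˣ) : ℂ) = 0 := by
    rw [sub_mul, one_mul, ← h1, sub_self]
  rcases mul_eq_zero.mp h2 with h | h
  · exfalso
    apply hψ
    have : ((ψ g : ℂˣ) : ℂ) = 1 := (sub_eq_zero.mp h).symm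
    exact Units.ext this
  · exact h

/-- orthogonality: sum over characters. -/
theorem h17an_sum_char_apply_eq [Fintype (G →* ℂˣ)] [DecidableEq G] (g : G) :
    ∑ χ : G →* ℂˣ, ((χ g : ℂˣ) : ℂ) = if g = 1 then (Nat.card G : ℂ) else 0 := by
  split_ifs with h
  · subst h
    simp only [map_one, Units.val_one, Finset.sum_const, Finset.card_univ, nsmul_eq_mul, mul_one]
    rw [← h17an_card_char G, Nat.card_eq_fintype_card]
  · exact h17an_sum_char_apply h

/-- orthogonality, second form: sum of a nontrivial character over the group. -/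
theorem h17an_sum_apply_char [Fintype G] {χ : G →* ℂˣ} (hχ : χ ≠ 1) :
    ∑ g : G, ((χ g : ℂˣ) : ℂ) = 0 := by
  obtain ⟨g₀, hg₀⟩ : ∃ g₀, χ g₀ ≠ 1 := by
    by_contra hcon
    push Not at hcon
    exact hχ (MonoidHom.ext hcon)
  have h1 : ∑ g : G, ((χ g : ℂˣ) : ℂ) = ((χ g₀ : ℂˣ) : ℂ) * ∑ g : G, ((χ g : ℂˣ) : ℂ) := by
    rw [Finset.mul_sum]
    refine (Fintype.sum_equiv (Equiv.mulLeft g₀) _ _ (fun g => ?_)).symm
    simp [map_mul]
  have h2 : (1 - ((χ g₀ : ℂˣ) : ℂ)) * ∑ g : G, ((χ g : ℂˣ) : ℂ) = 0 := by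
    rw [sub_mul, one_mul, ← h1, sub_self]
  rcases mul_eq_zero.mp h2 with h | h
  · exfalso
    apply hg₀
    have : ((χ g₀ : ℂˣ) : ℂ) = 1 := (sub_eq_zero.mp h).symm
    exact Units.ext this
  · exact h

end chars

/-- `|1 - z| ≤ exp (- Re z + |z|² / 2)`. -/
theorem h17an_norm_one_sub_le (z : ℂ) : ‖1 - z‖ ≤ Real.exp (-z.re + ‖z‖ ^ 2 / 2) := by
  have h1 : ‖1 - z‖ ^ 2 = 1 - 2 * z.re + ‖z‖ ^ 2 := by
    rw [Complex.sq_norm, Complex.sq_norm, Complex.normSq_apply, Complex.normSq_apply]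
    simp only [Complex.sub_re, Complex.one_re, Complex.sub_im, Complex.one_im]
    ring
  have h2 : ‖1 - z‖ ^ 2 ≤ Real.exp (-z.re + ‖z‖ ^ 2 / 2) ^ 2 := by
    rw [h1, ← Real.exp_nat_mul]
    have := Real.add_one_le_exp (-2 * z.re + ‖z‖ ^ 2)
    have e : ((2 : ℕ) : ℝ) * (-z.re + ‖z‖ ^ 2 / 2) = -2 * z.re + ‖z‖ ^ 2 := by
      push_cast; ring
    rw [e]
    linarith
  exact (pow_le_pow_iff_left₀ (norm_nonneg _) (Real.exp_pos _).le (by norm_num)).mp h2

end H17AN
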