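import Fermat.Agent.CFT.AN.Defs
import Fermat.Agent.CFT.AN.H17Char

/-!
# T-CFT, module AN-D (helper17): `ClassProduct`

If the classes of the primes in `S` lie in a subgroup `𝒩` of index `h` of the class group, then
`exp (h · Σ_{P ∈ S} N(P)^{-s}) ≤ B' · ζ_E(s)` on `(1, 2]`.
Inputs: `ZetaSummable`, `EulerProd`, `PartialZetaBounded`.
-/

set_option autoImplicit false

namespace H17AN

open NumberField
open scoped nonZeroDivisors

variable (E : Type) [Field E] [NumberField E]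

/-- `I ↦ N(I)^{-s}` as a monoid homomorphism on the nonzero ideals. -/
noncomputable def h17an_normPow (s : ℝ) : (Ideal (𝓞 E))⁰ →* ℝ where
  toFun I := (Ideal.absNorm (I : Ideal (𝓞 E)) : ℝ) ^ (-s)
  map_one' := by simp
  map_mul' I J := by
    simp only [Submonoid.coe_mul, map_mul, Nat.cast_mul]
    exact Real.mul_rpow (Nat.cast_nonneg _) (Nat.cast_nonneg _)

@[simp] theorem h17an_normPow_apply (s : ℝ) (I : (Ideal (𝓞 E))⁰) :
    h17an_normPow E s I = (Ideal.absNorm (I : Ideal (𝓞 E)) : ℝ) ^ (-s) := rfl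

theorem h17an_absNorm_pos (I : (Ideal (𝓞 E))⁰) :
    (0 : ℝ) < (Ideal.absNorm (I : Ideal (𝓞 E)) : ℝ) := by
  exact_mod_cast Nat.pos_of_ne_zero (Ideal.absNorm_ne_zero_of_nonZeroDivisors I)

theorem h17an_normPow_pos (s : ℝ) (I : (Ideal (𝓞 E))⁰) :
    0 < (Ideal.absNorm (I : Ideal (𝓞 E)) : ℝ) ^ (-s) :=
  Real.rpow_pos_of_pos (h17an_absNorm_pos E I) _

/-- the absolute norm of a nonzero prime is at least 2 -/
theorem h17an_two_le_absNorm (P : (Ideal (𝓞 E))⁰) (hP : (P : Ideal (𝓞 E)).IsPrime) :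
    2 ≤ Ideal.absNorm (P : Ideal (𝓞 E)) := by
  have h0 : Ideal.absNorm (P : Ideal (𝓞 E)) ≠ 0 := Ideal.absNorm_ne_zero_of_nonZeroDivisors P
  have h1 : Ideal.absNorm (P : Ideal (𝓞 E)) ≠ 1 := by
    intro h
    exact hP.ne_top (Ideal.absNorm_eq_one_iff.mp h)
  omega

/-- `N(P)^{-s} < 1` for a nonzero prime and `s > 0`. -/
theorem h17an_normPow_lt_one {s : ℝ} (hs : 0 < s) (P : (Ideal (𝓞 E))⁰)
    (hP : (P : Ideal (𝓞 E)).IsPrime) :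
    (Ideal.absNorm (P : Ideal (𝓞 E)) : ℝ) ^ (-s) < 1 := by
  have h2 : (2 : ℝ) ≤ (Ideal.absNorm (P : Ideal (𝓞 E)) : ℝ) := by
    exact_mod_cast h17an_two_le_absNorm E P hP
  exact Real.rpow_lt_one_of_one_lt_of_neg (by linarith) (by linarith)

/-- `(N(I)^{-s})² ≤ N(I)^{-2}` for `s ≥ 1`. -/
theorem h17an_normPow_sq_le {s : ℝ} (hs : 1 ≤ s) (I : (Ideal (𝓞 E))⁰) :
    ((Ideal.absNorm (I : Ideal (𝓞 E)) : ℝ) ^ (-s)) ^ 2 ≤
      (Ideal.absNorm (I : Ideal (𝓞 E)) : ℝ) ^ (-(2 : ℝ)) := by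
  have hpos := h17an_absNorm_pos E I
  have h1 : (1 : ℝ) ≤ (Ideal.absNorm (I : Ideal (𝓞 E)) : ℝ) := by
    exact_mod_cast Nat.pos_of_ne_zero (Ideal.absNorm_ne_zero_of_nonZeroDivisors I)
  rw [← Real.rpow_natCast, ← Real.rpow_mul hpos.le]
  apply Real.rpow_le_rpow_of_exponent_le h1
  push_cast
  linarith

variable {E}

/-- the twisted norm character `I ↦ χ([I]) N(I)^{-s}` -/
noncomputable def h17an_f (𝒩 : Subgroup (ClassGroup (𝓞 E)))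
    (χ : (ClassGroup (𝓞 E) ⧸ 𝒩) →* ℂˣ) (s : ℝ) : (Ideal (𝓞 E))⁰ →* ℂ :=
  ((Units.coeHom ℂ).comp (χ.comp ((QuotientGroup.mk' 𝒩).comp ClassGroup.mk0))) *
    ((Complex.ofRealHom : ℝ →+* ℂ).toMonoidHom.comp (h17an_normPow E s))

theorem h17an_f_apply (𝒩 : Subgroup (ClassGroup (𝓞 E)))
    (χ : (ClassGroup (𝓞 E) ⧸ 𝒩) →* ℂˣ) (s : ℝ) (I : (Ideal (𝓞 E))⁰) :
    h17an_f 𝒩 χ s I = ((χ (QuotientGroup.mk' 𝒩 (ClassGroup.mk0 I)) : ℂˣ) : ℂ) *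
      (((Ideal.absNorm (I : Ideal (𝓞 E)) : ℝ) ^ (-s) : ℝ) : ℂ) := rfl

theorem h17an_norm_f (𝒩 : Subgroup (ClassGroup (𝓞 E)))
    (χ : (ClassGroup (𝓞 E) ⧸ 𝒩) →* ℂˣ) (s : ℝ) (I : (Ideal (𝓞 E))⁰) :
    ‖h17an_f 𝒩 χ s I‖ = (Ideal.absNorm (I : Ideal (𝓞 E)) : ℝ) ^ (-s) := by
  rw [h17an_f_apply, norm_mul, h17an_norm_char, one_mul, Complex.norm_real]
  exact Real.norm_of_nonneg (h17an_normPow_pos E s I).le

theorem h17an_re_f (𝒩 : Subgroup (ClassGroup (𝓞 E)))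
    (χ : (ClassGroup (𝓞 E) ⧸ 𝒩) →* ℂˣ) (s : ℝ) (I : (Ideal (𝓞 E))⁰) :
    (h17an_f 𝒩 χ s I).re = ((χ (QuotientGroup.mk' 𝒩 (ClassGroup.mk0 I)) : ℂˣ) : ℂ).re *
      (Ideal.absNorm (I : Ideal (𝓞 E)) : ℝ) ^ (-s) := by
  rw [h17an_f_apply, Complex.re_mul_ofReal]

theorem h17an_summable_f (hZ : ZetaSummable E) (𝒩 : Subgroup (ClassGroup (𝓞 E)))
    (χ : (ClassGroup (𝓞 E) ⧸ 𝒩) →* ℂˣ) {s : ℝ} (hs : 1 < s) :
    Summable fun I : (Ideal (𝓞 E))⁰ => ‖h17an_f 𝒩 χ s I‖ :=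
  (hZ s hs).congr fun I => (h17an_norm_f 𝒩 χ s I).symm

/-- the `L`-series of a class character (real `s > 1`) -/
noncomputable def h17an_L (𝒩 : Subgroup (ClassGroup (𝓞 E)))
    (χ : (ClassGroup (𝓞 E) ⧸ 𝒩) →* ℂˣ) (s : ℝ) : ℂ :=
  ∑' I : (Ideal (𝓞 E))⁰, h17an_f 𝒩 χ s I

/-- the `L`-series as a finite combination of partial zeta functions -/
theorem h17an_L_eq_sum (hZ : ZetaSummable E) (𝒩 : Subgroup (ClassGroup (𝓞 E)))
    (χ : (ClassGroup (𝓞 E) ⧸ 𝒩) →* ℂˣ) {s : ℝ} (hs : 1 < s) :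
    h17an_L 𝒩 χ s = ∑ C : ClassGroup (𝓞 E),
      ((χ (QuotientGroup.mk' 𝒩 C) : ℂˣ) : ℂ) * ((zetaC E C s : ℝ) : ℂ) := by
  have hsum : Summable fun I : (Ideal (𝓞 E))⁰ => h17an_f 𝒩 χ s I :=
    (h17an_summable_f hZ 𝒩 χ hs).of_norm
  have h1 := hsum.hasSum.tsum_fiberwise (ClassGroup.mk0 : (Ideal (𝓞 E))⁰ → ClassGroup (𝓞 E))
  have h2 := h1.tsum_eq
  rw [tsum_fintype] at h2
  unfold h17an_L
  rw [← h2]
  refine Finset.sum_congr rfl fun C _ => ?_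
  have h3 : ∀ I : (ClassGroup.mk0 : (Ideal (𝓞 E))⁰ → ClassGroup (𝓞 E)) ⁻¹' {C},
      h17an_f 𝒩 χ s I.1 = ((χ (QuotientGroup.mk' 𝒩 C) : ℂˣ) : ℂ) *
        (((Ideal.absNorm ((I.1 : (Ideal (𝓞 E))⁰) : Ideal (𝓞 E)) : ℝ) ^ (-s) : ℝ) : ℂ) := by
    intro I
    have hI : ClassGroup.mk0 I.1 = C := I.2
    rw [h17an_f_apply, hI]
  rw [tsum_congr h3, tsum_mul_left]
  congr 1
  rw [← Complex.ofReal_tsum]
  rfl


theorem h17an_zetaC_nonneg (C : ClassGroup (𝓞 E)) (s : ℝ) : 0 ≤ zetaC E C s :=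
  tsum_nonneg fun I => (h17an_normPow_pos E s I.1).le

theorem h17an_zetaI_nonneg (s : ℝ) : 0 ≤ zetaI E s :=
  tsum_nonneg fun I => (h17an_normPow_pos E s I).le

/-- `L(s, 1) = ζ_E(s)` -/
theorem h17an_L_one (𝒩 : Subgroup (ClassGroup (𝓞 E))) (s : ℝ) :
    h17an_L 𝒩 1 s = ((zetaI E s : ℝ) : ℂ) := by
  unfold h17an_L zetaI
  rw [Complex.ofReal_tsum]
  refine tsum_congr fun I => ?_
  rw [h17an_f_apply]
  simp

/-- for `χ ≠ 1` the `L`-series is bounded by `|Cl| · B`. -/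
theorem h17an_norm_L_le (hZ : ZetaSummable E) (𝒩 : Subgroup (ClassGroup (𝓞 E)))
    {χ : (ClassGroup (𝓞 E) ⧸ 𝒩) →* ℂˣ} (hχ : χ ≠ 1) {s : ℝ} (hs : 1 < s) {B : ℝ}
    (hB : ∀ C : ClassGroup (𝓞 E), |zetaC E C s - zetaC E 1 s| ≤ B) :
    ‖h17an_L 𝒩 χ s‖ ≤ (Fintype.card (ClassGroup (𝓞 E)) : ℝ) * B := by
  rw [h17an_L_eq_sum hZ 𝒩 χ hs]
  -- the character `χ ∘ π` of the class group is nontrivial
  have hχ' : χ.comp (QuotientGroup.mk' 𝒩) ≠ 1 := by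
    intro h
    apply hχ
    apply MonoidHom.ext
    intro g
    obtain ⟨C, rfl⟩ := QuotientGroup.mk'_surjective 𝒩 g
    have := DFunLike.congr_fun h C
    simpa using this
  have h0 : ∑ C : ClassGroup (𝓞 E), ((χ (QuotientGroup.mk' 𝒩 C) : ℂˣ) : ℂ) = 0 :=
    h17an_sum_apply_char hχ'
  have h1 : ∑ C : ClassGroup (𝓞 E),
      ((χ (QuotientGroup.mk' 𝒩 C) : ℂˣ) : ℂ) * ((zetaC E C s : ℝ) : ℂ) =
      ∑ C : ClassGroup (𝓞 E), ((χ (QuotientGroup.mk' 𝒩 C) : ℂˣ) : ℂ) *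
        (((zetaC E C s - zetaC E 1 s : ℝ)) : ℂ) := by
    have : ∑ C : ClassGroup (𝓞 E), ((χ (QuotientGroup.mk' 𝒩 C) : ℂˣ) : ℂ) *
        (((zetaC E C s - zetaC E 1 s : ℝ)) : ℂ) =
        ∑ C : ClassGroup (𝓞 E), ((χ (QuotientGroup.mk' 𝒩 C) : ℂˣ) : ℂ) *
          ((zetaC E C s : ℝ) : ℂ) -
        (∑ C : ClassGroup (𝓞 E), ((χ (QuotientGroup.mk' 𝒩 C) : ℂˣ) : ℂ)) *
          ((zetaC E 1 s : ℝ) : ℂ) := by
      rw [Finset.sum_mul, ← Finset.sum_sub_distrib]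
      refine Finset.sum_congr rfl fun C _ => ?_
      push_cast
      ring
    rw [this, h0, zero_mul, sub_zero]
  rw [h1]
  calc ‖∑ C : ClassGroup (𝓞 E), ((χ (QuotientGroup.mk' 𝒩 C) : ℂˣ) : ℂ) *
        (((zetaC E C s - zetaC E 1 s : ℝ)) : ℂ)‖
      ≤ ∑ C : ClassGroup (𝓞 E), ‖((χ (QuotientGroup.mk' 𝒩 C) : ℂˣ) : ℂ) *
        (((zetaC E C s - zetaC E 1 s : ℝ)) : ℂ)‖ := norm_sum_le _ _
    _ ≤ ∑ _C : ClassGroup (𝓞 E), B := by
        refine Finset.sum_le_sum fun C _ => ?_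
        rw [norm_mul, h17an_norm_char, one_mul, Complex.norm_real, Real.norm_eq_abs]
        exact hB C
    _ = (Fintype.card (ClassGroup (𝓞 E)) : ℝ) * B := by
        rw [Finset.sum_const, Finset.card_univ, nsmul_eq_mul]


/-- the index type of the Euler product: nonzero prime ideals -/
abbrev h17an_Pr (E : Type) [Field E] [NumberField E] : Type :=
  {P : (Ideal (𝓞 E))⁰ // (P : Ideal (𝓞 E)).IsPrime}

/-- `N(P)^{-s}` on the nonzero primes -/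
noncomputable def h17an_x (s : ℝ) (P : h17an_Pr E) : ℝ :=
  (Ideal.absNorm ((P.1 : (Ideal (𝓞 E))⁰) : Ideal (𝓞 E)) : ℝ) ^ (-s)

theorem h17an_x_pos (s : ℝ) (P : h17an_Pr E) : 0 < h17an_x s P :=
  h17an_normPow_pos E s P.1

theorem h17an_summable_x (hZ : ZetaSummable E) {s : ℝ} (hs : 1 < s) :
    Summable fun P : h17an_Pr E => h17an_x s P :=
  (hZ s hs).comp_injective Subtype.val_injective

open scoped Classical in
/-- `N(P)^{-s}` if the class of `P` lies in `𝒩`, else `0` -/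
noncomputable def h17an_ind (𝒩 : Subgroup (ClassGroup (𝓞 E))) (s : ℝ) (P : h17an_Pr E) : ℝ :=
  if QuotientGroup.mk' 𝒩 (ClassGroup.mk0 P.1) = 1 then h17an_x s P else 0

theorem h17an_ind_nonneg (𝒩 : Subgroup (ClassGroup (𝓞 E))) (s : ℝ) (P : h17an_Pr E) :
    0 ≤ h17an_ind 𝒩 s P := by
  unfold h17an_ind
  split_ifs
  · exact (h17an_x_pos s P).le
  · exact le_rfl

theorem h17an_ind_le (𝒩 : Subgroup (ClassGroup (𝓞 E))) (s : ℝ) (P : h17an_Pr E) :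
    h17an_ind 𝒩 s P ≤ h17an_x s P := by
  unfold h17an_ind
  split_ifs
  · exact le_rfl
  · exact (h17an_x_pos s P).le

theorem h17an_ind_of_mem (𝒩 : Subgroup (ClassGroup (𝓞 E))) (s : ℝ) (P : h17an_Pr E)
    (hP : ClassGroup.mk0 P.1 ∈ 𝒩) : h17an_ind 𝒩 s P = h17an_x s P := by
  have hc : QuotientGroup.mk' 𝒩 (ClassGroup.mk0 P.1) = 1 := (QuotientGroup.eq_one_iff _).mpr hP
  unfold h17an_ind
  rw [if_pos hc]

theorem h17an_x_sq_le {s : ℝ} (hs : 1 ≤ s) (P : h17an_Pr E) :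
    h17an_x s P ^ 2 ≤ h17an_x 2 P :=
  h17an_normPow_sq_le E hs P.1

section local_factor

variable (𝒩 : Subgroup (ClassGroup (𝓞 E))) [Fintype ((ClassGroup (𝓞 E) ⧸ 𝒩) →* ℂˣ)]

theorem h17an_card_chars :
    Fintype.card ((ClassGroup (𝓞 E) ⧸ 𝒩) →* ℂˣ) = 𝒩.index := by
  rw [← Nat.card_eq_fintype_card, h17an_card_char, Subgroup.index_eq_card]

open scoped Classical in
/-- the sum of the real parts of the character values -/
theorem h17an_sum_re (g : ClassGroup (𝓞 E) ⧸ 𝒩) :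
    ∑ χ : (ClassGroup (𝓞 E) ⧸ 𝒩) →* ℂˣ, ((χ g : ℂˣ) : ℂ).re =
      if g = 1 then (𝒩.index : ℝ) else 0 := by
  have h := h17an_sum_char_apply_eq g
  have h2 := congrArg Complex.re h
  rw [Complex.re_sum] at h2
  rw [h2]
  split_ifs with hg
  · rw [Complex.natCast_re, ← Subgroup.index_eq_card]
  · simp

/-- **local factor bound**: the norm of the product over all characters of the Euler factors at a
prime `P` is at least `exp (h (x [c = 1] - x² / 2))`. -/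
theorem h17an_local (s : ℝ) (hs : 0 < s) (P : h17an_Pr E) :
    Real.exp ((𝒩.index : ℝ) * (h17an_ind 𝒩 s P - h17an_x s P ^ 2 / 2)) ≤
      ‖∏ χ : (ClassGroup (𝓞 E) ⧸ 𝒩) →* ℂˣ, (1 - h17an_f 𝒩 χ s P.1)⁻¹‖ := by
  classical
  have hxdef : h17an_x s P =
      (Ideal.absNorm ((P.1 : (Ideal (𝓞 E))⁰) : Ideal (𝓞 E)) : ℝ) ^ (-s) := rfl
  have hx1 : h17an_x s P < 1 := h17an_normPow_lt_one E hs P.1 P.2
  have hx0 : 0 < h17an_x s P := h17an_x_pos s P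
  -- each factor is nonzero
  have hne : ∀ χ : (ClassGroup (𝓞 E) ⧸ 𝒩) →* ℂˣ, 0 < ‖1 - h17an_f 𝒩 χ s P.1‖ := by
    intro χ
    rw [norm_pos_iff]
    intro h0
    have h1 : h17an_f 𝒩 χ s P.1 = 1 := (sub_eq_zero.mp h0).symm
    have h2 := h17an_norm_f 𝒩 χ s P.1
    rw [h1, norm_one, ← hxdef] at h2
    linarith
  have hle : ∀ χ : (ClassGroup (𝓞 E) ⧸ 𝒩) →* ℂˣ, ‖1 - h17an_f 𝒩 χ s P.1‖ ≤
      Real.exp (-(((χ (QuotientGroup.mk' 𝒩 (ClassGroup.mk0 P.1)) : ℂˣ) : ℂ).re * h17an_x s P) +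
        h17an_x s P ^ 2 / 2) := by
    intro χ
    have := h17an_norm_one_sub_le (h17an_f 𝒩 χ s P.1)
    rwa [h17an_re_f, h17an_norm_f, ← hxdef] at this
  have hprod : ∏ χ : (ClassGroup (𝓞 E) ⧸ 𝒩) →* ℂˣ, ‖1 - h17an_f 𝒩 χ s P.1‖ ≤
      Real.exp (-((𝒩.index : ℝ) * (h17an_ind 𝒩 s P - h17an_x s P ^ 2 / 2))) := by
    calc ∏ χ : (ClassGroup (𝓞 E) ⧸ 𝒩) →* ℂˣ, ‖1 - h17an_f 𝒩 χ s P.1‖
        ≤ ∏ χ : (ClassGroup (𝓞 E) ⧸ 𝒩) →* ℂˣ,
            Real.exp (-(((χ (QuotientGroup.mk' 𝒩 (ClassGroup.mk0 P.1)) : ℂˣ) : ℂ).re *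
              h17an_x s P) + h17an_x s P ^ 2 / 2) :=
          Finset.prod_le_prod (fun χ _ => (hne χ).le) (fun χ _ => hle χ)
      _ = Real.exp (∑ χ : (ClassGroup (𝓞 E) ⧸ 𝒩) →* ℂˣ,
            (-(((χ (QuotientGroup.mk' 𝒩 (ClassGroup.mk0 P.1)) : ℂˣ) : ℂ).re * h17an_x s P) +
              h17an_x s P ^ 2 / 2)) := (Real.exp_sum _ _).symm
      _ = Real.exp (-((𝒩.index : ℝ) * (h17an_ind 𝒩 s P - h17an_x s P ^ 2 / 2))) := by
          congr 1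
          rw [Finset.sum_add_distrib, Finset.sum_neg_distrib, ← Finset.sum_mul, h17an_sum_re,
            Finset.sum_const, Finset.card_univ, h17an_card_chars, nsmul_eq_mul]
          unfold h17an_ind
          split_ifs <;> ring
  have hpos : 0 < ∏ χ : (ClassGroup (𝓞 E) ⧸ 𝒩) →* ℂˣ, ‖1 - h17an_f 𝒩 χ s P.1‖ :=
    Finset.prod_pos fun χ _ => hne χ
  rw [norm_prod]
  simp only [norm_inv]
  rw [Finset.prod_inv_distrib]
  rw [le_inv_comm₀ (Real.exp_pos _) hpos, ← Real.exp_neg]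
  exact hprod

end local_factor

/-- the embedding of the primes in `S` into all nonzero primes -/
def h17an_iota (S : Set (Ideal (𝓞 E))) (Q : PrimesIn E S) : h17an_Pr E :=
  ⟨⟨Q.1, mem_nonZeroDivisors_of_ne_zero Q.2.2.1⟩, Q.2.1⟩

theorem h17an_iota_injective (S : Set (Ideal (𝓞 E))) : Function.Injective (h17an_iota S) := by
  intro Q Q' h
  apply Subtype.ext
  have := congrArg (fun P : h17an_Pr E => ((P.1 : (Ideal (𝓞 E))⁰) : Ideal (𝓞 E))) h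
  exact this

theorem h17an_x_iota (S : Set (Ideal (𝓞 E))) (s : ℝ) (Q : PrimesIn E S) :
    h17an_x s (h17an_iota S Q) = (Ideal.absNorm Q.1 : ℝ) ^ (-s) := rfl

/-- the prime sum over `S` is bounded by the sum of `ind` when the classes of the primes in `S`
lie in `𝒩`. -/
theorem h17an_primeSum_le (hZ : ZetaSummable E) (𝒩 : Subgroup (ClassGroup (𝓞 E)))
    (S : Set (Ideal (𝓞 E)))
    (hS : ∀ P : (Ideal (𝓞 E))⁰, (P : Ideal (𝓞 E)).IsPrime → (P : Ideal (𝓞 E)) ∈ S →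
      ClassGroup.mk0 P ∈ 𝒩) {s : ℝ} (hs : 1 < s) :
    primeSum E S s ≤ ∑' P : h17an_Pr E, h17an_ind 𝒩 s P := by
  have hxsum := h17an_summable_x hZ hs
  have hindsum : Summable fun P : h17an_Pr E => h17an_ind 𝒩 s P :=
    Summable.of_nonneg_of_le (h17an_ind_nonneg 𝒩 s) (h17an_ind_le 𝒩 s) hxsum
  have hfsum : Summable fun Q : PrimesIn E S => h17an_x s (h17an_iota S Q) :=
    hxsum.comp_injective (h17an_iota_injective S)
  have e : primeSum E S s = ∑' Q : PrimesIn E S, h17an_x s (h17an_iota S Q) :=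
    tsum_congr fun Q => (h17an_x_iota S s Q).symm
  rw [e]
  refine Summable.tsum_le_tsum_of_inj (h17an_iota S) (h17an_iota_injective S)
    (fun P _ => h17an_ind_nonneg 𝒩 s P) (fun Q => ?_) hfsum hindsum
  have hQ : ClassGroup.mk0 (h17an_iota S Q).1 ∈ 𝒩 := hS _ (h17an_iota S Q).2 Q.2.2.2
  rw [h17an_ind_of_mem 𝒩 s _ hQ]

/-- **AN-D**: `ClassProduct` from summability, the Euler product and the boundedness of the
differences of partial zeta functions. -/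
theorem h17an_classProduct (hZ : ZetaSummable E) (hEP : EulerProd E)
    (hPZ : PartialZetaBounded E) : ClassProduct E := by
  intro 𝒩
  have hfin : Finite ((ClassGroup (𝓞 E) ⧸ 𝒩) →* ℂˣ) := h17an_finite_char _
  let _ : Fintype ((ClassGroup (𝓞 E) ⧸ 𝒩) →* ℂˣ) := Fintype.ofFinite _
  classical
  obtain ⟨B, hB⟩ := hPZ
  obtain ⟨K₂, hK₂⟩ : ∃ K₂ : ℝ, K₂ = ∑' P : h17an_Pr E, h17an_x 2 P := ⟨_, rfl⟩
  obtain ⟨A, hA⟩ : ∃ A : ℝ, A = max 1 ((Fintype.card (ClassGroup (𝓞 E)) : ℝ) * B) := ⟨_, rfl⟩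
  have hA1 : 1 ≤ A := hA ▸ le_max_left _ _
  have hAB : (Fintype.card (ClassGroup (𝓞 E)) : ℝ) * B ≤ A := hA ▸ le_max_right _ _
  refine ⟨Real.exp ((𝒩.index : ℝ) * (K₂ / 2)) * A ^ 𝒩.index, fun S hS s hs => ?_⟩
  have hs1 : 1 < s := hs.1
  have hs0 : 0 < s := by linarith
  -- Euler products
  have hEu : ∀ χ : (ClassGroup (𝓞 E) ⧸ 𝒩) →* ℂˣ,
      HasProd (fun P : h17an_Pr E => (1 - h17an_f 𝒩 χ s P.1)⁻¹) (h17an_L 𝒩 χ s) :=
    fun χ => hEP (h17an_f 𝒩 χ s) (h17an_summable_f hZ 𝒩 χ hs1)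
  have hprod : HasProd (fun P : h17an_Pr E =>
      ∏ χ : (ClassGroup (𝓞 E) ⧸ 𝒩) →* ℂˣ, (1 - h17an_f 𝒩 χ s P.1)⁻¹)
      (∏ χ : (ClassGroup (𝓞 E) ⧸ 𝒩) →* ℂˣ, h17an_L 𝒩 χ s) :=
    hasProd_prod fun χ _ => hEu χ
  have hnorm := hprod.norm
  -- the comparison series
  have hxsum := h17an_summable_x hZ hs1
  have h2sum := h17an_summable_x hZ (s := 2) (by norm_num)
  have hindsum : Summable fun P : h17an_Pr E => h17an_ind 𝒩 s P :=
    Summable.of_nonneg_of_le (h17an_ind_nonneg 𝒩 s) (h17an_ind_le 𝒩 s) hxsum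
  have hsqsum : Summable fun P : h17an_Pr E => h17an_x s P ^ 2 / 2 := by
    refine Summable.of_nonneg_of_le (fun P => by positivity) (fun P => ?_) h2sum
    have := h17an_x_sq_le hs1.le P
    have hp : 0 ≤ h17an_x s P ^ 2 := by positivity
    linarith
  have hgsum : Summable fun P : h17an_Pr E =>
      (𝒩.index : ℝ) * (h17an_ind 𝒩 s P - h17an_x s P ^ 2 / 2) :=
    (hindsum.sub hsqsum).mul_left _
  have hexp := hgsum.hasSum.rexp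
  -- comparison of the products
  have hle : Real.exp (∑' P : h17an_Pr E,
      (𝒩.index : ℝ) * (h17an_ind 𝒩 s P - h17an_x s P ^ 2 / 2)) ≤
      ‖∏ χ : (ClassGroup (𝓞 E) ⧸ 𝒩) →* ℂˣ, h17an_L 𝒩 χ s‖ := by
    refine le_of_tendsto_of_tendsto' hexp hnorm fun F => ?_
    exact Finset.prod_le_prod (fun P _ => (Real.exp_pos _).le)
      (fun P _ => h17an_local 𝒩 s hs0 P)
  -- lower bound of the sum
  have hps := h17an_primeSum_le hZ 𝒩 S hS hs1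
  have hK : ∑' P : h17an_Pr E, h17an_x s P ^ 2 / 2 ≤ K₂ / 2 := by
    have h1 : ∑' P : h17an_Pr E, h17an_x s P ^ 2 / 2 ≤ ∑' P : h17an_Pr E, h17an_x 2 P / 2 := by
      refine hsqsum.tsum_le_tsum (fun P => ?_) (h2sum.div_const 2)
      have := h17an_x_sq_le hs1.le P
      linarith
    have h2 : ∑' P : h17an_Pr E, h17an_x 2 P / 2 = K₂ / 2 := by
      rw [tsum_div_const, hK₂]
    exact h1.trans h2.le
  have hsum_ge : (𝒩.index : ℝ) * (primeSum E S s - K₂ / 2) ≤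
      ∑' P : h17an_Pr E, (𝒩.index : ℝ) * (h17an_ind 𝒩 s P - h17an_x s P ^ 2 / 2) := by
    rw [tsum_mul_left, hindsum.tsum_sub hsqsum]
    apply mul_le_mul_of_nonneg_left _ (Nat.cast_nonneg _)
    linarith
  -- upper bound of the product of the `L`-series
  have hB0 : ∀ C : ClassGroup (𝓞 E), |zetaC E C s - zetaC E 1 s| ≤ B := fun C => hB C s hs
  have hLχ : ∀ χ : (ClassGroup (𝓞 E) ⧸ 𝒩) →* ℂˣ, χ ≠ 1 → ‖h17an_L 𝒩 χ s‖ ≤ A :=
    fun χ hχ => (h17an_norm_L_le hZ 𝒩 hχ hs1 hB0).trans hAB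
  have hL1 : ‖h17an_L 𝒩 (1 : (ClassGroup (𝓞 E) ⧸ 𝒩) →* ℂˣ) s‖ = zetaI E s := by
    rw [h17an_L_one, Complex.norm_real, Real.norm_of_nonneg (h17an_zetaI_nonneg s)]
  have hup : ‖∏ χ : (ClassGroup (𝓞 E) ⧸ 𝒩) →* ℂˣ, h17an_L 𝒩 χ s‖ ≤
      zetaI E s * A ^ 𝒩.index := by
    rw [norm_prod, ← Finset.mul_prod_erase Finset.univ _ (Finset.mem_univ
      (1 : (ClassGroup (𝓞 E) ⧸ 𝒩) →* ℂˣ)), hL1]
    apply mul_le_mul_of_nonneg_left _ (h17an_zetaI_nonneg s)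
    calc ∏ χ ∈ Finset.univ.erase (1 : (ClassGroup (𝓞 E) ⧸ 𝒩) →* ℂˣ), ‖h17an_L 𝒩 χ s‖
        ≤ ∏ _χ ∈ Finset.univ.erase (1 : (ClassGroup (𝓞 E) ⧸ 𝒩) →* ℂˣ), A :=
          Finset.prod_le_prod (fun χ _ => norm_nonneg _)
            (fun χ hχ => hLχ χ (Finset.ne_of_mem_erase hχ))
      _ = A ^ (Finset.univ.erase (1 : (ClassGroup (𝓞 E) ⧸ 𝒩) →* ℂˣ)).card :=
          Finset.prod_const _
      _ ≤ A ^ 𝒩.index := by
          apply pow_le_pow_right₀ hA1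
          rw [Finset.card_erase_of_mem (Finset.mem_univ _), Finset.card_univ,
            h17an_card_chars]
          exact Nat.sub_le _ _
  -- conclusion
  have e : (𝒩.index : ℝ) * primeSum E S s =
      (𝒩.index : ℝ) * (primeSum E S s - K₂ / 2) + (𝒩.index : ℝ) * (K₂ / 2) := by
    ring
  calc Real.exp ((𝒩.index : ℝ) * primeSum E S s)
      = Real.exp ((𝒩.index : ℝ) * (primeSum E S s - K₂ / 2)) *
          Real.exp ((𝒩.index : ℝ) * (K₂ / 2)) := by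
        rw [e, Real.exp_add]
    _ ≤ Real.exp (∑' P : h17an_Pr E,
          (𝒩.index : ℝ) * (h17an_ind 𝒩 s P - h17an_x s P ^ 2 / 2)) *
          Real.exp ((𝒩.index : ℝ) * (K₂ / 2)) :=
        mul_le_mul_of_nonneg_right (Real.exp_le_exp.mpr hsum_ge) (Real.exp_pos _).le
    _ ≤ (zetaI E s * A ^ 𝒩.index) * Real.exp ((𝒩.index : ℝ) * (K₂ / 2)) :=
        mul_le_mul_of_nonneg_right (hle.trans hup) (Real.exp_pos _).le
    _ = Real.exp ((𝒩.index : ℝ) * (K₂ / 2)) * A ^ 𝒩.index * zetaI E s := by ring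

end H17AN
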