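import Fermat.Agent.CFT.AN.H17Assembly
import Fermat.Agent.CFT.AN.H17ClassProduct

/-!
# T-CFT, module AN: `SecondInequality` and `NonSplitPrimeExists` from the basic slices (helper17)

The remaining inputs are: `ZetaSummable`, `ZetaBounds` (AN0), `EulerProd`, `PrimeLower`,
`PrimeUpper` (AN-A), `PartialZetaBounded` (AN-C), `PrimeSumSplit`, `PrimeSumGood` (SP).
-/

set_option autoImplicit false

namespace H17AN

open NumberField

/-- `SecondInequality` from the basic slices. -/
theorem h17an_secondIneq_of_slices
    (hZS : ∀ (E : Type) [Field E] [NumberField E], ZetaSummable E)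
    (hZB : ∀ (E : Type) [Field E] [NumberField E], ZetaBounds E)
    (hEP : ∀ (E : Type) [Field E] [NumberField E], EulerProd E)
    (hPU : ∀ (E : Type) [Field E] [NumberField E], PrimeUpper E)
    (hPZ : ∀ (E : Type) [Field E] [NumberField E], PartialZetaBounded E)
    (hPG : ∀ (E M : Type) [Field E] [NumberField E] [Field M] [NumberField M] [Algebra E M]
      [IsGalois E M], PrimeSumGood E M) :
    H14CFT.SecondInequality :=
  h17an_secondIneq hZB hPU (fun E _ _ => h17an_classProduct (hZS E) (hEP E) (hPZ E)) hPG

end H17AN
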