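import Fermat.Agent.CFT.AN.Defs

/-!
# T-CFT, module AN0 (helper17): `ZetaBounds`

`c / (s - 1) ≤ ζ_E(s) ≤ C / (s - 1)` on `(1, 2]`, from the class number formula of Mathlib
(`NumberField.tendsto_sub_one_mul_dedekindZeta_nhdsGT`) and the regrouping of the sum over the
nonzero ideals by the norm.  Takes `ZetaSummable` as a hypothesis.
-/

set_option autoImplicit false

namespace H17AN

open NumberField Filter Topology
open scoped nonZeroDivisors

variable {E : Type} [Field E] [NumberField E]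

/-- the fibre of the norm over `n ≠ 0` inside the nonzero ideals is the set of ideals of
norm `n` -/
noncomputable def h17an_fibreEquiv {n : ℕ} (hn : n ≠ 0) :
    ((fun I : (Ideal (𝓞 E))⁰ => Ideal.absNorm (I : Ideal (𝓞 E))) ⁻¹' {n}) ≃
      {I : Ideal (𝓞 E) // Ideal.absNorm I = n} where
  toFun I := ⟨I.1.1, I.2⟩
  invFun I := ⟨⟨I.1, mem_nonZeroDivisors_of_ne_zero (by
    intro h0
    have := I.2
    rw [h0] at this
    simp at this
    exact hn this.symm)⟩, I.2⟩
  left_inv I := rfl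
  right_inv I := rfl

theorem h17an_fibre_finite (n : ℕ) :
    Finite ((fun I : (Ideal (𝓞 E))⁰ => Ideal.absNorm (I : Ideal (𝓞 E))) ⁻¹' {n}) := by
  have hfin : Finite {I : Ideal (𝓞 E) // Ideal.absNorm I = n} :=
    (Ideal.finite_setOfPred_absNorm_eq (S := 𝓞 E) n).to_subtype
  refine Finite.of_injective
    (fun I : ((fun I : (Ideal (𝓞 E))⁰ => Ideal.absNorm (I : Ideal (𝓞 E))) ⁻¹' {n}) =>
      (⟨I.1.1, I.2⟩ : {I : Ideal (𝓞 E) // Ideal.absNorm I = n})) ?_
  intro I J h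
  apply Subtype.ext
  apply Subtype.ext
  exact congrArg (fun I : {I : Ideal (𝓞 E) // Ideal.absNorm I = n} => I.1) h

/-- the sum over a fibre -/
theorem h17an_tsum_fibre (s : ℝ) (n : ℕ) :
    ∑' I : ((fun I : (Ideal (𝓞 E))⁰ => Ideal.absNorm (I : Ideal (𝓞 E))) ⁻¹' {n}),
      (Ideal.absNorm ((I.1 : (Ideal (𝓞 E))⁰) : Ideal (𝓞 E)) : ℝ) ^ (-s) =
    if n = 0 then 0 else
      (Nat.card {I : Ideal (𝓞 E) // Ideal.absNorm I = n} : ℝ) * (n : ℝ) ^ (-s) := by
  have hfin := h17an_fibre_finite (E := E) n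
  let _ : Fintype ((fun I : (Ideal (𝓞 E))⁰ => Ideal.absNorm (I : Ideal (𝓞 E))) ⁻¹' {n}) :=
    Fintype.ofFinite _
  have hconst : ∀ I : ((fun I : (Ideal (𝓞 E))⁰ => Ideal.absNorm (I : Ideal (𝓞 E))) ⁻¹' {n}),
      (Ideal.absNorm ((I.1 : (Ideal (𝓞 E))⁰) : Ideal (𝓞 E)) : ℝ) ^ (-s) = (n : ℝ) ^ (-s) := by
    intro I
    have : Ideal.absNorm ((I.1 : (Ideal (𝓞 E))⁰) : Ideal (𝓞 E)) = n := I.2
    rw [this]
  rw [tsum_congr hconst, tsum_fintype, Finset.sum_const, Finset.card_univ, nsmul_eq_mul]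
  split_ifs with hn
  · subst hn
    have hemp : IsEmpty
        ((fun I : (Ideal (𝓞 E))⁰ => Ideal.absNorm (I : Ideal (𝓞 E))) ⁻¹' {0}) := by
      constructor
      intro I
      exact Ideal.absNorm_ne_zero_of_nonZeroDivisors I.1 I.2
    rw [Fintype.card_eq_zero_iff.mpr hemp]
    simp
  · rw [← Nat.card_eq_fintype_card, Nat.card_congr (h17an_fibreEquiv hn)]

/-- the real Dedekind zeta function as a sum over nonzero ideals -/
theorem h17an_dedekindZeta_eq (hZ : ZetaSummable E) {s : ℝ} (hs : 1 < s) :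
    dedekindZeta E (s : ℂ) = ((zetaI E s : ℝ) : ℂ) := by
  have h1 := (hZ s hs).hasSum.tsum_fiberwise
    (fun I : (Ideal (𝓞 E))⁰ => Ideal.absNorm (I : Ideal (𝓞 E)))
  have h2 : HasSum (fun n : ℕ => if n = 0 then (0 : ℝ) else
      (Nat.card {I : Ideal (𝓞 E) // Ideal.absNorm I = n} : ℝ) * (n : ℝ) ^ (-s))
      (zetaI E s) := by
    have e : (fun n : ℕ =>
        ∑' I : ((fun I : (Ideal (𝓞 E))⁰ => Ideal.absNorm (I : Ideal (𝓞 E))) ⁻¹' {n}),
          (Ideal.absNorm ((I.1 : (Ideal (𝓞 E))⁰) : Ideal (𝓞 E)) : ℝ) ^ (-s)) =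
        fun n : ℕ => if n = 0 then (0 : ℝ) else
          (Nat.card {I : Ideal (𝓞 E) // Ideal.absNorm I = n} : ℝ) * (n : ℝ) ^ (-s) :=
      funext fun n => h17an_tsum_fibre s n
    rw [← e]
    exact h1
  have h3 := Complex.hasSum_ofReal.mpr h2
  unfold dedekindZeta LSeries
  rw [← h3.tsum_eq]
  refine tsum_congr fun n => ?_
  rw [LSeries.term_def]
  split_ifs with hn
  · simp
  · push_cast
    rw [Complex.ofReal_cpow (Nat.cast_nonneg n), Complex.ofReal_neg, Complex.cpow_neg]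
    simp [div_eq_mul_inv]


theorem h17an_tendsto_zetaI (hZ : ZetaSummable E) :
    Tendsto (fun s : ℝ => (s - 1) * zetaI E s) (𝓝[>] 1) (𝓝 (dedekindZeta_residue E)) := by
  have h := tendsto_sub_one_mul_dedekindZeta_nhdsGT E
  have h2 := (Complex.continuous_re.tendsto _).comp h
  rw [Complex.ofReal_re] at h2
  refine h2.congr' ?_
  filter_upwards [eventually_mem_nhdsWithin] with s hs
  have hs1 : 1 < s := hs
  simp only [Function.comp_apply]
  rw [h17an_dedekindZeta_eq hZ hs1]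
  have : ((s : ℂ) - 1) * ((zetaI E s : ℝ) : ℂ) = (((s - 1) * zetaI E s : ℝ) : ℂ) := by
    push_cast; ring
  rw [this, Complex.ofReal_re]

theorem h17an_one_le_absNorm (I : (Ideal (𝓞 E))⁰) :
    (1 : ℝ) ≤ (Ideal.absNorm (I : Ideal (𝓞 E)) : ℝ) := by
  exact_mod_cast Nat.pos_of_ne_zero (Ideal.absNorm_ne_zero_of_nonZeroDivisors I)

theorem h17an_zetaI_antitone (hZ : ZetaSummable E) {s t : ℝ} (hs : 1 < s) (hst : s ≤ t) :
    zetaI E t ≤ zetaI E s := by
  unfold zetaI
  refine (hZ t (lt_of_lt_of_le hs hst)).tsum_le_tsum (fun I => ?_) (hZ s hs)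
  exact Real.rpow_le_rpow_of_exponent_le (h17an_one_le_absNorm I) (by linarith)

theorem h17an_one_le_zetaI (hZ : ZetaSummable E) {s : ℝ} (hs : 1 < s) : 1 ≤ zetaI E s := by
  unfold zetaI
  have h := (hZ s hs).le_tsum (1 : (Ideal (𝓞 E))⁰) (fun I _ =>
    Real.rpow_nonneg (le_trans zero_le_one (h17an_one_le_absNorm I)) _)
  simpa using h

/-- **AN0**: `ZetaBounds` from `ZetaSummable` and the class number formula. -/
theorem h17an_zetaBounds (hZ : ZetaSummable E) : ZetaBounds E := by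
  have hρ := dedekindZeta_residue_pos E
  set ρ := dedekindZeta_residue E with hρdef
  have ht := h17an_tendsto_zetaI hZ
  have h1 : ∀ᶠ s in 𝓝[>] (1 : ℝ), ρ / 2 < (s - 1) * zetaI E s :=
    (tendsto_order.1 ht).1 (ρ / 2) (by linarith)
  have h2 : ∀ᶠ s in 𝓝[>] (1 : ℝ), (s - 1) * zetaI E s < 2 * ρ :=
    (tendsto_order.1 ht).2 (2 * ρ) (by linarith)
  have h3 := h1.and h2
  obtain ⟨u, hu, hsub⟩ := mem_nhdsGT_iff_exists_Ioo_subset.mp h3
  have hu1 : (1 : ℝ) < u := hu
  set u' : ℝ := (1 + u) / 2 with hu'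
  have hu'1 : 1 < u' := by rw [hu']; linarith
  have hu'u : u' < u := by rw [hu']; linarith
  refine ⟨min (ρ / 2) (u - 1), max (2 * ρ) (zetaI E u'), lt_min (by linarith) (by linarith),
    fun s hs => ?_⟩
  have hs1 : 1 < s := hs.1
  have hs2 : s ≤ 2 := hs.2
  have hspos : 0 < s - 1 := by linarith
  rcases lt_or_ge s u with hsu | hsu
  · have hb := hsub ⟨hs1, hsu⟩
    have hb1 : ρ / 2 < (s - 1) * zetaI E s := hb.1
    have hb2 : (s - 1) * zetaI E s < 2 * ρ := hb.2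
    constructor
    · rw [div_le_iff₀ hspos]
      calc min (ρ / 2) (u - 1) ≤ ρ / 2 := min_le_left _ _
        _ ≤ (s - 1) * zetaI E s := hb1.le
        _ = zetaI E s * (s - 1) := mul_comm _ _
    · rw [le_div_iff₀ hspos]
      calc zetaI E s * (s - 1) = (s - 1) * zetaI E s := mul_comm _ _
        _ ≤ 2 * ρ := hb2.le
        _ ≤ max (2 * ρ) (zetaI E u') := le_max_left _ _
  · constructor
    · rw [div_le_iff₀ hspos]
      have h5 : 1 ≤ zetaI E s := h17an_one_le_zetaI hZ hs1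
      calc min (ρ / 2) (u - 1) ≤ u - 1 := min_le_right _ _
        _ ≤ s - 1 := by linarith
        _ = 1 * (s - 1) := (one_mul _).symm
        _ ≤ zetaI E s * (s - 1) := mul_le_mul_of_nonneg_right h5 hspos.le
    · rw [le_div_iff₀ hspos]
      have h5 : zetaI E s ≤ zetaI E u' := h17an_zetaI_antitone hZ hu'1 (by linarith)
      have h6 : 0 ≤ zetaI E s := le_trans zero_le_one (h17an_one_le_zetaI hZ hs1)
      calc zetaI E s * (s - 1) ≤ zetaI E s * 1 :=
            mul_le_mul_of_nonneg_left (by linarith) h6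
        _ = zetaI E s := mul_one _
        _ ≤ zetaI E u' := h5
        _ ≤ max (2 * ρ) (zetaI E u') := le_max_right _ _

end H17AN
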