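import Mathlib
import Fermat.Agent.CFT.AN.Defs

/-!
# T-CFT, module AN, slice SP (helper25): algebra of complete splitting

* `H25SP.h25sp_splitNorm : H17AN.SplitNorm E M`
* `H25SP.h25sp_splitGood [IsGalois E M] : H17AN.SplitGood E M`
-/

set_option autoImplicit false

namespace H25SP

open NumberField

variable (E M : Type) [Field E] [NumberField E] [Field M] [NumberField M] [Algebra E M]

/-- `N(Q) = N(P) ^ f(Q|P)` for a prime `Q` of `M` over a nonzero prime `P` of `E`. -/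
theorem h25sp_absNorm_eq_pow (P : Ideal (𝓞 E)) (Q : Ideal (𝓞 M)) [P.IsPrime] [Q.IsPrime]
    (hP : P ≠ ⊥) [Q.LiesOver P] :
    Ideal.absNorm Q = Ideal.absNorm P ^ Q.inertiaDeg (𝓞 E) := by
  have hQ : Q ≠ ⊥ := by
    intro h
    apply hP
    rw [Ideal.LiesOver.over (p := P) (P := Q), h]
    exact Ideal.under_bot (𝓞 E) (𝓞 M)
  have hPm : P.IsMaximal := Ring.DimensionLEOne.maximalOfPrime hP inferInstance
  have hQm : Q.IsMaximal := Ring.DimensionLEOne.maximalOfPrime hQ inferInstance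
  rw [← Ideal.absNorm_relNorm (𝓞 E) (𝓞 M) Q, Ideal.relNorm_eq_pow_of_isMaximal Q P, map_pow]

/-- The sum of `e * f` over the primes over `P` is `[M : E]`. -/
theorem h25sp_sum_ef (P : Ideal (𝓞 E)) [P.IsPrime] [Fintype (P.primesOver (𝓞 M))] :
    ∑ q : P.primesOver (𝓞 M), q.1.ramificationIdx (𝓞 E) * q.1.inertiaDeg (𝓞 E) =
      Module.finrank E M := by
  rw [Ideal.sum_ramification_inertia_eq_finrank, IsFractionRing.finrank_eq (𝓞 E) E (𝓞 M) M]

/-- If `P` splits completely then every prime over it has `e * f = 1`. -/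
theorem h25sp_ef_eq_one (P : Ideal (𝓞 E)) [P.IsPrime] (Q : Ideal (𝓞 M)) [Q.IsPrime]
    [Q.LiesOver P] (hs : H14CFT.SplitsCompletely E M P) :
    Q.ramificationIdx (𝓞 E) * Q.inertiaDeg (𝓞 E) = 1 := by
  classical
  have hfin : (P.primesOver (𝓞 M)).Finite := Algebra.QuasiFinite.finite_primesOver P
  let _ : Fintype (P.primesOver (𝓞 M)) := hfin.fintype
  have hsum := h25sp_sum_ef E M P
  have hcard : Fintype.card (P.primesOver (𝓞 M)) = Module.finrank E M := by
    rw [← hs, Set.ncard_eq_toFinset_card' (P.primesOver (𝓞 M)), Set.toFinset_card]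
  have hpos : ∀ q : P.primesOver (𝓞 M),
      1 ≤ q.1.ramificationIdx (𝓞 E) * q.1.inertiaDeg (𝓞 E) := by
    intro q
    have : q.1.IsPrime := q.2.1
    exact Nat.mul_pos (q.1.ramificationIdx_pos (𝓞 E)) (q.1.inertiaDeg_pos (𝓞 E))
  by_contra hne
  have hQmem : Q ∈ P.primesOver (𝓞 M) := ⟨inferInstance, inferInstance⟩
  have hlt : ∑ _q : P.primesOver (𝓞 M), 1 <
      ∑ q : P.primesOver (𝓞 M), q.1.ramificationIdx (𝓞 E) * q.1.inertiaDeg (𝓞 E) := by
    apply Finset.sum_lt_sum (fun q _ => hpos q)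
    refine ⟨⟨Q, hQmem⟩, Finset.mem_univ _, ?_⟩
    have := hpos ⟨Q, hQmem⟩
    simp only at this ⊢
    omega
  rw [hsum] at hlt
  simp only [Finset.sum_const, Finset.card_univ, smul_eq_mul, mul_one] at hlt
  omega

/-- **SP-a.** -/
theorem h25sp_splitNorm : H17AN.SplitNorm E M := by
  intro P Q hP hP0 hQ hQP hs
  have := hP
  have := hQ
  have : Q.LiesOver P := ⟨hQP.symm⟩
  have h1 := h25sp_ef_eq_one E M P Q hs
  have hf : Q.inertiaDeg (𝓞 E) = 1 := Nat.eq_one_of_mul_eq_one_left h1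
  rw [h25sp_absNorm_eq_pow E M P Q hP0, hf, pow_one]

/-- Unramified and of degree one over `ℤ`, for a prime of prime norm not dividing the
discriminant. -/
theorem h25sp_e_f_int (Q : Ideal (𝓞 M)) [Q.IsPrime] (hq : (Ideal.absNorm Q).Prime)
    (hD : ¬ (Ideal.absNorm Q ∣ (discr M).natAbs)) :
    Q.ramificationIdx ℤ = 1 ∧ Q.inertiaDeg ℤ = 1 := by
  set q := Ideal.absNorm Q with hqdef
  have hqZ : Prime (q : ℤ) := Nat.prime_iff_prime_int.mp hq
  have hmem : ((q : ℤ) : 𝓞 M) ∈ Q := by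
    have := Ideal.absNorm_mem Q
    simpa using this
  have hlies : Q.LiesOver (Ideal.span {(q : ℤ)}) := by
    rw [Ideal.liesOver_span_iff Ideal.IsPrime.ne_top' hqZ]
    simpa using hmem
  have hnd : ¬ ((q : ℤ) ∣ discr M) := by
    intro h
    apply hD
    have := Int.natAbs_dvd_natAbs.mpr h
    simpa using this
  have hunr : Algebra.IsUnramifiedAt ℤ Q :=
    (not_dvd_discr_iff_forall_mem M (𝓞 M) hqZ).mp hnd Q inferInstance hmem
  refine ⟨Ideal.ramificationIdx_eq_one_of_isUnramifiedAt, ?_⟩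
  have h := Ideal.pow_inertiaDeg q Q
  have h2 : q ^ Q.inertiaDeg ℤ = q ^ 1 := by rw [h, pow_one]
  exact Nat.pow_right_injective hq.two_le h2

/-- **SP-b.** -/
theorem h25sp_splitGood [IsGalois E M] : H17AN.SplitGood E M := by
  refine ⟨(discr M).natAbs, ?_, ?_⟩
  · simpa using discr_ne_zero M
  intro Q hQ hq hD
  have := hQ
  have hQ0 : Q ≠ ⊥ := by
    rintro rfl
    simp at hq
    exact Nat.not_prime_zero hq
  set P := Q.under (𝓞 E) with hPdef
  have hPprime : P.IsPrime := inferInstance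
  have hlies : Q.LiesOver P := ⟨rfl⟩
  have hP0 : P ≠ ⊥ := Ideal.under_ne_bot (𝓞 E) hQ0
  obtain ⟨he, hf⟩ := h25sp_e_f_int M Q hq hD
  have he' : Q.ramificationIdx (𝓞 E) = 1 := by
    have := Ideal.ramificationIdx_tower (R := ℤ) P Q
    rw [he] at this
    exact Nat.eq_one_of_mul_eq_one_left this.symm
  have hf' : Q.inertiaDeg (𝓞 E) = 1 := by
    have := Ideal.inertiaDeg_tower (R := ℤ) P Q
    rw [hf] at this
    exact Nat.eq_one_of_mul_eq_one_left this.symm
  refine ⟨?_, ?_⟩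
  · have h := Ideal.ncard_primesOver_mul_ramificationIdxIn_mul_inertiaDegIn P (𝓞 M) (M ≃ₐ[E] M)
    rw [Ideal.ramificationIdxIn_eq_ramificationIdx P Q (M ≃ₐ[E] M),
      Ideal.inertiaDegIn_eq_inertiaDeg P Q (M ≃ₐ[E] M), he', hf', mul_one, mul_one,
      IsGaloisGroup.card_eq_finrank (M ≃ₐ[E] M) E M] at h
    exact h
  · rw [h25sp_absNorm_eq_pow E M P Q hP0, hf', pow_one]

end H25SP
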