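import Mathlib
import Fermat.Agent.CFT.AN.Defs
import Fermat.Agent.CFT.AN.H25SPNorm

/-!
# T-CFT, module AN, slice SP (helper25): prime sums in a (Galois) extension

* `H25SP.h25sp_primeSumSplit_of (hM : h25sp_PrimeSummable M) : H17AN.PrimeSumSplit E M`
* `H25SP.h25sp_primeSumGood_of [IsGalois E M] (hE : h25sp_PrimeSummable E) :
    H17AN.PrimeSumGood E M`
* `H25SP.h25sp_primeSummable_of_zetaSummable : H17AN.ZetaSummable K → h25sp_PrimeSummable K`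
-/

set_option autoImplicit false

namespace H25SP

open NumberField
open scoped nonZeroDivisors

/-- Summability of `Σ_P N(P)^{-s}` over all nonzero primes, for `s > 1`. -/
def h25sp_PrimeSummable (K : Type) [Field K] [NumberField K] : Prop :=
  ∀ s : ℝ, 1 < s →
    Summable fun P : {P : Ideal (𝓞 K) // P.IsPrime ∧ P ≠ ⊥} => (Ideal.absNorm P.1 : ℝ) ^ (-s)

/-- Nonzero primes as nonzero ideals. -/
noncomputable def h25sp_toNZ (K : Type) [Field K] [NumberField K] :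
    {P : Ideal (𝓞 K) // P.IsPrime ∧ P ≠ ⊥} → (Ideal (𝓞 K))⁰ :=
  fun P => ⟨P.1, mem_nonZeroDivisors_iff_ne_zero.mpr P.2.2⟩

theorem h25sp_toNZ_injective (K : Type) [Field K] [NumberField K] :
    Function.Injective (h25sp_toNZ K) := by
  intro P P' hPP'
  apply Subtype.ext
  exact congrArg (fun I : (Ideal (𝓞 K))⁰ => (I : Ideal (𝓞 K))) hPP'

theorem h25sp_primeSummable_of_zetaSummable (K : Type) [Field K] [NumberField K]
    (h : H17AN.ZetaSummable K) : h25sp_PrimeSummable K := by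
  intro s hs
  have h1 := h s hs
  have h2 := h1.comp_injective (h25sp_toNZ_injective K)
  exact h2

/-- Forget the membership in `T`. -/
noncomputable def h25sp_forget (K : Type) [Field K] [NumberField K] (T : Set (Ideal (𝓞 K))) :
    H17AN.PrimesIn K T → {P : Ideal (𝓞 K) // P.IsPrime ∧ P ≠ ⊥} :=
  fun P => ⟨P.1, P.2.1, P.2.2.1⟩

theorem h25sp_forget_injective (K : Type) [Field K] [NumberField K] (T : Set (Ideal (𝓞 K))) :
    Function.Injective (h25sp_forget K T) := by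
  intro P P' hPP'
  apply Subtype.ext
  exact congrArg (fun I : {P : Ideal (𝓞 K) // P.IsPrime ∧ P ≠ ⊥} => (I : Ideal (𝓞 K))) hPP'

theorem h25sp_summable_primesIn (K : Type) [Field K] [NumberField K]
    (h : h25sp_PrimeSummable K) (T : Set (Ideal (𝓞 K))) (s : ℝ) (hs : 1 < s) :
    Summable fun P : H17AN.PrimesIn K T => (Ideal.absNorm P.1 : ℝ) ^ (-s) := by
  have h1 := h s hs
  have h2 := h1.comp_injective (h25sp_forget_injective K T)
  exact h2

variable (E M : Type) [Field E] [NumberField E] [Field M] [NumberField M] [Algebra E M]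

/-- The map "prime below" on primes of `M` whose contraction lies in `T`. -/
noncomputable def h25sp_below (T : Set (Ideal (𝓞 E))) (T' : Set (Ideal (𝓞 M)))
    (hT : ∀ Q : Ideal (𝓞 M), Q.IsPrime → Q ≠ ⊥ → Q ∈ T' → Q.under (𝓞 E) ∈ T) :
    H17AN.PrimesIn M T' → H17AN.PrimesIn E T :=
  fun Q => ⟨Q.1.under (𝓞 E),
    haveI := Q.2.1; inferInstance,
    Ideal.under_ne_bot (𝓞 E) Q.2.2.1, hT Q.1 Q.2.1 Q.2.2.1 Q.2.2.2⟩

/-- The fibre of `h25sp_below` over `P` injects into the primes over `P`. -/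
noncomputable def h25sp_fibreMap (T : Set (Ideal (𝓞 E))) (T' : Set (Ideal (𝓞 M)))
    (hT : ∀ Q : Ideal (𝓞 M), Q.IsPrime → Q ≠ ⊥ → Q ∈ T' → Q.under (𝓞 E) ∈ T)
    (P : H17AN.PrimesIn E T) :
    (h25sp_below E M T T' hT ⁻¹' {P}) → P.1.primesOver (𝓞 M) :=
  fun Q => ⟨Q.1.1, Q.1.2.1, ⟨by
    have h := Q.2
    simp only [Set.mem_preimage, Set.mem_singleton_iff] at h
    have h2 : (h25sp_below E M T T' hT Q.1).1 = P.1 := congrArg Subtype.val h
    exact h2.symm⟩⟩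

theorem h25sp_fibreMap_injective (T : Set (Ideal (𝓞 E))) (T' : Set (Ideal (𝓞 M)))
    (hT : ∀ Q : Ideal (𝓞 M), Q.IsPrime → Q ≠ ⊥ → Q ∈ T' → Q.under (𝓞 E) ∈ T)
    (P : H17AN.PrimesIn E T) : Function.Injective (h25sp_fibreMap E M T T' hT P) := by
  intro Q Q' h
  apply Subtype.ext
  apply Subtype.ext
  exact congrArg (fun I : P.1.primesOver (𝓞 M) => (I : Ideal (𝓞 M))) h

theorem h25sp_fibreMap_surjective (T : Set (Ideal (𝓞 E))) (T' : Set (Ideal (𝓞 M)))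
    (hT : ∀ Q : Ideal (𝓞 M), Q.IsPrime → Q ≠ ⊥ → Q ∈ T' → Q.under (𝓞 E) ∈ T)
    (hT' : ∀ Q : Ideal (𝓞 M), Q.IsPrime → Q ≠ ⊥ → Q.under (𝓞 E) ∈ T → Q ∈ T')
    (P : H17AN.PrimesIn E T) : Function.Surjective (h25sp_fibreMap E M T T' hT P) := by
  rintro ⟨Q, hQ, hQP⟩
  have hQP' : Q.under (𝓞 E) = P.1 := hQP.over.symm
  have hQ0 : Q ≠ ⊥ := by
    rintro rfl
    apply P.2.2.1
    rw [← hQP']
    exact Ideal.under_bot (𝓞 E) (𝓞 M)
  have hQT : Q ∈ T' := hT' Q hQ hQ0 (by rw [hQP']; exact P.2.2.2)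
  refine ⟨⟨⟨Q, hQ, hQ0, hQT⟩, ?_⟩, rfl⟩
  simp only [Set.mem_preimage, Set.mem_singleton_iff]
  apply Subtype.ext
  exact hQP'

/-- On the fibre over a completely split prime the norm is constant. -/
theorem h25sp_fibre_norm (T : Set (Ideal (𝓞 E))) (T' : Set (Ideal (𝓞 M)))
    (hT : ∀ Q : Ideal (𝓞 M), Q.IsPrime → Q ≠ ⊥ → Q ∈ T' → Q.under (𝓞 E) ∈ T)
    (P : H17AN.PrimesIn E T) (hs : H14CFT.SplitsCompletely E M P.1)
    (Q : (h25sp_below E M T T' hT ⁻¹' {P})) :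
    Ideal.absNorm Q.1.1 = Ideal.absNorm P.1 := by
  have h := (h25sp_fibreMap E M T T' hT P Q).2.2
  exact h25sp_splitNorm E M P.1 Q.1.1 P.2.1 P.2.2.1 Q.1.2.1 h.over.symm hs

theorem h25sp_fibre_tsum (T : Set (Ideal (𝓞 E))) (T' : Set (Ideal (𝓞 M)))
    (hT : ∀ Q : Ideal (𝓞 M), Q.IsPrime → Q ≠ ⊥ → Q ∈ T' → Q.under (𝓞 E) ∈ T)
    (P : H17AN.PrimesIn E T) (hs : H14CFT.SplitsCompletely E M P.1) (s : ℝ) :
    ∑' Q : (h25sp_below E M T T' hT ⁻¹' {P}), (Ideal.absNorm Q.1.1 : ℝ) ^ (-s) =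
      (Nat.card (h25sp_below E M T T' hT ⁻¹' {P}) : ℝ) * (Ideal.absNorm P.1 : ℝ) ^ (-s) := by
  have h1 : (fun Q : (h25sp_below E M T T' hT ⁻¹' {P}) => (Ideal.absNorm Q.1.1 : ℝ) ^ (-s)) =
      fun _ => (Ideal.absNorm P.1 : ℝ) ^ (-s) := by
    funext Q
    rw [h25sp_fibre_norm E M T T' hT P hs Q]
  rw [h1, tsum_const, nsmul_eq_mul]

theorem h25sp_card_primesOver (P : Ideal (𝓞 E)) (hs : H14CFT.SplitsCompletely E M P) :
    Nat.card (P.primesOver (𝓞 M)) = Module.finrank E M := by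
  rw [Nat.card_coe_set_eq]
  exact hs

theorem h25sp_fibre_card_le (T : Set (Ideal (𝓞 E))) (T' : Set (Ideal (𝓞 M)))
    (hT : ∀ Q : Ideal (𝓞 M), Q.IsPrime → Q ≠ ⊥ → Q ∈ T' → Q.under (𝓞 E) ∈ T)
    (P : H17AN.PrimesIn E T) (hs : H14CFT.SplitsCompletely E M P.1) :
    Nat.card (h25sp_below E M T T' hT ⁻¹' {P}) ≤ Module.finrank E M := by
  have := P.2.1
  have hfin : (P.1.primesOver (𝓞 M)).Finite := Algebra.QuasiFinite.finite_primesOver P.1
  have : Finite (P.1.primesOver (𝓞 M)) := hfin.to_subtype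
  rw [← h25sp_card_primesOver E M P.1 hs]
  exact Nat.card_le_card_of_injective _ (h25sp_fibreMap_injective E M T T' hT P)

theorem h25sp_fibre_card_eq (T : Set (Ideal (𝓞 E))) (T' : Set (Ideal (𝓞 M)))
    (hT : ∀ Q : Ideal (𝓞 M), Q.IsPrime → Q ≠ ⊥ → Q ∈ T' → Q.under (𝓞 E) ∈ T)
    (hT' : ∀ Q : Ideal (𝓞 M), Q.IsPrime → Q ≠ ⊥ → Q.under (𝓞 E) ∈ T → Q ∈ T')
    (P : H17AN.PrimesIn E T) (hs : H14CFT.SplitsCompletely E M P.1) :
    Nat.card (h25sp_below E M T T' hT ⁻¹' {P}) = Module.finrank E M := by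
  rw [← h25sp_card_primesOver E M P.1 hs]
  exact Nat.card_eq_of_bijective _
    ⟨h25sp_fibreMap_injective E M T T' hT P, h25sp_fibreMap_surjective E M T T' hT hT' P⟩

/-- **PS-a**, from summability of the prime sum of `M`. -/
theorem h25sp_primeSumSplit_of (hM : h25sp_PrimeSummable M) : H17AN.PrimeSumSplit E M := by
  intro T s hs hsplit
  set T' : Set (Ideal (𝓞 M)) := {Q | Q.under (𝓞 E) ∈ T} with hT'def
  have hT : ∀ Q : Ideal (𝓞 M), Q.IsPrime → Q ≠ ⊥ → Q ∈ T' → Q.under (𝓞 E) ∈ T :=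
    fun Q _ _ h => h
  have hT' : ∀ Q : Ideal (𝓞 M), Q.IsPrime → Q ≠ ⊥ → Q.under (𝓞 E) ∈ T → Q ∈ T' :=
    fun Q _ _ h => h
  have hsum := h25sp_summable_primesIn M hM T' s hs
  have hfib := hsum.hasSum.tsum_fiberwise (h25sp_below E M T T' hT)
  have hterm : ∀ P : H17AN.PrimesIn E T,
      ∑' Q : (h25sp_below E M T T' hT ⁻¹' {P}), (Ideal.absNorm Q.1.1 : ℝ) ^ (-s) =
        (Module.finrank E M : ℝ) * (Ideal.absNorm P.1 : ℝ) ^ (-s) := by
    intro P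
    have hsP := hsplit P.1 P.2.1 P.2.2.1 P.2.2.2
    rw [h25sp_fibre_tsum E M T T' hT P hsP s, h25sp_fibre_card_eq E M T T' hT hT' P hsP]
  have hfib' : HasSum (fun P : H17AN.PrimesIn E T =>
      (Module.finrank E M : ℝ) * (Ideal.absNorm P.1 : ℝ) ^ (-s))
      (∑' Q : H17AN.PrimesIn M T', (Ideal.absNorm Q.1 : ℝ) ^ (-s)) := by
    have heq : (fun P : H17AN.PrimesIn E T =>
        ∑' Q : (h25sp_below E M T T' hT ⁻¹' {P}), (Ideal.absNorm Q.1.1 : ℝ) ^ (-s)) =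
        fun P : H17AN.PrimesIn E T =>
          (Module.finrank E M : ℝ) * (Ideal.absNorm P.1 : ℝ) ^ (-s) := funext hterm
    rw [← heq]
    exact hfib
  have h3 : ∑' P : H17AN.PrimesIn E T,
      (Module.finrank E M : ℝ) * (Ideal.absNorm P.1 : ℝ) ^ (-s) =
      ∑' Q : H17AN.PrimesIn M T', (Ideal.absNorm Q.1 : ℝ) ^ (-s) := hfib'.tsum_eq
  rw [tsum_mul_left] at h3
  unfold H17AN.primeSum
  exact h3.le

/-- **PS-b**, from summability of the prime sum of `E`. -/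
theorem h25sp_primeSumGood_of [IsGalois E M] (hE : h25sp_PrimeSummable E) :
    H17AN.PrimeSumGood E M := by
  obtain ⟨D₀, hD₀, hgood⟩ := h25sp_splitGood E M
  refine ⟨D₀, hD₀, ?_⟩
  intro D s hD hs
  set T : Set (Ideal (𝓞 E)) :=
    {P | ¬ (Ideal.absNorm P ∣ D) ∧ H14CFT.SplitsCompletely E M P} with hTdef
  set T' : Set (Ideal (𝓞 M)) := H17AN.degOne M (D * D₀) with hT'def
  have hT : ∀ Q : Ideal (𝓞 M), Q.IsPrime → Q ≠ ⊥ → Q ∈ T' → Q.under (𝓞 E) ∈ T := by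
    rintro Q hQ hQ0 ⟨hprime, hnd⟩
    have hnd0 : ¬ (Ideal.absNorm Q ∣ D₀) := fun h => hnd (dvd_mul_of_dvd_right h D)
    obtain ⟨hsp, hN⟩ := hgood Q hQ hprime hnd0
    refine ⟨?_, hsp⟩
    rw [hN]
    exact fun h => hnd (dvd_mul_of_dvd_left h D₀)
  unfold H17AN.primeSum
  have hnn : 0 ≤ (Module.finrank E M : ℝ) *
      ∑' P : H17AN.PrimesIn E T, (Ideal.absNorm P.1 : ℝ) ^ (-s) :=
    mul_nonneg (Nat.cast_nonneg _) (tsum_nonneg fun P => by positivity)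
  by_cases hsum : Summable (fun Q : H17AN.PrimesIn M T' => (Ideal.absNorm Q.1 : ℝ) ^ (-s))
  · have hfib := hsum.hasSum.tsum_fiberwise (h25sp_below E M T T' hT)
    have hE' := ((h25sp_summable_primesIn E hE T s hs).mul_left
      (Module.finrank E M : ℝ)).hasSum
    rw [tsum_mul_left] at hE'
    refine hasSum_le ?_ hfib hE'
    intro P
    have hsP : H14CFT.SplitsCompletely E M P.1 := P.2.2.2.2
    rw [h25sp_fibre_tsum E M T T' hT P hsP s]
    have hle := h25sp_fibre_card_le E M T T' hT P hsP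
    have hle' : (Nat.card (h25sp_below E M T T' hT ⁻¹' {P}) : ℝ) ≤ (Module.finrank E M : ℝ) := by
      exact_mod_cast hle
    exact mul_le_mul_of_nonneg_right hle' (by positivity)
  · rw [tsum_eq_zero_of_not_summable hsum]
    exact hnn

end H25SP
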