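import Mathlib
import Fermat.Agent.CFT.AN.Defs
import Fermat.Agent.CFT.AN.H25SPSum

/-!
# T-CFT, module AN, slice SP (helper25): summability of the prime sums, and final SP statements

* `H25SP.h25sp_primeSummable K : h25sp_PrimeSummable K` (direct: at most `[K:ℚ]` primes over each
  rational prime `p`, each of norm `≥ p`);
* `H25SP.h25sp_primeSumSplit : H17AN.PrimeSumSplit E M`;
* `H25SP.h25sp_primeSumGood [IsGalois E M] : H17AN.PrimeSumGood E M`.
-/

set_option autoImplicit false

namespace H25SP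

open NumberField

/-- At most `rank` primes over a prime, in a finite flat extension of a domain. -/
theorem h25sp_ncard_primesOver_le {R S : Type*} [CommRing R] [IsDomain R] [CommRing S]
    [Algebra R S] [Module.Finite R S] [Module.Flat R S] (p : Ideal R) [p.IsPrime] :
    (p.primesOver S).ncard ≤ Module.finrank R S := by
  classical
  have hfin : (p.primesOver S).Finite := Algebra.QuasiFinite.finite_primesOver p
  let _ : Fintype (p.primesOver S) := hfin.fintype
  have hsum := Ideal.sum_ramification_inertia_eq_finrank p S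
  rw [← hsum, Set.ncard_eq_toFinset_card' (p.primesOver S), Set.toFinset_card]
  calc Fintype.card (p.primesOver S) = ∑ _q : p.primesOver S, 1 := by simp
    _ ≤ ∑ q : p.primesOver S, q.1.ramificationIdx R * q.1.inertiaDeg R := by
        apply Finset.sum_le_sum
        intro q _
        have : q.1.IsPrime := q.2.1
        exact Nat.mul_pos (q.1.ramificationIdx_pos R) (q.1.inertiaDeg_pos R)

variable (K : Type) [Field K] [NumberField K]

/-- The rational prime below a nonzero prime. -/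
noncomputable def h25sp_ratPrime (P : {P : Ideal (𝓞 K) // P.IsPrime ∧ P ≠ ⊥}) : ℕ :=
  Ideal.absNorm (P.1.under ℤ)

theorem h25sp_ratPrime_prime (P : {P : Ideal (𝓞 K) // P.IsPrime ∧ P ≠ ⊥}) :
    (h25sp_ratPrime K P).Prime := by
  have := P.2.1
  have : NeZero P.1 := ⟨P.2.2⟩
  exact Nat.absNorm_under_prime P.1

theorem h25sp_ratPrime_le (P : {P : Ideal (𝓞 K) // P.IsPrime ∧ P ≠ ⊥}) :
    h25sp_ratPrime K P ≤ Ideal.absNorm P.1 := by
  apply Nat.le_of_dvd
  · exact Nat.pos_of_ne_zero (fun h => P.2.2 (Ideal.absNorm_eq_zero_iff.mp h))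
  · exact Int.absNorm_under_dvd_absNorm P.1

theorem h25sp_fibre_le (u : Finset {P : Ideal (𝓞 K) // P.IsPrime ∧ P ≠ ⊥}) (p : ℕ)
    [DecidableEq ℕ] :
    ({P ∈ u | h25sp_ratPrime K P = p}).card ≤ Module.finrank ℤ (𝓞 K) := by
  classical
  by_cases hne : ({P ∈ u | h25sp_ratPrime K P = p}).Nonempty
  · obtain ⟨P₀, hP₀⟩ := hne
    rw [Finset.mem_filter] at hP₀
    have hp : p.Prime := hP₀.2 ▸ h25sp_ratPrime_prime K P₀
    have : Fact p.Prime := ⟨hp⟩
    have hmax : (Ideal.span {(p : ℤ)}).IsMaximal := Int.ideal_span_isMaximal_of_prime p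
    have hprime : (Ideal.span {(p : ℤ)}).IsPrime := hmax.isPrime
    have hfin : ((Ideal.span {(p : ℤ)}).primesOver (𝓞 K)).Finite :=
      Algebra.QuasiFinite.finite_primesOver _
    refine le_trans ?_ (h25sp_ncard_primesOver_le (R := ℤ) (S := 𝓞 K) (Ideal.span {(p : ℤ)}))
    rw [Set.ncard_eq_toFinset_card _ hfin]
    apply Finset.card_le_card_of_injOn (fun P => P.1)
    · intro P hP
      have hP' := Finset.mem_filter.mp (Finset.mem_coe.mp hP)
      simp only [Set.Finite.coe_toFinset]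
      refine ⟨P.2.1, ?_⟩
      have := Int.liesOver_span_absNorm P.1
      have h2 : h25sp_ratPrime K P = p := hP'.2
      unfold h25sp_ratPrime at h2
      rw [h2] at this
      exact this
    · intro P _ P' _ h
      exact Subtype.ext h
  · rw [Finset.not_nonempty_iff_eq_empty.mp hne]
    simp

/-- Summability of `Σ_P N(P)^{-s}` over all nonzero primes of a number field. -/
theorem h25sp_primeSummable : h25sp_PrimeSummable K := by
  classical
  intro s hs
  have hζ : Summable (fun n : ℕ => (n : ℝ) ^ (-s)) := Real.summable_nat_rpow.mpr (by linarith)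
  apply summable_of_sum_le (c := (Module.finrank ℤ (𝓞 K) : ℝ) * ∑' n : ℕ, (n : ℝ) ^ (-s))
  · intro P
    positivity
  intro u
  have h1 : ∑ P ∈ u, (Ideal.absNorm P.1 : ℝ) ^ (-s) ≤
      ∑ P ∈ u, ((h25sp_ratPrime K P : ℕ) : ℝ) ^ (-s) := by
    apply Finset.sum_le_sum
    intro P _
    have hpos : (0 : ℝ) < (h25sp_ratPrime K P : ℝ) := by
      exact_mod_cast (h25sp_ratPrime_prime K P).pos
    have hle : ((h25sp_ratPrime K P : ℕ) : ℝ) ≤ (Ideal.absNorm P.1 : ℝ) := by
      exact_mod_cast h25sp_ratPrime_le K P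
    exact Real.rpow_le_rpow_of_nonpos hpos hle (by linarith)
  have h2 : ∑ P ∈ u, ((h25sp_ratPrime K P : ℕ) : ℝ) ^ (-s) =
      ∑ p ∈ u.image (h25sp_ratPrime K),
        ({P ∈ u | h25sp_ratPrime K P = p}).card • ((p : ℝ) ^ (-s)) :=
    Finset.sum_comp (fun p : ℕ => (p : ℝ) ^ (-s)) (h25sp_ratPrime K)
  have h3 : ∑ p ∈ u.image (h25sp_ratPrime K),
        ({P ∈ u | h25sp_ratPrime K P = p}).card • ((p : ℝ) ^ (-s)) ≤
      ∑ p ∈ u.image (h25sp_ratPrime K),
        (Module.finrank ℤ (𝓞 K) : ℝ) * ((p : ℝ) ^ (-s)) := by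
    apply Finset.sum_le_sum
    intro p _
    rw [nsmul_eq_mul]
    have hc : ((({P ∈ u | h25sp_ratPrime K P = p}).card : ℕ) : ℝ) ≤
        (Module.finrank ℤ (𝓞 K) : ℝ) := by
      exact_mod_cast h25sp_fibre_le K u p
    exact mul_le_mul_of_nonneg_right hc (by positivity)
  have h4 : ∑ p ∈ u.image (h25sp_ratPrime K),
        (Module.finrank ℤ (𝓞 K) : ℝ) * ((p : ℝ) ^ (-s)) ≤
      (Module.finrank ℤ (𝓞 K) : ℝ) * ∑' n : ℕ, (n : ℝ) ^ (-s) := by
    rw [← Finset.mul_sum]
    apply mul_le_mul_of_nonneg_left _ (Nat.cast_nonneg _)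
    exact hζ.sum_le_tsum _ (fun n _ => by positivity)
  linarith [h1, h2.le, h3, h4]

variable (E M : Type) [Field E] [NumberField E] [Field M] [NumberField M] [Algebra E M]

/-- **PS-a.** -/
theorem h25sp_primeSumSplit : H17AN.PrimeSumSplit E M :=
  h25sp_primeSumSplit_of E M (h25sp_primeSummable M)

/-- **PS-b.** -/
theorem h25sp_primeSumGood [IsGalois E M] : H17AN.PrimeSumGood E M :=
  h25sp_primeSumGood_of E M (h25sp_primeSummable E)

end H25SP
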