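import Fermat.Agent.CFT.AN.H17Final
import Fermat.Agent.CFT.AN.H17ZetaBounds
import Fermat.Agent.CFT.AN.H12Prime
import Fermat.Agent.CFT.AN.H12EulerProd
import Fermat.Agent.CFT.AN.H25SPSummable

/-!
# T-CFT, module AN: results (helper17, with the slices of helper12 and helper25)

* `h17an_nonSplitPrimeExists : H14CFT.NonSplitPrimeExists`  (unconditional);
* `h17an_secondInequality_of_partialZeta`: `H14CFT.SecondInequality` from `PartialZetaBounded`
  (AN-C, the only remaining slice).
-/

set_option autoImplicit false

namespace H17AN

open NumberField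

/-- `ZetaBounds` (unconditional). -/
theorem h17an_zetaBounds' (E : Type) [Field E] [NumberField E] : ZetaBounds E :=
  h17an_zetaBounds (H12AN.h12_zetaSummable E)

/-- **(NS)** a Galois extension `M/E` of degree `> 1` has a prime of `E` of degree one,
outside `D`, which does not split completely in `M`. -/
theorem h17an_nonSplitPrimeExists : H14CFT.NonSplitPrimeExists :=
  h17an_nonSplit (fun E _ _ => h17an_zetaBounds' E) (fun E _ _ => H12AN.h12_primeLower E)
    (fun E _ _ => H12AN.h12_primeUpper E)
    (fun E M _ _ _ _ _ _ => H25SP.h25sp_primeSumSplit E M)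

/-- **(SI)** from the boundedness of the differences of the partial zeta functions. -/
theorem h17an_secondInequality_of_partialZeta
    (hPZ : ∀ (E : Type) [Field E] [NumberField E], PartialZetaBounded E) :
    H14CFT.SecondInequality :=
  h17an_secondIneq_of_slices (fun E _ _ => H12AN.h12_zetaSummable E)
    (fun E _ _ => h17an_zetaBounds' E) (fun E _ _ => H12AN.h12_eulerProd E)
    (fun E _ _ => H12AN.h12_primeUpper E) hPZ
    (fun E M _ _ _ _ _ _ => H25SP.h25sp_primeSumGood E M)

end H17AN
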