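import Mathlib

/-!
# T-CFT module AN, slice AN-C (helper4): elementary real inequalities for the shift estimate
-/

set_option autoImplicit false

namespace H4AN

/-- if `v` is within relative distance `ε ≤ 1/2` of `u > 0`, then `v > 0` and the logarithms
differ by at most `2 ε`. -/
theorem h4an_log_close {u v ε : ℝ} (hu : 0 < u) (hε : ε ≤ 1 / 2) (h : |v - u| ≤ ε * u) :
    0 < v ∧ |Real.log v - Real.log u| ≤ 2 * ε := by
  have hε0 : 0 ≤ ε := by
    by_contra hneg
    rw [not_le] at hneg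
    have : ε * u < 0 := mul_neg_of_neg_of_pos hneg hu
    linarith [abs_nonneg (v - u)]
  have h1 := abs_le.mp h
  have hv : 0 < v := by nlinarith [h1.1]
  refine ⟨hv, ?_⟩
  have ht : 0 < v / u := div_pos hv hu
  rw [← Real.log_div hv.ne' hu.ne']
  have hup : Real.log (v / u) ≤ v / u - 1 := Real.log_le_sub_one_of_pos ht
  have hlo : 1 - (v / u)⁻¹ ≤ Real.log (v / u) := Real.one_sub_inv_le_log_of_pos ht
  have e1 : v / u - 1 ≤ ε := by
    rw [div_sub_one hu.ne', div_le_iff₀ hu]
    linarith [h1.2]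
  have e2 : (v / u)⁻¹ - 1 ≤ 2 * ε := by
    rw [inv_div, div_sub_one hv.ne', div_le_iff₀ hv]
    nlinarith [h1.1, h1.2]
  rw [abs_le]
  constructor <;> linarith

/-- `|exp t - 1| ≤ |t| exp |t|` -/
theorem h4an_abs_exp_sub_one_le (t : ℝ) : |Real.exp t - 1| ≤ |t| * Real.exp |t| := by
  rcases le_total 0 t with ht | ht
  · rw [abs_of_nonneg ht, abs_of_nonneg (by linarith [Real.add_one_le_exp t])]
    have h1 : 1 - t ≤ Real.exp (-t) := by linarith [Real.add_one_le_exp (-t)]
    have h2 : Real.exp (-t) * Real.exp t = 1 := by rw [← Real.exp_add]; simp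
    nlinarith [Real.exp_pos t, Real.exp_pos (-t)]
  · rw [abs_of_nonpos ht]
    have h0 : Real.exp t ≤ 1 := by
      rw [← Real.exp_zero]; exact Real.exp_le_exp.mpr ht
    rw [abs_of_nonpos (by linarith)]
    have h1 : t + 1 ≤ Real.exp t := Real.add_one_le_exp t
    have h2 : 1 ≤ Real.exp (-t) := by
      rw [← Real.exp_zero]; exact Real.exp_le_exp.mpr (by linarith)
    nlinarith

/-- comparison of negative powers of two positive reals with close logarithms -/
theorem h4an_rpow_close {P Q s δ : ℝ} (hP : 0 < P) (hQ : 0 < Q) (hs0 : 0 ≤ s) (hs2 : s ≤ 2)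
    (h : |Real.log Q - Real.log P| ≤ δ) :
    Q ^ (-s) ≤ P ^ (-s) * Real.exp (2 * δ) ∧
      |Q ^ (-s) - P ^ (-s)| ≤ P ^ (-s) * (2 * δ * Real.exp (2 * δ)) := by
  have hδ : 0 ≤ δ := (abs_nonneg _).trans h
  set t : ℝ := -s * (Real.log Q - Real.log P) with ht
  have hQe : Q ^ (-s) = P ^ (-s) * Real.exp t := by
    rw [Real.rpow_def_of_pos hQ, Real.rpow_def_of_pos hP, ← Real.exp_add]
    congr 1
    rw [ht]; ring
  have hPpos : 0 < P ^ (-s) := Real.rpow_pos_of_pos hP _
  have htabs : |t| ≤ 2 * δ := by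
    rw [ht, abs_mul, abs_neg, abs_of_nonneg hs0]
    exact mul_le_mul hs2 h (abs_nonneg _) (by norm_num)
  have hexp : Real.exp t ≤ Real.exp (2 * δ) :=
    Real.exp_le_exp.mpr ((le_abs_self t).trans htabs)
  constructor
  · rw [hQe]
    exact mul_le_mul_of_nonneg_left hexp hPpos.le
  · rw [hQe]
    have : P ^ (-s) * Real.exp t - P ^ (-s) = P ^ (-s) * (Real.exp t - 1) := by ring
    rw [this, abs_mul, abs_of_pos hPpos]
    apply mul_le_mul_of_nonneg_left _ hPpos.le
    calc |Real.exp t - 1| ≤ |t| * Real.exp |t| := h4an_abs_exp_sub_one_le t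
      _ ≤ 2 * δ * Real.exp (2 * δ) := by
          apply mul_le_mul htabs (Real.exp_le_exp.mpr htabs) (Real.exp_pos _).le
            (by positivity)

end H4AN
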