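import Mathlib
import Fermat.Agent.CFT.AN.H4CReal

/-!
# T-CFT module AN, slice AN-C (helper4): comparability of coordinates on the support cone and the
shift estimate in the mixed space
-/

set_option autoImplicit false
set_option backward.isDefEq.respectTransparency false
set_option linter.unusedSectionVars false

namespace H4AN

open NumberField NumberField.InfinitePlace NumberField.mixedEmbedding NumberField.Units
  NumberField.Units.dirichletUnitTheorem Module
open scoped Classical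

variable {K : Type*} [Field K] [NumberField K]

/-- log of the norm as a weighted sum of the logs of the norms at the places -/
theorem h4an_log_norm {x : mixedSpace K} (hx : mixedEmbedding.norm x ≠ 0) :
    Real.log (mixedEmbedding.norm x) =
      ∑ w : InfinitePlace K, (mult w : ℝ) * Real.log (normAtPlace w x) := by
  rw [mixedEmbedding.norm_apply, Real.log_prod]
  · simp [Real.log_pow]
  · intro w _
    exact pow_ne_zero _ (mixedEmbedding.norm_ne_zero_iff.mp hx w)

/-- the centered logarithm `log |x|_w - (log N x) / n` -/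
noncomputable def h4an_clog (x : mixedSpace K) (w : InfinitePlace K) : ℝ :=
  Real.log (normAtPlace w x) - Real.log (mixedEmbedding.norm x) * (finrank ℚ K : ℝ)⁻¹

theorem h4an_logMap_eq (x : mixedSpace K) (w : {w : InfinitePlace K // w ≠ w₀}) :
    logMap x w = (mult w.1 : ℝ) * h4an_clog x w.1 := rfl

theorem h4an_sum_mult_clog {x : mixedSpace K} (hx : mixedEmbedding.norm x ≠ 0) :
    ∑ w : InfinitePlace K, (mult w : ℝ) * h4an_clog x w = 0 := by
  have hn : ((finrank ℚ K : ℕ) : ℝ) ≠ 0 := Nat.cast_ne_zero.mpr finrank_pos.ne'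
  have hsum : ∑ w : InfinitePlace K, (mult w : ℝ) = (finrank ℚ K : ℝ) := by
    rw [← Nat.cast_sum, sum_mult_eq]
  simp only [h4an_clog, mul_sub]
  rw [Finset.sum_sub_distrib, ← h4an_log_norm hx]
  simp_rw [← mul_assoc]
  rw [← Finset.sum_mul, ← Finset.sum_mul, hsum]
  field_simp
  ring

theorem h4an_one_le_mult (w : InfinitePlace K) : (1 : ℝ) ≤ (mult w : ℝ) := by
  exact_mod_cast Nat.one_le_iff_ne_zero.mpr mult_ne_zero

theorem h4an_mult_le_two (w : InfinitePlace K) : (mult w : ℝ) ≤ 2 := by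
  have : mult w ≤ 2 := by
    unfold mult; split_ifs <;> norm_num
  exact_mod_cast this

/-- **L1** if the log coordinates are bounded by `M` then all centered logs are bounded. -/
theorem h4an_clog_bound {x : mixedSpace K} (hx : mixedEmbedding.norm x ≠ 0) {M : ℝ}
    (hM0 : 0 ≤ M) (hM : ∀ w : {w : InfinitePlace K // w ≠ w₀}, |logMap x w| ≤ M)
    (w : InfinitePlace K) :
    |h4an_clog x w| ≤ (Fintype.card (InfinitePlace K) : ℝ) * M := by
  classical
  have hcard : (1 : ℝ) ≤ (Fintype.card (InfinitePlace K) : ℝ) := by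
    exact_mod_cast Fintype.card_pos
  have key : ∀ w' : InfinitePlace K, |(mult w' : ℝ) * h4an_clog x w'| ≤
      (Fintype.card (InfinitePlace K) : ℝ) * M := by
    intro w'
    by_cases hw : w' = w₀
    · subst hw
      have h0 := h4an_sum_mult_clog hx
      rw [Fintype.sum_eq_add_sum_subtype_ne _ (w₀ : InfinitePlace K)] at h0
      have h1 : (mult (w₀ : InfinitePlace K) : ℝ) * h4an_clog x w₀ =
          - ∑ w : {w : InfinitePlace K // w ≠ w₀}, logMap x w := by
        simp only [h4an_logMap_eq]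
        linarith
      rw [h1, abs_neg]
      calc |∑ w : {w : InfinitePlace K // w ≠ w₀}, logMap x w|
          ≤ ∑ w : {w : InfinitePlace K // w ≠ w₀}, |logMap x w| := Finset.abs_sum_le_sum_abs _ _
        _ ≤ ∑ _w : {w : InfinitePlace K // w ≠ w₀}, M := Finset.sum_le_sum fun w _ => hM w
        _ = (Fintype.card {w : InfinitePlace K // w ≠ w₀} : ℝ) * M := by
            rw [Finset.sum_const, Finset.card_univ, nsmul_eq_mul]
        _ ≤ (Fintype.card (InfinitePlace K) : ℝ) * M := by
            apply mul_le_mul_of_nonneg_right _ hM0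
            exact_mod_cast Fintype.card_subtype_le _
    · have := hM ⟨w', hw⟩
      rw [h4an_logMap_eq] at this
      calc |(mult w' : ℝ) * h4an_clog x w'| ≤ M := this
        _ ≤ (Fintype.card (InfinitePlace K) : ℝ) * M := by nlinarith
  have h2 := key w
  rw [abs_mul, abs_of_nonneg (by linarith [h4an_one_le_mult w])] at h2
  calc |h4an_clog x w| ≤ (mult w : ℝ) * |h4an_clog x w| := by
        nlinarith [h4an_one_le_mult w, abs_nonneg (h4an_clog x w)]
    _ ≤ _ := h2

/-- **L2** on the cone where the log coordinates are bounded, every coordinate is comparable to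
the sup norm. -/
theorem h4an_place_ge {x : mixedSpace K} (hx : mixedEmbedding.norm x ≠ 0) {M : ℝ}
    (hM0 : 0 ≤ M) (hM : ∀ w : {w : InfinitePlace K // w ≠ w₀}, |logMap x w| ≤ M)
    (w : InfinitePlace K) :
    Real.exp (-(2 * (Fintype.card (InfinitePlace K) : ℝ) * M)) * ‖x‖ ≤ normAtPlace w x := by
  classical
  obtain ⟨w₁, -, hw₁⟩ := Finset.exists_mem_eq_sup' Finset.univ_nonempty
    (fun w : InfinitePlace K => normAtPlace w x)
  rw [← norm_eq_sup'_normAtPlace] at hw₁
  have hpos : ∀ w', 0 < normAtPlace w' x := fun w' =>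
    lt_of_le_of_ne (normAtPlace_nonneg _ _) (Ne.symm (mixedEmbedding.norm_ne_zero_iff.mp hx w'))
  have b1 := abs_le.mp (h4an_clog_bound hx hM0 hM w₁)
  have b2 := abs_le.mp (h4an_clog_bound hx hM0 hM w)
  have hlog : Real.log (normAtPlace w₁ x) ≤
      Real.log (normAtPlace w x) + 2 * (Fintype.card (InfinitePlace K) : ℝ) * M := by
    unfold h4an_clog at b1 b2
    linarith [b1.2, b2.1]
  have h3 : normAtPlace w₁ x ≤
      normAtPlace w x * Real.exp (2 * (Fintype.card (InfinitePlace K) : ℝ) * M) := by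
    have := Real.exp_le_exp.mpr hlog
    rwa [Real.exp_log (hpos w₁), Real.exp_add, Real.exp_log (hpos w)] at this
  rw [hw₁, Real.exp_neg]
  rw [inv_mul_le_iff₀ (Real.exp_pos _)]
  linarith [h3, mul_comm (normAtPlace w x) (Real.exp (2 * (Fintype.card (InfinitePlace K) : ℝ) * M))]

/-- **L2'** lower bound of the norm by a power of the sup norm on the cone. -/
theorem h4an_norm_ge {x : mixedSpace K} (hx : mixedEmbedding.norm x ≠ 0) {M : ℝ}
    (hM0 : 0 ≤ M) (hM : ∀ w : {w : InfinitePlace K // w ≠ w₀}, |logMap x w| ≤ M) :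
    (Real.exp (-(2 * (Fintype.card (InfinitePlace K) : ℝ) * M)) * ‖x‖) ^ (finrank ℚ K) ≤
      mixedEmbedding.norm x := by
  rw [mixedEmbedding.norm_apply, ← sum_mult_eq, ← Finset.prod_pow_eq_pow_sum]
  apply Finset.prod_le_prod
  · intro w _
    positivity
  · intro w _
    exact pow_le_pow_left₀ (by positivity) (h4an_place_ge hx hM0 hM w) _

/-- **L3** shift of the logarithmic data under a small relative perturbation of all the
coordinates. -/
theorem h4an_shift_logs {x y : mixedSpace K} {ε : ℝ} (hx : mixedEmbedding.norm x ≠ 0)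
    (hε : ε ≤ 1 / 2)
    (h : ∀ w, |normAtPlace w y - normAtPlace w x| ≤ ε * normAtPlace w x) :
    mixedEmbedding.norm y ≠ 0 ∧
      |Real.log (mixedEmbedding.norm y) - Real.log (mixedEmbedding.norm x)| ≤
        2 * (finrank ℚ K : ℝ) * ε ∧
      ∀ w : {w : InfinitePlace K // w ≠ w₀}, |logMap y w - logMap x w| ≤ 8 * ε := by
  have hpos : ∀ w', 0 < normAtPlace w' x := fun w' =>
    lt_of_le_of_ne (normAtPlace_nonneg _ _) (Ne.symm (mixedEmbedding.norm_ne_zero_iff.mp hx w'))
  have hlc := fun w => h4an_log_close (hpos w) hε (h w)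
  have hy : mixedEmbedding.norm y ≠ 0 :=
    mixedEmbedding.norm_ne_zero_iff.mpr fun w => (hlc w).1.ne'
  have hn : ((finrank ℚ K : ℕ) : ℝ) ≠ 0 := Nat.cast_ne_zero.mpr finrank_pos.ne'
  have hnpos : (0 : ℝ) < (finrank ℚ K : ℝ) := Nat.cast_pos.mpr finrank_pos
  have hsum : ∑ w : InfinitePlace K, (mult w : ℝ) = (finrank ℚ K : ℝ) := by
    rw [← Nat.cast_sum, sum_mult_eq]
  have hε0 : 0 ≤ ε := by
    have := (abs_nonneg _).trans (hlc w₀).2
    linarith
  have hN : |Real.log (mixedEmbedding.norm y) - Real.log (mixedEmbedding.norm x)| ≤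
      2 * (finrank ℚ K : ℝ) * ε := by
    rw [h4an_log_norm hx, h4an_log_norm hy, ← Finset.sum_sub_distrib]
    calc |∑ w : InfinitePlace K, ((mult w : ℝ) * Real.log (normAtPlace w y) -
            (mult w : ℝ) * Real.log (normAtPlace w x))|
        ≤ ∑ w : InfinitePlace K, |(mult w : ℝ) * Real.log (normAtPlace w y) -
            (mult w : ℝ) * Real.log (normAtPlace w x)| := Finset.abs_sum_le_sum_abs _ _
      _ ≤ ∑ w : InfinitePlace K, (mult w : ℝ) * (2 * ε) := by
          apply Finset.sum_le_sum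
          intro w _
          rw [← mul_sub, abs_mul, abs_of_nonneg (by linarith [h4an_one_le_mult w])]
          exact mul_le_mul_of_nonneg_left (hlc w).2 (by linarith [h4an_one_le_mult w])
      _ = 2 * (finrank ℚ K : ℝ) * ε := by
          rw [← Finset.sum_mul, hsum]; ring
  refine ⟨hy, hN, fun w => ?_⟩
  rw [h4an_logMap_eq, h4an_logMap_eq, ← mul_sub, abs_mul,
    abs_of_nonneg (by linarith [h4an_one_le_mult w.1])]
  have h1 : |h4an_clog y w.1 - h4an_clog x w.1| ≤ 4 * ε := by
    unfold h4an_clog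
    have e : Real.log (normAtPlace w.1 y) -
        Real.log (mixedEmbedding.norm y) * (finrank ℚ K : ℝ)⁻¹ -
        (Real.log (normAtPlace w.1 x) - Real.log (mixedEmbedding.norm x) * (finrank ℚ K : ℝ)⁻¹)
        = (Real.log (normAtPlace w.1 y) - Real.log (normAtPlace w.1 x)) -
          (Real.log (mixedEmbedding.norm y) - Real.log (mixedEmbedding.norm x)) *
            (finrank ℚ K : ℝ)⁻¹ := by ring
    rw [e]
    have a1 := (hlc w.1).2
    have a2 : |(Real.log (mixedEmbedding.norm y) - Real.log (mixedEmbedding.norm x)) *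
        (finrank ℚ K : ℝ)⁻¹| ≤ 2 * ε := by
      rw [abs_mul, abs_of_pos (inv_pos.mpr hnpos), ← div_eq_mul_inv, div_le_iff₀ hnpos]
      linarith
    calc _ ≤ |Real.log (normAtPlace w.1 y) - Real.log (normAtPlace w.1 x)| +
          |(Real.log (mixedEmbedding.norm y) - Real.log (mixedEmbedding.norm x)) *
            (finrank ℚ K : ℝ)⁻¹| := abs_sub _ _
      _ ≤ 4 * ε := by linarith
  calc (mult w.1 : ℝ) * |h4an_clog y w.1 - h4an_clog x w.1| ≤ 2 * (4 * ε) := by
        apply mul_le_mul (h4an_mult_le_two w.1) h1 (abs_nonneg _) (by norm_num)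
    _ = 8 * ε := by ring

/-- **L5** the shift estimate for `ω (logMap x) · N(x)^{-s}` in the mixed space. -/
theorem h4an_shift_core (ω : logSpace K → ℝ) (hω0 : ∀ y, 0 ≤ ω y) (hω1 : ∀ y, ω y ≤ 1)
    (L : ℝ) (hL0 : 0 ≤ L)
    (hL : ∀ a b : logSpace K, ∀ δ : ℝ, 0 ≤ δ → (∀ w, |a w - b w| ≤ δ) → |ω a - ω b| ≤ L * δ)
    {x y : mixedSpace K} {ε s : ℝ}
    (hx : mixedEmbedding.norm x ≠ 0) (hε : ε ≤ 1 / 2)
    (h : ∀ w, |normAtPlace w y - normAtPlace w x| ≤ ε * normAtPlace w x)
    (hs0 : 0 ≤ s) (hs2 : s ≤ 2) :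
    |ω (logMap y) * (mixedEmbedding.norm y) ^ (-s) -
        ω (logMap x) * (mixedEmbedding.norm x) ^ (-s)| ≤
      (mixedEmbedding.norm x) ^ (-s) * ε *
        ((8 * (L : ℝ) + 4 * (finrank ℚ K : ℝ)) * Real.exp (2 * (finrank ℚ K : ℝ))) := by
  obtain ⟨hy, hN, hl⟩ := h4an_shift_logs hx hε h
  have hxpos : 0 < mixedEmbedding.norm x :=
    lt_of_le_of_ne (mixedEmbedding.norm_nonneg _) (Ne.symm hx)
  have hypos : 0 < mixedEmbedding.norm y :=
    lt_of_le_of_ne (mixedEmbedding.norm_nonneg _) (Ne.symm hy)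
  have hpos : ∀ w', 0 < normAtPlace w' x := fun w' =>
    lt_of_le_of_ne (normAtPlace_nonneg _ _) (Ne.symm (mixedEmbedding.norm_ne_zero_iff.mp hx w'))
  have hε0 : 0 ≤ ε := by
    have h1 := (abs_nonneg _).trans (h w₀)
    exact nonneg_of_mul_nonneg_left h1 (hpos w₀)
  have hnpos : (0 : ℝ) < (finrank ℚ K : ℝ) := Nat.cast_pos.mpr finrank_pos
  obtain ⟨r1, r2⟩ := h4an_rpow_close hxpos hypos hs0 hs2 hN
  have hexp : Real.exp (2 * (2 * (finrank ℚ K : ℝ) * ε)) ≤ Real.exp (2 * (finrank ℚ K : ℝ)) := by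
    apply Real.exp_le_exp.mpr
    nlinarith
  have hPpos : 0 < (mixedEmbedding.norm x) ^ (-s) := Real.rpow_pos_of_pos hxpos _
  have hω : |ω (logMap y) - ω (logMap x)| ≤ (L : ℝ) * (8 * ε) :=
    hL (logMap y) (logMap x) (8 * ε) (by positivity) hl
  have e : ω (logMap y) * (mixedEmbedding.norm y) ^ (-s) -
      ω (logMap x) * (mixedEmbedding.norm x) ^ (-s) =
      (ω (logMap y) - ω (logMap x)) * (mixedEmbedding.norm y) ^ (-s) +
        ω (logMap x) * ((mixedEmbedding.norm y) ^ (-s) - (mixedEmbedding.norm x) ^ (-s)) := by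
    ring
  rw [e]
  have hQpos : 0 < (mixedEmbedding.norm y) ^ (-s) := Real.rpow_pos_of_pos hypos _
  have t1 : |(ω (logMap y) - ω (logMap x)) * (mixedEmbedding.norm y) ^ (-s)| ≤
      (L : ℝ) * (8 * ε) * ((mixedEmbedding.norm x) ^ (-s) *
        Real.exp (2 * (finrank ℚ K : ℝ))) := by
    rw [abs_mul, abs_of_pos hQpos]
    apply mul_le_mul hω _ hQpos.le (by positivity)
    exact r1.trans (mul_le_mul_of_nonneg_left hexp hPpos.le)
  have t2 : |ω (logMap x) * ((mixedEmbedding.norm y) ^ (-s) - (mixedEmbedding.norm x) ^ (-s))| ≤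
      (mixedEmbedding.norm x) ^ (-s) * (2 * (2 * (finrank ℚ K : ℝ) * ε) *
        Real.exp (2 * (finrank ℚ K : ℝ))) := by
    rw [abs_mul, abs_of_nonneg (hω0 _)]
    calc ω (logMap x) * |(mixedEmbedding.norm y) ^ (-s) - (mixedEmbedding.norm x) ^ (-s)|
        ≤ 1 * |(mixedEmbedding.norm y) ^ (-s) - (mixedEmbedding.norm x) ^ (-s)| :=
          mul_le_mul_of_nonneg_right (hω1 _) (abs_nonneg _)
      _ ≤ (mixedEmbedding.norm x) ^ (-s) * (2 * (2 * (finrank ℚ K : ℝ) * ε) *
            Real.exp (2 * (2 * (finrank ℚ K : ℝ) * ε))) := by rw [one_mul]; exact r2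
      _ ≤ _ := by
          apply mul_le_mul_of_nonneg_left _ hPpos.le
          apply mul_le_mul_of_nonneg_left hexp (by positivity)
  calc _ ≤ |(ω (logMap y) - ω (logMap x)) * (mixedEmbedding.norm y) ^ (-s)| +
        |ω (logMap x) * ((mixedEmbedding.norm y) ^ (-s) - (mixedEmbedding.norm x) ^ (-s))| :=
        abs_add_le _ _
    _ ≤ (L : ℝ) * (8 * ε) * ((mixedEmbedding.norm x) ^ (-s) *
          Real.exp (2 * (finrank ℚ K : ℝ))) +
        (mixedEmbedding.norm x) ^ (-s) * (2 * (2 * (finrank ℚ K : ℝ) * ε) *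
          Real.exp (2 * (finrank ℚ K : ℝ))) := add_le_add t1 t2
    _ = _ := by ring

end H4AN
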