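import Mathlib
import Fermat.Agent.CFT.AN.H4CMixed

/-!
# T-CFT module AN, slice AN-C (helper4): the shift estimate on the lattice of integers

For a weight `ω` on the log space (`0 ≤ ω ≤ 1`, Lipschitz for the sup distance, bounded support)
and `G_s(z) = ω (logMap z) · N(z)^{-s}` on `𝓞 K`:
`Σ_{z ∈ 𝓞 K} |G_s(z + a) - G_s(z)| ≤ B_a` uniformly for `s ∈ [1, 2]`.
-/

set_option autoImplicit false

set_option linter.unusedSectionVars false

namespace H4AN

open NumberField NumberField.InfinitePlace NumberField.mixedEmbedding NumberField.Units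
  NumberField.Units.dirichletUnitTheorem Module
open scoped Classical

variable {K : Type*} [Field K] [NumberField K]

/-- the smoothed summand on the integers for a general weight `ω` -/
noncomputable def h4an_G (ω : logSpace K → ℝ) (s : ℝ) (z : 𝓞 K) : ℝ :=
  ω (logMap (mixedEmbedding K (z : K))) * (mixedEmbedding.norm (mixedEmbedding K (z : K))) ^ (-s)

theorem h4an_one_le_norm {z : 𝓞 K} (hz : z ≠ 0) :
    1 ≤ mixedEmbedding.norm (mixedEmbedding K (z : K)) := by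
  rw [norm_eq_norm, ← Algebra.coe_norm_int]
  have h0 : Algebra.norm ℤ z ≠ 0 := by
    rw [Ne, Algebra.norm_eq_zero_iff]; exact hz
  have h1 : (1 : ℚ) ≤ |((Algebra.norm ℤ z : ℤ) : ℚ)| := by
    exact_mod_cast Int.one_le_abs h0
  exact_mod_cast h1

theorem h4an_mem_integerLattice (z : 𝓞 K) :
    mixedEmbedding K (z : K) ∈ mixedEmbedding.integerLattice K := by
  simp only [LinearMap.mem_range, AlgHom.toLinearMap_apply, RingHom.toIntAlgHom_coe,
    RingHom.coe_comp, Function.comp_apply]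
  exact ⟨z, rfl⟩

theorem h4an_norm_ne_zero {z : 𝓞 K} (hz : z ≠ 0) :
    mixedEmbedding.norm (mixedEmbedding K (z : K)) ≠ 0 := by
  have := h4an_one_le_norm hz
  linarith

theorem h4an_G_zero (ω : logSpace K → ℝ) {s : ℝ} (hs : s ≠ 0) : h4an_G ω s (0 : 𝓞 K) = 0 := by
  unfold h4an_G
  simp [Real.zero_rpow (neg_ne_zero.mpr hs)]

theorem h4an_G_nonneg (ω : logSpace K → ℝ) (hω0 : ∀ y, 0 ≤ ω y) (s : ℝ) (z : 𝓞 K) :
    0 ≤ h4an_G ω s z :=
  mul_nonneg (hω0 _) (Real.rpow_nonneg (mixedEmbedding.norm_nonneg _) _)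

theorem h4an_G_le_one (ω : logSpace K → ℝ) (hω0 : ∀ y, 0 ≤ ω y) (hω1 : ∀ y, ω y ≤ 1)
    {s : ℝ} (hs : 0 < s) (z : 𝓞 K) : h4an_G ω s z ≤ 1 := by
  by_cases hz : z = 0
  · subst hz; rw [h4an_G_zero ω hs.ne']; exact zero_le_one
  · unfold h4an_G
    have h1 : (mixedEmbedding.norm (mixedEmbedding K (z : K))) ^ (-s) ≤ 1 :=
      Real.rpow_le_one_of_one_le_of_nonpos (h4an_one_le_norm hz) (by linarith)
    calc _ ≤ 1 * 1 := mul_le_mul (hω1 _) h1 (Real.rpow_nonneg (mixedEmbedding.norm_nonneg _) _)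
          zero_le_one
      _ = 1 := one_mul 1

theorem h4an_normAtPlace_le_norm (w : InfinitePlace K) (x : mixedSpace K) :
    normAtPlace w x ≤ ‖x‖ := by
  rw [norm_eq_sup'_normAtPlace]
  exact Finset.le_sup' (fun w => normAtPlace w x) (Finset.mem_univ w)

theorem h4an_normAtPlace_sub_le (w : InfinitePlace K) (x a : mixedSpace K) :
    |normAtPlace w (x + a) - normAtPlace w x| ≤ normAtPlace w a := by
  rw [abs_le]
  constructor
  · have := normAtPlace_add_le w (x + a) (-a)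
    rw [add_neg_cancel_right, normAtPlace_neg] at this
    linarith
  · have := normAtPlace_add_le w x a
    linarith

/-- **S1** pointwise shift estimate at a lattice point in the support cone. -/
theorem h4an_shift_pointwise (ω : logSpace K → ℝ) (hω0 : ∀ y, 0 ≤ ω y) (hω1 : ∀ y, ω y ≤ 1)
    (L : ℝ) (hL0 : 0 ≤ L)
    (hL : ∀ a b : logSpace K, ∀ δ : ℝ, 0 ≤ δ → (∀ w, |a w - b w| ≤ δ) → |ω a - ω b| ≤ L * δ)
    (M : ℝ) (hM0 : 0 ≤ M) (hM : ∀ y : logSpace K, ω y ≠ 0 → ∀ w, |y w| ≤ M)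
    (A : ℝ) (hA : 0 ≤ A) :
    ∃ C : ℝ, 0 ≤ C ∧ ∀ s ∈ Set.Icc (1 : ℝ) 2, ∀ z a : 𝓞 K,
      ‖mixedEmbedding K (a : K)‖ ≤ A → z ≠ 0 → ω (logMap (mixedEmbedding K (z : K))) ≠ 0 →
      |h4an_G ω s (z + a) - h4an_G ω s z| ≤
        C * ‖mixedEmbedding K (z : K)‖⁻¹ ^ (finrank ℚ K + 1) := by
  set n := finrank ℚ K with hn
  set κ : ℝ := Real.exp (-(2 * (Fintype.card (InfinitePlace K) : ℝ) * M)) with hκ
  have hκpos : 0 < κ := Real.exp_pos _
  set C₁ : ℝ := (8 * L + 4 * (n : ℝ)) * Real.exp (2 * (n : ℝ)) with hC₁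
  have hC₁0 : 0 ≤ C₁ := by positivity
  set R : ℝ := 2 * A / κ with hR
  have hR0 : 0 ≤ R := by positivity
  refine ⟨A * C₁ * (κ⁻¹) ^ (n + 1) + R ^ (n + 1), by positivity, ?_⟩
  intro s hs z a ha hz hωz
  have hs1 : 1 ≤ s := hs.1
  have hs2 : s ≤ 2 := hs.2
  set x := mixedEmbedding K (z : K) with hx
  have hxne : x ≠ 0 := by
    rw [hx, Ne, map_eq_zero]
    exact_mod_cast hz
  have hxpos : 0 < ‖x‖ := norm_pos_iff.mpr hxne
  have hNx : mixedEmbedding.norm x ≠ 0 := h4an_norm_ne_zero hz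
  have hMx : ∀ w : {w : InfinitePlace K // w ≠ w₀}, |logMap x w| ≤ M := hM _ hωz
  have hinvpos : 0 < ‖x‖⁻¹ := inv_pos.mpr hxpos
  by_cases hcase : R ≤ ‖x‖
  · -- large `x`
    set ε : ℝ := A / (κ * ‖x‖) with hεdef
    have hε0 : 0 ≤ ε := by positivity
    have hε : ε ≤ 1 / 2 := by
      rw [hεdef, div_le_iff₀ (by positivity)]
      rw [hR, div_le_iff₀ hκpos] at hcase
      linarith
    have hy : mixedEmbedding K ((z + a : 𝓞 K) : K) = x + mixedEmbedding K (a : K) := by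
      rw [hx, ← map_add]; congr 1
    have hpert : ∀ w, |normAtPlace w (x + mixedEmbedding K (a : K)) - normAtPlace w x| ≤
        ε * normAtPlace w x := by
      intro w
      calc _ ≤ normAtPlace w (mixedEmbedding K (a : K)) := h4an_normAtPlace_sub_le w _ _
        _ ≤ ‖mixedEmbedding K (a : K)‖ := h4an_normAtPlace_le_norm w _
        _ ≤ A := ha
        _ = ε * (κ * ‖x‖) := by rw [hεdef]; field_simp
        _ ≤ ε * normAtPlace w x :=
            mul_le_mul_of_nonneg_left (h4an_place_ge hNx hM0 hMx w) hε0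
    have hcore := h4an_shift_core ω hω0 hω1 L hL0 hL hNx hε hpert (by linarith) hs2
    have hNge : (κ * ‖x‖) ^ n ≤ mixedEmbedding.norm x := h4an_norm_ge hNx hM0 hMx
    have hN1 : 1 ≤ mixedEmbedding.norm x := h4an_one_le_norm hz
    have hNpos : 0 < mixedEmbedding.norm x := by linarith
    have hpow : (mixedEmbedding.norm x) ^ (-s) ≤ ((κ * ‖x‖) ^ n)⁻¹ := by
      calc (mixedEmbedding.norm x) ^ (-s) ≤ (mixedEmbedding.norm x) ^ (-1 : ℝ) :=
            Real.rpow_le_rpow_of_exponent_le hN1 (by linarith)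
        _ = (mixedEmbedding.norm x)⁻¹ := Real.rpow_neg_one _
        _ ≤ ((κ * ‖x‖) ^ n)⁻¹ := inv_anti₀ (by positivity) hNge
    unfold h4an_G
    rw [hy]
    calc _ ≤ (mixedEmbedding.norm x) ^ (-s) * ε * C₁ := hcore
      _ ≤ ((κ * ‖x‖) ^ n)⁻¹ * ε * C₁ := by
          apply mul_le_mul_of_nonneg_right _ hC₁0
          exact mul_le_mul_of_nonneg_right hpow hε0
      _ = A * C₁ * (κ⁻¹) ^ (n + 1) * ‖x‖⁻¹ ^ (n + 1) := by
          have hκne : κ ≠ 0 := hκpos.ne'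
          have hxn : ‖x‖ ≠ 0 := hxpos.ne'
          rw [hεdef, pow_succ, pow_succ, mul_pow, inv_pow, inv_pow]
          field_simp
      _ ≤ (A * C₁ * (κ⁻¹) ^ (n + 1) + R ^ (n + 1)) * ‖x‖⁻¹ ^ (n + 1) := by
          apply mul_le_mul_of_nonneg_right _ (by positivity)
          linarith [pow_nonneg hR0 (n + 1)]
  · -- small `x`
    rw [not_le] at hcase
    have hs0 : 0 < s := by linarith
    have h1 : |h4an_G ω s (z + a) - h4an_G ω s z| ≤ 1 := by
      rw [abs_le]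
      constructor
      · linarith [h4an_G_nonneg ω hω0 s (z + a), h4an_G_le_one ω hω0 hω1 hs0 z]
      · linarith [h4an_G_nonneg ω hω0 s z, h4an_G_le_one ω hω0 hω1 hs0 (z + a)]
    have h2 : 1 ≤ R ^ (n + 1) * ‖x‖⁻¹ ^ (n + 1) := by
      rw [← mul_pow]
      apply one_le_pow₀
      rw [← div_eq_mul_inv, le_div_iff₀ hxpos]
      linarith
    calc _ ≤ 1 := h1
      _ ≤ R ^ (n + 1) * ‖x‖⁻¹ ^ (n + 1) := h2
      _ ≤ (A * C₁ * (κ⁻¹) ^ (n + 1) + R ^ (n + 1)) * ‖x‖⁻¹ ^ (n + 1) := by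
          apply mul_le_mul_of_nonneg_right _ (by positivity)
          have : 0 ≤ A * C₁ * (κ⁻¹) ^ (n + 1) := by positivity
          linarith

/-- summability of `‖z‖^{-(n+1)}` over the integers -/
theorem h4an_summable_inv_pow :
    Summable fun z : 𝓞 K => ‖mixedEmbedding K (z : K)‖⁻¹ ^ (finrank ℚ K + 1) := by
  have hrank : finrank ℤ (mixedEmbedding.integerLattice K) = finrank ℚ K := by
    rw [ZLattice.rank ℝ, mixedEmbedding.finrank]
  have hS := ZLattice.summable_norm_pow_inv (mixedEmbedding.integerLattice K)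
    (finrank ℚ K + 1) (by rw [hrank]; exact Nat.lt_succ_self _)
  let e : 𝓞 K → mixedEmbedding.integerLattice K := fun z =>
    ⟨mixedEmbedding K (z : K), h4an_mem_integerLattice z⟩
  have he : Function.Injective e := by
    intro a b hab
    have h1 : mixedEmbedding K (a : K) = mixedEmbedding K (b : K) := congrArg Subtype.val hab
    exact RingOfIntegers.ext ((mixedEmbedding_injective K) h1)
  have := hS.comp_injective he
  exact this

/-- **S2** two-sided pointwise bound valid at all lattice points. -/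
theorem h4an_shift_two_sided (ω : logSpace K → ℝ) (hω0 : ∀ y, 0 ≤ ω y) (hω1 : ∀ y, ω y ≤ 1)
    (L : ℝ) (hL0 : 0 ≤ L)
    (hL : ∀ a b : logSpace K, ∀ δ : ℝ, 0 ≤ δ → (∀ w, |a w - b w| ≤ δ) → |ω a - ω b| ≤ L * δ)
    (M : ℝ) (hM0 : 0 ≤ M) (hM : ∀ y : logSpace K, ω y ≠ 0 → ∀ w, |y w| ≤ M)
    (a : 𝓞 K) :
    ∃ C : ℝ, 0 ≤ C ∧ ∀ s ∈ Set.Icc (1 : ℝ) 2, ∀ z : 𝓞 K,
      |h4an_G ω s (z + a) - h4an_G ω s z| ≤
        C * (‖mixedEmbedding K (z : K)‖⁻¹ ^ (finrank ℚ K + 1) +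
          ‖mixedEmbedding K ((z + a : 𝓞 K) : K)‖⁻¹ ^ (finrank ℚ K + 1)) := by
  obtain ⟨C, hC0, hC⟩ := h4an_shift_pointwise ω hω0 hω1 L hL0 hL M hM0 hM
    ‖mixedEmbedding K (a : K)‖ (norm_nonneg _)
  refine ⟨C, hC0, fun s hs z => ?_⟩
  have hs0 : s ≠ 0 := by have := hs.1; linarith
  have hnn1 : 0 ≤ C * ‖mixedEmbedding K (z : K)‖⁻¹ ^ (finrank ℚ K + 1) := by positivity
  have hnn2 : 0 ≤ C * ‖mixedEmbedding K ((z + a : 𝓞 K) : K)‖⁻¹ ^ (finrank ℚ K + 1) := by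
    positivity
  rw [mul_add]
  by_cases h1 : z ≠ 0 ∧ ω (logMap (mixedEmbedding K (z : K))) ≠ 0
  · have := hC s hs z a le_rfl h1.1 h1.2
    linarith
  · have hGz : h4an_G ω s z = 0 := by
      by_cases hz : z = 0
      · subst hz; exact h4an_G_zero ω hs0
      · have : ω (logMap (mixedEmbedding K (z : K))) = 0 := by
          by_contra hne; exact h1 ⟨hz, hne⟩
        unfold h4an_G; rw [this, zero_mul]
    by_cases h2 : z + a ≠ 0 ∧ ω (logMap (mixedEmbedding K ((z + a : 𝓞 K) : K))) ≠ 0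
    · have hna : ‖mixedEmbedding K ((-a : 𝓞 K) : K)‖ ≤ ‖mixedEmbedding K (a : K)‖ := by
        have : ((-a : 𝓞 K) : K) = -(a : K) := by simp
        rw [this, map_neg, norm_neg]
      have := hC s hs (z + a) (-a) hna h2.1 h2.2
      rw [add_neg_cancel_right, abs_sub_comm] at this
      linarith
    · have hGza : h4an_G ω s (z + a) = 0 := by
        by_cases hz : z + a = 0
        · rw [hz]; exact h4an_G_zero ω hs0
        · have : ω (logMap (mixedEmbedding K ((z + a : 𝓞 K) : K))) = 0 := by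
            by_contra hne; exact h2 ⟨hz, hne⟩
          unfold h4an_G; rw [this, zero_mul]
      rw [hGz, hGza, sub_zero, abs_zero]
      linarith

/-- **S3** the shift bound: `Σ_{z ∈ T} |G_s(z + a) - G_s(z)| ≤ B_a` for all finite `T`, uniformly
in `s ∈ [1,2]`. -/
theorem h4an_shift_bound (ω : logSpace K → ℝ) (hω0 : ∀ y, 0 ≤ ω y) (hω1 : ∀ y, ω y ≤ 1)
    (L : ℝ) (hL0 : 0 ≤ L)
    (hL : ∀ a b : logSpace K, ∀ δ : ℝ, 0 ≤ δ → (∀ w, |a w - b w| ≤ δ) → |ω a - ω b| ≤ L * δ)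
    (M : ℝ) (hM0 : 0 ≤ M) (hM : ∀ y : logSpace K, ω y ≠ 0 → ∀ w, |y w| ≤ M)
    (a : 𝓞 K) :
    ∃ B : ℝ, ∀ s ∈ Set.Icc (1 : ℝ) 2, ∀ T : Finset (𝓞 K),
      ∑ z ∈ T, |h4an_G ω s (z + a) - h4an_G ω s z| ≤ B := by
  obtain ⟨C, hC0, hC⟩ := h4an_shift_two_sided ω hω0 hω1 L hL0 hL M hM0 hM a
  have hS := h4an_summable_inv_pow (K := K)
  set S : ℝ := ∑' z : 𝓞 K, ‖mixedEmbedding K (z : K)‖⁻¹ ^ (finrank ℚ K + 1) with hSdef
  refine ⟨C * (S + S), fun s hs T => ?_⟩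
  have h1 : ∑ z ∈ T, ‖mixedEmbedding K (z : K)‖⁻¹ ^ (finrank ℚ K + 1) ≤ S :=
    hS.sum_le_tsum T (fun _ _ => by positivity)
  have h2 : ∑ z ∈ T, ‖mixedEmbedding K ((z + a : 𝓞 K) : K)‖⁻¹ ^ (finrank ℚ K + 1) ≤ S := by
    have hinj : Function.Injective (fun z : 𝓞 K => z + a) := add_left_injective a
    have := hS.sum_le_tsum (T.map ⟨fun z : 𝓞 K => z + a, hinj⟩) (fun _ _ => by positivity)
    rwa [Finset.sum_map] at this
  calc ∑ z ∈ T, |h4an_G ω s (z + a) - h4an_G ω s z|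
      ≤ ∑ z ∈ T, C * (‖mixedEmbedding K (z : K)‖⁻¹ ^ (finrank ℚ K + 1) +
          ‖mixedEmbedding K ((z + a : 𝓞 K) : K)‖⁻¹ ^ (finrank ℚ K + 1)) :=
        Finset.sum_le_sum fun z _ => hC s hs z
    _ = C * (∑ z ∈ T, ‖mixedEmbedding K (z : K)‖⁻¹ ^ (finrank ℚ K + 1) +
          ∑ z ∈ T, ‖mixedEmbedding K ((z + a : 𝓞 K) : K)‖⁻¹ ^ (finrank ℚ K + 1)) := by
        rw [← Finset.mul_sum, Finset.sum_add_distrib]
    _ ≤ C * (S + S) := by
        apply mul_le_mul_of_nonneg_left (add_le_add h1 h2) hC0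

end H4AN
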