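import Mathlib

/-!
# T-CFT AN-C (i) (helper7): a Lipschitz partition of unity on the logarithmic space

* `H7AN.tent`: the tent function `t ↦ max 0 (1 - |t|)`; `∑_{k ∈ ℤ} tent (t + k) = 1`.
* `H7AN.omegaB B`: for a basis `B` of a finite-dimensional real normed space, the product of the
  tents of the coordinates; it is nonnegative, bounded by `1`, Lipschitz, boundedly supported, and
  its translates by the lattice spanned by `B` sum to `1`.
* `H7AN.omega K`, `H7AN.W K`, `H7AN.F K s`: the weights on `logSpace K`, `mixedSpace K`, `𝓞 K`.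
-/

open NumberField NumberField.mixedEmbedding NumberField.Units
  NumberField.Units.dirichletUnitTheorem

namespace H7AN

/-! ### The tent function -/

/-- The tent function. -/
noncomputable def tent (t : ℝ) : ℝ := max 0 (1 - |t|)

theorem tent_nonneg (t : ℝ) : 0 ≤ tent t := le_max_left _ _

theorem tent_le_one (t : ℝ) : tent t ≤ 1 :=
  max_le zero_le_one (by linarith [abs_nonneg t])

theorem tent_eq_zero {t : ℝ} (h : 1 ≤ |t|) : tent t = 0 :=
  max_eq_left (by linarith)

theorem abs_lt_one_of_tent_ne_zero {t : ℝ} (h : tent t ≠ 0) : |t| < 1 := by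
  by_contra h1
  exact h (tent_eq_zero (not_lt.mp h1))

theorem tent_of_abs_le_one {t : ℝ} (h : |t| ≤ 1) : tent t = 1 - |t| :=
  max_eq_right (by linarith)

theorem tent_lipschitz : LipschitzWith 1 tent := by
  have h1 : LipschitzWith 1 (fun t : ℝ => 1 - |t|) := by
    refine LipschitzWith.of_dist_le_mul fun x y => ?_
    rw [Real.dist_eq, Real.dist_eq, NNReal.coe_one, one_mul]
    have : 1 - |x| - (1 - |y|) = |y| - |x| := by ring
    rw [this, abs_sub_comm x y]
    exact abs_abs_sub_abs_le_abs_sub y x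
  have h2 := (LipschitzWith.const (0 : ℝ)).max h1
  have h3 : tent = fun t : ℝ => max 0 (1 - |t|) := rfl
  rw [h3]
  simpa using h2

theorem abs_tent_sub_le (s t : ℝ) : |tent s - tent t| ≤ |s - t| := by
  have := tent_lipschitz.dist_le_mul s t
  simpa [Real.dist_eq] using this

/-- The two integers `k` with `tent (t + k) ≠ 0` (possibly). -/
noncomputable def tentSupp (t : ℝ) : Finset ℤ := {-⌊t⌋, -⌊t⌋ - 1}

theorem tent_eq_zero_of_notMem (t : ℝ) {k : ℤ} (hk : k ∉ tentSupp t) : tent (t + k) = 0 := by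
  have hfl := Int.floor_le t
  have hlt := Int.lt_floor_add_one t
  rw [tentSupp, Finset.mem_insert, Finset.mem_singleton, not_or] at hk
  apply tent_eq_zero
  rcases lt_or_gt_of_ne hk.1 with h | h
  · have h3 : (k : ℝ) ≤ -⌊t⌋ - 2 := by
      have : k ≤ -⌊t⌋ - 2 := by omega
      exact_mod_cast this
    rw [le_abs]
    right
    linarith
  · have h3 : (-⌊t⌋ : ℝ) + 1 ≤ k := by
      have : -⌊t⌋ + 1 ≤ k := by omega
      exact_mod_cast this
    rw [le_abs]
    left
    linarith

theorem sum_tentSupp (t : ℝ) : ∑ k ∈ tentSupp t, tent (t + k) = 1 := by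
  have hfl := Int.floor_le t
  have hlt := Int.lt_floor_add_one t
  have hne : (-⌊t⌋ : ℤ) ≠ -⌊t⌋ - 1 := by omega
  rw [tentSupp, Finset.sum_pair hne]
  have e1 : tent (t + ((-⌊t⌋ : ℤ) : ℝ)) = 1 - (t - ⌊t⌋) := by
    rw [tent_of_abs_le_one]
    · push_cast
      rw [abs_of_nonneg (by linarith)]
      ring
    · push_cast
      rw [abs_le]
      constructor <;> linarith
  have e2 : tent (t + ((-⌊t⌋ - 1 : ℤ) : ℝ)) = t - ⌊t⌋ := by
    rw [tent_of_abs_le_one]
    · push_cast
      rw [abs_of_nonpos (by linarith)]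
      ring
    · push_cast
      rw [abs_le]
      constructor <;> linarith
  rw [e1, e2]
  ring

/-- The integer translates of the tent function sum to `1`. -/
theorem hasSum_tent (t : ℝ) : HasSum (fun k : ℤ => tent (t + k)) 1 := by
  have hsum : HasSum (fun k : ℤ => tent (t + k)) (∑ k ∈ tentSupp t, tent (t + k)) :=
    hasSum_sum_of_ne_finset_zero fun k hk => tent_eq_zero_of_notMem t hk
  rwa [sum_tentSupp] at hsum

/-! ### The product of tents in the coordinates of a basis -/

section omegaB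

variable {ι : Type*} [Fintype ι] {V : Type*} [NormedAddCommGroup V] [NormedSpace ℝ V]

/-- The product of the tents of the coordinates with respect to the basis `B`. -/
noncomputable def omegaB (B : Module.Basis ι ℝ V) (y : V) : ℝ := ∏ i, tent (B.repr y i)

theorem omegaB_nonneg (B : Module.Basis ι ℝ V) (y : V) : 0 ≤ omegaB B y :=
  Finset.prod_nonneg fun _ _ => tent_nonneg _

theorem omegaB_le_one (B : Module.Basis ι ℝ V) (y : V) : omegaB B y ≤ 1 :=
  Finset.prod_le_one (fun _ _ => tent_nonneg _) fun _ _ => tent_le_one _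

theorem omegaB_support (B : Module.Basis ι ℝ V) :
    ∃ M : ℝ, ∀ y, omegaB B y ≠ 0 → ‖y‖ ≤ M := by
  refine ⟨∑ i, ‖B i‖, fun y hy => ?_⟩
  have h1 : ∀ i, |B.repr y i| < 1 := by
    intro i
    apply abs_lt_one_of_tent_ne_zero
    intro h0
    exact hy (Finset.prod_eq_zero (Finset.mem_univ i) h0)
  calc ‖y‖ = ‖∑ i, B.repr y i • B i‖ := by rw [B.sum_repr]
    _ ≤ ∑ i, ‖B.repr y i • B i‖ := norm_sum_le _ _
    _ ≤ ∑ i, ‖B i‖ := by
        refine Finset.sum_le_sum fun i _ => ?_
        rw [_root_.norm_smul, Real.norm_eq_abs]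
        exact mul_le_of_le_one_left (norm_nonneg _) (h1 i).le

omit [Fintype ι] in
theorem abs_prod_sub_prod_le (s : Finset ι) (a b : ι → ℝ) (ha : ∀ i, |a i| ≤ 1)
    (hb : ∀ i, |b i| ≤ 1) : |∏ i ∈ s, a i - ∏ i ∈ s, b i| ≤ ∑ i ∈ s, |a i - b i| := by
  classical
  induction s using Finset.induction_on with
  | empty => simp
  | insert j s hj ih =>
    rw [Finset.prod_insert hj, Finset.prod_insert hj, Finset.sum_insert hj]
    have h1 : a j * ∏ i ∈ s, a i - b j * ∏ i ∈ s, b i =
        (a j - b j) * ∏ i ∈ s, a i + b j * (∏ i ∈ s, a i - ∏ i ∈ s, b i) := by ring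
    have h2 : |∏ i ∈ s, a i| ≤ 1 := by
      rw [Finset.abs_prod]
      exact Finset.prod_le_one (fun _ _ => abs_nonneg _) fun i _ => ha i
    rw [h1]
    calc |(a j - b j) * ∏ i ∈ s, a i + b j * (∏ i ∈ s, a i - ∏ i ∈ s, b i)|
        ≤ |(a j - b j) * ∏ i ∈ s, a i| + |b j * (∏ i ∈ s, a i - ∏ i ∈ s, b i)| := abs_add_le _ _
      _ = |a j - b j| * |∏ i ∈ s, a i| + |b j| * |∏ i ∈ s, a i - ∏ i ∈ s, b i| := by
          rw [abs_mul, abs_mul]
      _ ≤ |a j - b j| * 1 + 1 * ∑ i ∈ s, |a i - b i| := by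
          gcongr
          · exact hb j
      _ = |a j - b j| + ∑ i ∈ s, |a i - b i| := by ring

theorem omegaB_lipschitz [FiniteDimensional ℝ V] (B : Module.Basis ι ℝ V) :
    ∃ L : NNReal, LipschitzWith L (omegaB B) := by
  let c : ι → (V →L[ℝ] ℝ) := fun i => LinearMap.toContinuousLinearMap (B.coord i)
  refine ⟨∑ i, ‖c i‖₊, ?_⟩
  refine LipschitzWith.of_dist_le_mul fun x y => ?_
  rw [Real.dist_eq, dist_eq_norm, NNReal.coe_sum]
  simp only [coe_nnnorm]
  have habs : ∀ t, |tent t| ≤ 1 := fun t => by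
    rw [abs_of_nonneg (tent_nonneg t)]; exact tent_le_one t
  calc |omegaB B x - omegaB B y|
      ≤ ∑ i, |tent (B.repr x i) - tent (B.repr y i)| :=
        abs_prod_sub_prod_le _ _ _ (fun _ => habs _) fun _ => habs _
    _ ≤ ∑ i, ‖c i‖ * ‖x - y‖ := by
        refine Finset.sum_le_sum fun i _ => ?_
        refine (abs_tent_sub_le _ _).trans ?_
        have h1 : B.repr x i - B.repr y i = c i (x - y) := by
          simp [c, map_sub]
        rw [h1, ← Real.norm_eq_abs]
        exact (c i).le_opNorm _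
    _ = (∑ i, ‖c i‖) * ‖x - y‖ := by rw [Finset.sum_mul]

/-- The translates of `omegaB` by the lattice spanned by the basis sum to `1`. -/
theorem hasSum_omegaB_add [FiniteDimensional ℝ V] {L : Submodule ℤ V} [DiscreteTopology L]
    [IsZLattice ℝ L]
    (b : Module.Basis ι ℤ L) (y : V) :
    HasSum (fun ℓ : L => omegaB (b.ofZLatticeBasis ℝ L) (y + (ℓ : V))) 1 := by
  classical
  set B := b.ofZLatticeBasis ℝ L with hB
  let t : ι → ℝ := fun i => B.repr y i
  let g : (ι → ℤ) → ℝ := fun k => ∏ i, tent (t i + k i)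
  have hg : HasSum g 1 := by
    have h0 : ∀ k : ι → ℤ, k ∉ Fintype.piFinset (fun i => tentSupp (t i)) → g k = 0 := by
      intro k hk
      rw [Fintype.mem_piFinset, not_forall] at hk
      obtain ⟨i, hi⟩ := hk
      exact Finset.prod_eq_zero (Finset.mem_univ i) (tent_eq_zero_of_notMem _ hi)
    have hsum : HasSum g (∑ k ∈ Fintype.piFinset (fun i => tentSupp (t i)), g k) :=
      hasSum_sum_of_ne_finset_zero h0
    have h1 : ∑ k ∈ Fintype.piFinset (fun i => tentSupp (t i)), g k = 1 := by
      rw [← Finset.prod_univ_sum (fun i => tentSupp (t i)) (fun i j => tent (t i + j))]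
      simp [sum_tentSupp]
    rwa [h1] at hsum
  have hcomp : (fun ℓ : L => omegaB B (y + (ℓ : V))) = g ∘ b.equivFun := by
    funext ℓ
    simp only [omegaB, g, t, Function.comp_apply]
    refine Finset.prod_congr rfl fun i _ => ?_
    rw [map_add, Finsupp.add_apply, hB, Module.Basis.ofZLatticeBasis_repr_apply]
    simp
  rw [hcomp]
  exact (Equiv.hasSum_iff b.equivFun.toEquiv).mpr hg

end omegaB

/-! ### The weights attached to a number field -/

section numberField

open scoped Classical

variable (K : Type) [Field K] [NumberField K]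

/-- The real basis of `logSpace K` given by the basis of the unit lattice. -/
noncomputable def logBasis : Module.Basis (Fin (rank K)) ℝ (logSpace K) :=
  (basisUnitLattice K).ofZLatticeBasis ℝ (unitLattice K)

/-- `ω` on `logSpace K`: the product of the tents of the coordinates with respect to the basis
of the unit lattice. -/
noncomputable def omega (y : logSpace K) : ℝ :=
  ∏ i, tent ((((basisUnitLattice K).ofZLatticeBasis ℝ (unitLattice K)).repr y) i)

theorem omega_eq_omegaB (y : logSpace K) : omega K y = omegaB (logBasis K) y := rfl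

theorem omega_nonneg (y : logSpace K) : 0 ≤ omega K y := omegaB_nonneg _ y

theorem omega_le_one (y : logSpace K) : omega K y ≤ 1 := omegaB_le_one _ y

theorem omega_lipschitz : ∃ L : NNReal, LipschitzWith L (omega K) :=
  omegaB_lipschitz (logBasis K)

theorem omega_support_bounded : ∃ M : ℝ, ∀ y, omega K y ≠ 0 → ‖y‖ ≤ M :=
  omegaB_support (logBasis K)

theorem hasSum_omega_add (y : logSpace K) :
    HasSum (fun ℓ : unitLattice K => omega K (y + (ℓ : logSpace K))) 1 :=
  hasSum_omegaB_add (basisUnitLattice K) y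

/-- `W = ω ∘ logMap` on the mixed space. -/
noncomputable def W (x : mixedSpace K) : ℝ := omega K (logMap x)

theorem W_nonneg (x : mixedSpace K) : 0 ≤ W K x := omega_nonneg K _

theorem W_le_one (x : mixedSpace K) : W K x ≤ 1 := omega_le_one K _

/-- `F_s` on `𝓞 K`: `F_s x = W x * |N x| ^ (-s)` for `x ≠ 0`, and `F_s 0 = 0`. -/
noncomputable def F (s : ℝ) (x : 𝓞 K) : ℝ :=
  if x = 0 then 0 else W K (mixedEmbedding K (x : K)) * (|Algebra.norm ℤ x| : ℝ) ^ (-s)

theorem F_zero (s : ℝ) : F K s 0 = 0 := by simp [F]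

theorem F_of_ne_zero (s : ℝ) {x : 𝓞 K} (hx : x ≠ 0) :
    F K s x = W K (mixedEmbedding K (x : K)) * (|Algebra.norm ℤ x| : ℝ) ^ (-s) := by
  simp [F, hx]

theorem F_nonneg (s : ℝ) (x : 𝓞 K) : 0 ≤ F K s x := by
  by_cases hx : x = 0
  · simp [F, hx]
  · rw [F_of_ne_zero K s hx]
    exact mul_nonneg (W_nonneg K _) (Real.rpow_nonneg (by positivity) _)

end numberField

end H7AN
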