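import Mathlib
import Fermat.Agent.CFT.AN.H7Weight

/-!
# T-CFT AN-C (i), piece P1 (helper7): the unit sum of the weight `W`

For `x` in the mixed space with nonzero norm, `∑_{u ∈ (𝓞 K)ˣ} W (u • x) = torsionOrder K`.
-/

open NumberField NumberField.mixedEmbedding NumberField.Units
  NumberField.Units.dirichletUnitTheorem

namespace H7AN

open scoped Classical

variable (K : Type) [Field K] [NumberField K]

/-- The logarithmic embedding, as a map to the unit lattice. -/
noncomputable def logPi (u : (𝓞 K)ˣ) : unitLattice K :=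
  ⟨logEmbedding K (Additive.ofMul u), ⟨Additive.ofMul u, trivial, rfl⟩⟩

theorem logPi_coe (u : (𝓞 K)ˣ) :
    ((logPi K u : unitLattice K) : logSpace K) = logEmbedding K (Additive.ofMul u) := rfl

theorem logPi_surjective : Function.Surjective (logPi K) := by
  rintro ⟨ℓ, u, -, hu⟩
  exact ⟨Additive.toMul u, Subtype.ext hu⟩

theorem logPi_eq_iff (u v : (𝓞 K)ˣ) : logPi K u = logPi K v ↔ v⁻¹ * u ∈ torsion K := by
  rw [← logEmbedding_eq_zero_iff, Subtype.ext_iff, logPi_coe, logPi_coe]
  have : logEmbedding K (Additive.ofMul (v⁻¹ * u)) =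
      logEmbedding K (Additive.ofMul u) - logEmbedding K (Additive.ofMul v) := by
    rw [ofMul_mul, map_add, ofMul_inv, map_neg]
    abel
  rw [this, sub_eq_zero]

/-- Each fibre of the logarithmic embedding is a torsor under the torsion subgroup. -/
noncomputable def logPiFibreEquiv (v : (𝓞 K)ˣ) :
    {u : (𝓞 K)ˣ // logPi K u = logPi K v} ≃ torsion K where
  toFun u := ⟨v⁻¹ * u.1, (logPi_eq_iff K u.1 v).mp u.2⟩
  invFun ζ := ⟨v * ζ.1, (logPi_eq_iff K _ v).mpr (by simp)⟩
  left_inv u := by simp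
  right_inv ζ := by simp

theorem card_logPi_fibre (ℓ : unitLattice K) :
    Nat.card {u : (𝓞 K)ˣ // logPi K u = ℓ} = torsionOrder K := by
  obtain ⟨v, rfl⟩ := logPi_surjective K ℓ
  rw [Nat.card_congr (logPiFibreEquiv K v), torsionOrder]

/-- **Unit sum.** -/
theorem hasSum_W_unit_smul (x : mixedSpace K) (hx : mixedEmbedding.norm x ≠ 0) :
    HasSum (fun u : (𝓞 K)ˣ => W K (u • x)) (torsionOrder K : ℝ) := by
  set y := logMap x with hy
  let g : unitLattice K → ℝ := fun ℓ => omega K (y + (ℓ : logSpace K))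
  have hg : HasSum g 1 := hasSum_omega_add K y
  have hf : ∀ u : (𝓞 K)ˣ, W K (u • x) = g (logPi K u) := by
    intro u
    simp only [W, g, logPi_coe]
    rw [logMap_unit_smul u hx, add_comm]
  have hfin : ∀ ℓ : unitLattice K, Finite {u : (𝓞 K)ˣ // logPi K u = ℓ} := by
    intro ℓ
    apply Nat.finite_of_card_ne_zero
    rw [card_logPi_fibre]
    exact torsionOrder_ne_zero K
  -- reindex by the fibres
  rw [← (Equiv.sigmaFiberEquiv (logPi K)).hasSum_iff]
  have hfib : ∀ ℓ : unitLattice K,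
      HasSum (fun u : {u : (𝓞 K)ˣ // logPi K u = ℓ} => g ℓ) ((torsionOrder K : ℝ) * g ℓ) := by
    intro ℓ
    have := hfin ℓ
    let _ := Fintype.ofFinite {u : (𝓞 K)ˣ // logPi K u = ℓ}
    have h1 := hasSum_fintype (fun _ : {u : (𝓞 K)ˣ // logPi K u = ℓ} => g ℓ)
    rw [Finset.sum_const, Finset.card_univ, ← Nat.card_eq_fintype_card, card_logPi_fibre,
      nsmul_eq_mul] at h1
    exact h1
  have hcomp : ((fun u : (𝓞 K)ˣ => W K (u • x)) ∘ (Equiv.sigmaFiberEquiv (logPi K))) =
      fun p : (Σ ℓ : unitLattice K, {u : (𝓞 K)ˣ // logPi K u = ℓ}) => g p.1 := by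
    funext p
    obtain ⟨ℓ, u, hu⟩ := p
    simp only [Function.comp_apply, Equiv.sigmaFiberEquiv_apply]
    rw [hf, hu]
  rw [hcomp]
  have htot : HasSum (fun ℓ : unitLattice K => (torsionOrder K : ℝ) * g ℓ)
      (torsionOrder K : ℝ) := by
    have := hg.mul_left (torsionOrder K : ℝ)
    rwa [mul_one] at this
  refine HasSum.sigma_of_hasSum htot hfib ?_
  rw [summable_sigma_of_nonneg]
  · refine ⟨fun ℓ => (hfib ℓ).summable, ?_⟩
    have : (fun ℓ : unitLattice K => ∑' _ : {u : (𝓞 K)ˣ // logPi K u = ℓ}, g ℓ) =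
        fun ℓ => (torsionOrder K : ℝ) * g ℓ := by
      funext ℓ
      exact (hfib ℓ).tsum_eq
    rw [this]
    exact htot.summable
  · intro p
    exact omega_nonneg K _

end H7AN
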