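import Mathlib
import Fermat.Agent.CFT.AN.H4CDefs
import Fermat.Agent.CFT.AN.H4CShift
import Fermat.Agent.CFT.AN.H7Weight
import Fermat.Agent.CFT.AN.H7UnitSum

/-!
# T-CFT module AN, slice AN-C (helper4): the shift bound and the unit sum in the `H4AN` form

Bridges between helper7's weight `H7AN.omega` and the weight `h4an_W` of `H4CDefs.lean`, and the
proofs of `h4an_UnitSum K` and `h4an_ShiftBound K`.
-/

set_option autoImplicit false


namespace H4AN

open NumberField NumberField.InfinitePlace NumberField.mixedEmbedding NumberField.Units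
  NumberField.Units.dirichletUnitTheorem Module
open scoped Classical

variable (K : Type) [Field K] [NumberField K]

theorem h4an_basis_eq : h4an_basis K = H7AN.logBasis K := by
  unfold h4an_basis H7AN.logBasis
  exact basisOfIsMaxRank_fundSystem K

theorem h4an_W_eq {x : mixedSpace K} (hx : mixedEmbedding.norm x ≠ 0) :
    h4an_W K x = H7AN.W K x := by
  unfold h4an_W
  rw [if_neg hx]
  unfold h4an_coord
  rw [h4an_basis_eq]
  rfl

/-- **P1** in the `H4AN` form (from helper7's `H7AN.hasSum_W_unit_smul`). -/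
theorem h4an_unitSum : h4an_UnitSum K := by
  intro x hx
  have h := H7AN.hasSum_W_unit_smul K x hx
  have e : (fun u : (𝓞 K)ˣ => h4an_W K (u • x)) = fun u : (𝓞 K)ˣ => H7AN.W K (u • x) := by
    funext u
    exact h4an_W_eq K (by rw [norm_unit_smul]; exact hx)
  rw [e]
  exact h

theorem h4an_F_eq_G {s : ℝ} (hs : s ≠ 0) (z : 𝓞 K) :
    h4an_F K s (mixedEmbedding K (z : K)) = h4an_G (H7AN.omega K) s z := by
  unfold h4an_F h4an_G
  by_cases hz : z = 0
  · subst hz
    simp [Real.zero_rpow (neg_ne_zero.mpr hs)]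
  · rw [h4an_W_eq K (h4an_norm_ne_zero hz)]
    rfl

/-- **P5/P6** the shift bound in the `H4AN` form. -/
theorem h4an_shiftBound : h4an_ShiftBound K := by
  intro a
  obtain ⟨L, hL⟩ := H7AN.omega_lipschitz K
  obtain ⟨M, hM⟩ := H7AN.omega_support_bounded K
  have hLip : ∀ a b : logSpace K, ∀ δ : ℝ, 0 ≤ δ → (∀ w, |a w - b w| ≤ δ) →
      |H7AN.omega K a - H7AN.omega K b| ≤ (L : ℝ) * δ := by
    intro a b δ hδ hab
    have h1 := hL.dist_le_mul a b
    rw [Real.dist_eq] at h1
    refine h1.trans (mul_le_mul_of_nonneg_left ?_ L.coe_nonneg)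
    rw [dist_pi_le_iff hδ]
    intro w
    rw [Real.dist_eq]
    exact hab w
  have hSupp : ∀ y : logSpace K, H7AN.omega K y ≠ 0 → ∀ w, |y w| ≤ max M 0 := by
    intro y hy w
    have := hM y hy
    calc |y w| = ‖y w‖ := (Real.norm_eq_abs _).symm
      _ ≤ ‖y‖ := norm_le_pi_norm y w
      _ ≤ M := this
      _ ≤ max M 0 := le_max_left _ _
  obtain ⟨B, hB⟩ := h4an_shift_bound (H7AN.omega K) (H7AN.omega_nonneg K) (H7AN.omega_le_one K)
    (L : ℝ) L.coe_nonneg hLip (max M 0) (le_max_right _ _) hSupp a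
  refine ⟨B, fun s hs T => ?_⟩
  have hs0 : s ≠ 0 := by have := hs.1; linarith
  simp_rw [h4an_F_eq_G K hs0]
  exact hB s hs T

end H4AN
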