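import Fermat.Agent.CFT.AN.H17SecondIneq
import Fermat.Agent.CFT.AN.H4CBridge

/-!
# T-CFT, module AN: the second inequality and the existence of non-split primes (final)

* `H17AN.h17an_secondInequality : H14CFT.SecondInequality`
* `H17AN.h17an_nonSplitPrimeExists : H14CFT.NonSplitPrimeExists` (in `H17Main.lean`)

Slices: AN0 + AN-D + assembly (helper17), AN-A Euler product and prime sums (helper12), SP splitting
(helper25), AN-C partial zeta functions: weight and unit sum (helper7), orbit sum (helper12),
shift estimate (helper4), coset comparison (helper25).
-/

set_option autoImplicit false

namespace H17AN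

/-- `PartialZetaBounded` (AN-C), unconditional. -/
theorem h17an_partialZetaBounded (K : Type) [Field K] [NumberField K] : PartialZetaBounded K :=
  h17an_partialZetaBounded_of_shift K (H4AN.h4an_shiftBound K)

/-- **(SI) Second inequality.** -/
theorem h17an_secondInequality : H14CFT.SecondInequality :=
  h17an_secondInequality_of_shift fun K _ _ => H4AN.h4an_shiftBound K

end H17AN
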