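import Mathlib

/-!
# T-CFT, module AN, slice AN-C (iii) (helper25): the coset decomposition step

For a summable `f : R → ℝ` on a ring, an ideal `J` of finite index `m`, and a shift bound
`Σ_{x ∈ T} |f (x + a) - f x| ≤ Bd a` (all finite `T`), we get
`|Σ_{y ∈ R} f y - m · Σ_{x ∈ J} f x| ≤ Σ_{q ∈ R/J} Bd (r q)` for a system `r` of representatives.
-/

set_option autoImplicit false

namespace H25Main

open scoped BigOperators

variable {R : Type*} [CommRing R] (J : Ideal R)

/-- a system of representatives of `R ⧸ J` -/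
noncomputable def h25main_rep (q : R ⧸ J) : R :=
  Function.surjInv (Ideal.Quotient.mk_surjective (I := J)) q

theorem h25main_mk_rep (q : R ⧸ J) : Ideal.Quotient.mk J (h25main_rep J q) = q :=
  Function.surjInv_eq (Ideal.Quotient.mk_surjective (I := J)) q

/-- translation by the representative identifies `J` with the coset `q` -/
noncomputable def h25main_cosetEquiv (q : R ⧸ J) :
    J ≃ ((Ideal.Quotient.mk J) ⁻¹' {q} : Set R) where
  toFun x := ⟨x.1 + h25main_rep J q, by
    simp only [Set.mem_preimage, Set.mem_singleton_iff, map_add, h25main_mk_rep]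
    rw [Ideal.Quotient.eq_zero_iff_mem.mpr x.2, zero_add]⟩
  invFun y := ⟨y.1 - h25main_rep J q, by
    have hy : Ideal.Quotient.mk J y.1 = q := y.2
    rw [← Ideal.Quotient.eq_zero_iff_mem, map_sub, h25main_mk_rep, hy, sub_self]⟩
  left_inv x := by
    apply Subtype.ext
    simp
  right_inv y := by
    apply Subtype.ext
    simp

theorem h25main_tsum_coset (f : R → ℝ) (q : R ⧸ J) :
    ∑' y : ((Ideal.Quotient.mk J) ⁻¹' {q} : Set R), f y.1 =
      ∑' x : J, f (x.1 + h25main_rep J q) := by
  rw [← (h25main_cosetEquiv J q).tsum_eq (fun y => f y.1)]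
  rfl

theorem h25main_tsum_eq_sum_cosets [Fintype (R ⧸ J)] (f : R → ℝ) (hf : Summable f) :
    ∑' y : R, f y = ∑ q : R ⧸ J, ∑' x : J, f (x.1 + h25main_rep J q) := by
  have hfib := hf.hasSum.tsum_fiberwise (Ideal.Quotient.mk J)
  have h2 := hfib.unique (hasSum_fintype _)
  rw [h2]
  apply Finset.sum_congr rfl
  intro q _
  exact h25main_tsum_coset J f q

theorem h25main_summable_shift_sub (f : R → ℝ) (a : R) (B : ℝ)
    (hB : ∀ T : Finset R, ∑ x ∈ T, |f (x + a) - f x| ≤ B) :
    Summable (fun x : J => |f (x.1 + a) - f x.1|) ∧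
      ∑' x : J, |f (x.1 + a) - f x.1| ≤ B := by
  have hT : ∀ T : Finset J, ∑ x ∈ T, |f (x.1 + a) - f x.1| ≤ B := by
    intro T
    have := hB (T.map ⟨Subtype.val, Subtype.val_injective⟩)
    rwa [Finset.sum_map] at this
  have hs : Summable (fun x : J => |f (x.1 + a) - f x.1|) :=
    summable_of_sum_le (fun x => abs_nonneg _) hT
  refine ⟨hs, ?_⟩
  exact hs.tsum_le_of_sum_le hT

/-- The coset bound. -/
theorem h25main_coset_bound [Fintype (R ⧸ J)] (f : R → ℝ) (hf : Summable f)
    (Bd : R → ℝ) (hBd : ∀ a : R, ∀ T : Finset R, ∑ x ∈ T, |f (x + a) - f x| ≤ Bd a) :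
    |∑' y : R, f y - (Fintype.card (R ⧸ J) : ℝ) * ∑' x : J, f x.1| ≤
      ∑ q : R ⧸ J, Bd (h25main_rep J q) := by
  have hfJ : Summable (fun x : J => f x.1) := hf.subtype _
  have h1 := h25main_tsum_eq_sum_cosets J f hf
  have h2 : (Fintype.card (R ⧸ J) : ℝ) * ∑' x : J, f x.1 =
      ∑ _q : R ⧸ J, ∑' x : J, f x.1 := by
    rw [Finset.sum_const, Finset.card_univ, nsmul_eq_mul]
  rw [h1, h2, ← Finset.sum_sub_distrib]
  refine le_trans (Finset.abs_sum_le_sum_abs _ _) ?_
  apply Finset.sum_le_sum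
  intro q _
  obtain ⟨hs, hle⟩ := h25main_summable_shift_sub J f (h25main_rep J q) _ (hBd (h25main_rep J q))
  have hs' : Summable (fun x : J => f (x.1 + h25main_rep J q) - f x.1) := hs.of_abs
  have hsq : Summable (fun x : J => f (x.1 + h25main_rep J q)) := by
    have := hs'.add hfJ
    simpa using this
  rw [← hsq.tsum_sub hfJ]
  refine le_trans ?_ hle
  have := norm_tsum_le_tsum_norm (f := fun x : J => f (x.1 + h25main_rep J q) - f x.1)
    (by simpa [Real.norm_eq_abs] using hs)
  simpa [Real.norm_eq_abs] using this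

end H25Main
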