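import Mathlib
import Fermat.Agent.CFT.AN.Defs
import Fermat.Agent.CFT.AN.H4CDefs
import Fermat.Agent.CFT.AN.H25MainCoset

/-!
# T-CFT, module AN, slice AN-C (iii) MAIN (helper25)

`H25Main.h25main_partialZetaBounded :
  h4an_OrbitSum K → h4an_ShiftBound K → ZetaBounds K → ZetaSummable K → PartialZetaBounded K`.
-/

set_option autoImplicit false

namespace H25Main

open NumberField NumberField.mixedEmbedding NumberField.Units
open scoped nonZeroDivisors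

variable (K : Type) [Field K] [NumberField K]

/-- the smoothed summand on `𝓞 K` -/
noncomputable def h25main_f (s : ℝ) (x : 𝓞 K) : ℝ :=
  H4AN.h4an_F K s (mixedEmbedding K (x : K))

/-- total sum: `Σ_{x ∈ 𝓞} F_s(x) = w ζ(s, 1)` -/
theorem h25main_hasSum_top (hO : H4AN.h4an_OrbitSum K) (s : ℝ) (hs : 1 < s) :
    HasSum (h25main_f K s) ((torsionOrder K : ℝ) * H17AN.zetaC K 1 s) := by
  have h := hO 1 s hs
  have h1 : (((1 : (Ideal (𝓞 K))⁰) : Ideal (𝓞 K)) : Set (𝓞 K)) = Set.univ := by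
    simp
  rw [h1, Set.indicator_univ] at h
  have h2 : HasSum (fun x : 𝓞 K => H4AN.h4an_F K s (mixedEmbedding K (x : K)))
      ((torsionOrder K : ℝ) * H17AN.zetaC K 1 s) := by simpa using h
  exact h2

/-- sum over `J`: `Σ_{x ∈ J} F_s(x) = w N(J)^{-s} ζ(s, [J]⁻¹)` -/
theorem h25main_hasSum_ideal (hO : H4AN.h4an_OrbitSum K) (J : (Ideal (𝓞 K))⁰) (s : ℝ)
    (hs : 1 < s) :
    HasSum (fun x : (J : Ideal (𝓞 K)) => h25main_f K s x.1)
      ((torsionOrder K : ℝ) * (Ideal.absNorm (J : Ideal (𝓞 K)) : ℝ) ^ (-s) *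
        H17AN.zetaC K (ClassGroup.mk0 J)⁻¹ s) := by
  have h := hO J s hs
  exact hasSum_subtype_iff_indicator.mpr h

/-- `N(J)` as the cardinality of the (finite) quotient -/
theorem h25main_card_quot (J : (Ideal (𝓞 K))⁰) [Fintype (𝓞 K ⧸ (J : Ideal (𝓞 K)))] :
    (Fintype.card (𝓞 K ⧸ (J : Ideal (𝓞 K))) : ℝ) = (Ideal.absNorm (J : Ideal (𝓞 K)) : ℝ) := by
  rw [Ideal.absNorm_apply, Submodule.cardQuot_apply, Nat.card_eq_fintype_card]

/-- Step 1: `|w ζ(s,1) - w N(J)^{1-s} ζ(s,[J]⁻¹)| ≤ B_J` on `(1,2]`. -/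
theorem h25main_step1 (hO : H4AN.h4an_OrbitSum K) (hS : H4AN.h4an_ShiftBound K)
    (J : (Ideal (𝓞 K))⁰) :
    ∃ B : ℝ, ∀ s ∈ Set.Ioc (1 : ℝ) 2,
      |(torsionOrder K : ℝ) * H17AN.zetaC K 1 s -
        (Ideal.absNorm (J : Ideal (𝓞 K)) : ℝ) *
          ((torsionOrder K : ℝ) * (Ideal.absNorm (J : Ideal (𝓞 K)) : ℝ) ^ (-s) *
            H17AN.zetaC K (ClassGroup.mk0 J)⁻¹ s)| ≤ B := by
  classical
  choose Bd hBd using hS
  have hJ0 : (J : Ideal (𝓞 K)) ≠ ⊥ := nonZeroDivisors.coe_ne_zero J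
  have hfin : Finite (𝓞 K ⧸ (J : Ideal (𝓞 K))) := Ideal.finiteQuotientOfFreeOfNeBot _ hJ0
  let _ : Fintype (𝓞 K ⧸ (J : Ideal (𝓞 K))) := Fintype.ofFinite _
  refine ⟨∑ q : 𝓞 K ⧸ (J : Ideal (𝓞 K)), Bd (h25main_rep (J : Ideal (𝓞 K)) q), ?_⟩
  intro s hs
  have hs1 : 1 < s := hs.1
  have hsI : s ∈ Set.Icc (1 : ℝ) 2 := ⟨hs.1.le, hs.2⟩
  have htop := h25main_hasSum_top K hO s hs1
  have hid := h25main_hasSum_ideal K hO J s hs1
  have hb := h25main_coset_bound (J : Ideal (𝓞 K)) (h25main_f K s) htop.summable Bd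
    (fun a T => hBd a s hsI T)
  rw [htop.tsum_eq, hid.tsum_eq, h25main_card_quot K J] at hb
  exact hb

theorem h25main_real_step (m : ℕ) (hm : 1 ≤ m) (s : ℝ) (hs : 1 < s) (w : ℝ) (hw : 0 < w)
    (z z₁ Cζ B : ℝ) (hz : 0 ≤ z) (hzC : z ≤ Cζ / (s - 1))
    (hB : |w * z₁ - (m : ℝ) * (w * (m : ℝ) ^ (-s) * z)| ≤ B) :
    |z - z₁| ≤ B / w + Real.log m * Cζ := by
  have hm0 : (0 : ℝ) < m := by exact_mod_cast hm
  set t : ℝ := (m : ℝ) * (m : ℝ) ^ (-s) with ht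
  have ht' : t = Real.exp (Real.log m * (1 - s)) := by
    rw [ht, Real.rpow_def_of_pos hm0, ← Real.exp_log hm0, ← Real.exp_add, Real.exp_log hm0]
    ring_nf
  have hlog : 0 ≤ Real.log m := Real.log_nonneg (by exact_mod_cast hm)
  have ht1 : t ≤ 1 := by
    rw [ht']
    apply Real.exp_le_one_iff.mpr
    nlinarith
  have ht2 : 1 - t ≤ (s - 1) * Real.log m := by
    have := Real.add_one_le_exp (Real.log m * (1 - s))
    rw [← ht'] at this
    linarith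
  have h1 : |t * z - z₁| ≤ B / w := by
    have e : w * z₁ - (m : ℝ) * (w * (m : ℝ) ^ (-s) * z) = w * (z₁ - t * z) := by
      rw [ht]; ring
    rw [e, abs_mul, abs_of_pos hw] at hB
    rw [abs_sub_comm, le_div_iff₀ hw]
    linarith
  have hs0 : 0 < s - 1 := by linarith
  have h2 : |z - t * z| ≤ Real.log m * Cζ := by
    have e : z - t * z = (1 - t) * z := by ring
    rw [e, abs_of_nonneg (mul_nonneg (by linarith) hz)]
    calc (1 - t) * z ≤ ((s - 1) * Real.log m) * (Cζ / (s - 1)) := by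
          apply mul_le_mul ht2 hzC hz
          exact mul_nonneg hs0.le hlog
      _ = Real.log m * Cζ := by field_simp
  calc |z - z₁| = |(z - t * z) + (t * z - z₁)| := by ring_nf
    _ ≤ |z - t * z| + |t * z - z₁| := abs_add_le _ _
    _ ≤ Real.log m * Cζ + B / w := add_le_add h2 h1
    _ = B / w + Real.log m * Cζ := by ring

theorem h25main_zetaC_nonneg (C : ClassGroup (𝓞 K)) (s : ℝ) : 0 ≤ H17AN.zetaC K C s :=
  tsum_nonneg (fun I => by positivity)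

theorem h25main_zetaC_le (hZ : H17AN.ZetaSummable K) (C : ClassGroup (𝓞 K)) (s : ℝ)
    (hs : 1 < s) : H17AN.zetaC K C s ≤ H17AN.zetaI K s :=
  tsum_comp_le_tsum_of_inj (hZ s hs) (fun I => by positivity) Subtype.val_injective

/-- the bound for one class -/
theorem h25main_class (hO : H4AN.h4an_OrbitSum K) (hS : H4AN.h4an_ShiftBound K)
    (hB : H17AN.ZetaBounds K) (hZ : H17AN.ZetaSummable K) (C : ClassGroup (𝓞 K)) :
    ∃ B : ℝ, ∀ s ∈ Set.Ioc (1 : ℝ) 2, |H17AN.zetaC K C s - H17AN.zetaC K 1 s| ≤ B := by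
  obtain ⟨J, hJ⟩ := ClassGroup.mk0_surjective C⁻¹
  obtain ⟨B, hB1⟩ := h25main_step1 K hO hS J
  obtain ⟨c, Cζ, hc, hbd⟩ := hB
  have hJ0 : (J : Ideal (𝓞 K)) ≠ ⊥ := nonZeroDivisors.coe_ne_zero J
  have hm : 1 ≤ Ideal.absNorm (J : Ideal (𝓞 K)) :=
    Nat.one_le_iff_ne_zero.mpr (fun h => hJ0 (Ideal.absNorm_eq_zero_iff.mp h))
  have hw : (0 : ℝ) < (torsionOrder K : ℝ) := by exact_mod_cast torsionOrder_pos K
  refine ⟨B / (torsionOrder K : ℝ) + Real.log (Ideal.absNorm (J : Ideal (𝓞 K))) * Cζ, ?_⟩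
  intro s hs
  have h1 := hB1 s hs
  rw [hJ, inv_inv] at h1
  exact h25main_real_step (Ideal.absNorm (J : Ideal (𝓞 K))) hm s hs.1 _ hw _ _ Cζ B
    (h25main_zetaC_nonneg K C s) (le_trans (h25main_zetaC_le K hZ C s hs.1) (hbd s hs).2) h1

/-- **AN-C (iii) MAIN.** -/
theorem h25main_partialZetaBounded (hO : H4AN.h4an_OrbitSum K) (hS : H4AN.h4an_ShiftBound K)
    (hB : H17AN.ZetaBounds K) (hZ : H17AN.ZetaSummable K) : H17AN.PartialZetaBounded K := by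
  classical
  choose Bc hBc using h25main_class K hO hS hB hZ
  refine ⟨∑ C : ClassGroup (𝓞 K), |Bc C|, fun C s hs => ?_⟩
  exact le_trans (hBc C s hs) (le_trans (le_abs_self _)
    (Finset.single_le_sum (f := fun C => |Bc C|) (fun _ _ => abs_nonneg _) (Finset.mem_univ C)))

end H25Main
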