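import Mathlib
import Fermat.Agent.CFT.AN.H7UnitSum
import Fermat.Agent.CFT.AN.H4CDefs

/-!
# T-CFT AN-C P1 (helper7): the unit sum in helper4's form `H4AN.h4an_UnitSum`
-/

open NumberField NumberField.mixedEmbedding NumberField.Units
  NumberField.Units.dirichletUnitTheorem

namespace H7AN

open scoped Classical

variable (K : Type) [Field K] [NumberField K]

theorem h4an_tent_eq (t : ℝ) : H4AN.h4an_tent t = tent t := rfl

theorem h4an_W_eq_of_norm_ne_zero (x : mixedSpace K) (hx : mixedEmbedding.norm x ≠ 0) :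
    H4AN.h4an_W K x = W K x := by
  rw [H4AN.h4an_W, if_neg hx, W, omega]
  refine Finset.prod_congr rfl fun i _ => ?_
  rw [h4an_tent_eq, H4AN.h4an_coord, H4AN.h4an_basis, basisOfIsMaxRank_fundSystem]

/-- **P1** in helper4's form. -/
theorem h7an_unitSum : H4AN.h4an_UnitSum K := by
  intro x hx
  have h := hasSum_W_unit_smul K x hx
  have heq : (fun u : (𝓞 K)ˣ => H4AN.h4an_W K (u • x)) = fun u : (𝓞 K)ˣ => W K (u • x) := by
    funext u
    apply h4an_W_eq_of_norm_ne_zero
    rw [norm_unit_smul]
    exact hx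
  rw [heq]
  exact h

end H7AN
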