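import Fermat.Agent.CFT.AN.H17Main
import Fermat.Agent.CFT.AN.H25Main
import Fermat.Agent.CFT.AN.H12Orbit
import Fermat.Agent.CFT.AN.H7UnitSumBridge

/-!
# T-CFT, module AN: `SecondInequality` from the shift estimate (helper17)

With the unit sum (helper7), the orbit sum (helper12), the coset comparison (helper25), the Euler
product and the prime sums (helper12), the splitting slices (helper25) and `AN-D`, `AN0`
(helper17), the second inequality follows from the shift estimate `H4AN.h4an_ShiftBound`
(helper4).
-/

set_option autoImplicit false

namespace H17AN

open NumberField

/-- `PartialZetaBounded` from the shift estimate. -/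
theorem h17an_partialZetaBounded_of_shift (K : Type) [Field K] [NumberField K]
    (hS : H4AN.h4an_ShiftBound K) : PartialZetaBounded K :=
  H25Main.h25main_partialZetaBounded K (H12AN.h12_orbitSum K (H7AN.h7an_unitSum K)) hS
    (h17an_zetaBounds' K) (H12AN.h12_zetaSummable K)

/-- **(SI)** from the shift estimate. -/
theorem h17an_secondInequality_of_shift
    (hS : ∀ (K : Type) [Field K] [NumberField K], H4AN.h4an_ShiftBound K) :
    H14CFT.SecondInequality :=
  h17an_secondInequality_of_partialZeta fun K _ _ => h17an_partialZetaBounded_of_shift K (hS K)

end H17AN
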